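import Fermat.Agent.CFT.EulerChar.Layered

/-!
# The defect is additive on short exact sequences
-/

set_option autoImplicit false
set_option linter.style.haveILetI false

open CategoryTheory groupCohomology ExtCitation Module

noncomputable section

namespace Fermat.Agent.CFT.Euler

open Fermat.Agent.CFT.Sha

variable {p : ℕ} [Fact p.Prime] {S : Finset Nat.Primes}

/-- `M` is trivial on `W`. -/
def TrivOn (W : Subgroup GQ) (M : Rep.{0} (ZMod p) GQ) : Prop := ∀ g ∈ W, M.ρ g = 1

theorem TrivOn.smooth {W : Subgroup GQ} {M : Rep.{0} (ZMod p) GQ} (h : TrivOn W M)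
    (hW : IsLevelSubgroup (Levels.unr S) (MonoidHom.id GQ) W) :
    IsSmoothRep (Levels.unr S) (MonoidHom.id GQ) M := fun m => by
  obtain ⟨F, hF, hle⟩ := hW
  exact ⟨F, hF, fun s hs => by rw [h s (hle s hs)]; rfl⟩

theorem TrivOn.dual {W : Subgroup GQ} {A M : Rep.{0} (ZMod p) GQ} (h : TrivOn W M)
    (P : DualPair p (cycloChar p) A M) (hχ : ∀ g ∈ W, cycloChar p g = 1) : TrivOn W A :=
  fun g hg => rho_eq_one_of_pair P (h g hg) (hχ g hg)

theorem TrivOn.funRep {W : Subgroup GQ} [W.Normal] {M : Rep.{0} (ZMod p) GQ} (h : TrivOn W M)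
    {U : Subgroup GQ} (hWU : W ≤ U) : TrivOn W (funRep M U) := fun g hg =>
  LinearMap.ext fun f => funext fun x => by
    obtain ⟨a, rfl⟩ := QuotientGroup.mk_surjective x
    have hx : g⁻¹ • (QuotientGroup.mk a : GQ ⧸ U) = QuotientGroup.mk a := by
      rw [MulAction.Quotient.smul_mk, QuotientGroup.eq, smul_eq_mul, mul_inv_rev, inv_inv]
      have := (inferInstance : W.Normal).conj_mem g hg a⁻¹
      rw [inv_inv] at this
      exact hWU this
    rw [funRep_ρ_apply, hx, h g hg]
    rfl

theorem le_levelSubgroup {W U : Subgroup GQ} (hWU : W ≤ U)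
    (hW : IsLevelSubgroup (Levels.unr S) (MonoidHom.id GQ) W) :
    IsLevelSubgroup (Levels.unr S) (MonoidHom.id GQ) U := by
  obtain ⟨F, hF, h⟩ := hW
  exact ⟨F, hF, fun s hs => hWU (h s hs)⟩

/-- A subgroup of index prime to `p` above `W` with `p`-group image modulo `W`. -/
theorem exists_sylow_above (W : Subgroup GQ) [W.Normal] [Finite (GQ ⧸ W)]
    (hχ : ∀ g ∈ W, cycloChar p g = 1) :
    ∃ U : Subgroup GQ, W ≤ U ∧ ¬ p ∣ U.index ∧ (∀ g ∈ U, cycloChar p g = 1) ∧
      ∀ g ∈ U, ∃ k : ℕ, g ^ p ^ k ∈ W := by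
  obtain ⟨Q⟩ : Nonempty (Sylow p (GQ ⧸ W)) := inferInstance
  let U : Subgroup GQ := Q.1.comap (QuotientGroup.mk' W)
  have hle : W ≤ U := fun g hg => by
    change QuotientGroup.mk' W g ∈ Q.1
    rw [show QuotientGroup.mk' W g = 1 from (QuotientGroup.eq_one_iff g).2 hg]
    exact one_mem _
  have hpow : ∀ g ∈ U, ∃ k : ℕ, g ^ p ^ k ∈ W := fun g hg => by
    obtain ⟨k, hk⟩ := Q.2 ⟨_, hg⟩
    refine ⟨k, (QuotientGroup.eq_one_iff _).1 ?_⟩
    have := congrArg Subtype.val hk
    simpa using this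
  refine ⟨U, hle, ?_, fun g hg => ?_, hpow⟩
  · rw [Subgroup.index_comap_of_surjective _ (QuotientGroup.mk'_surjective W)]
    exact Q.not_dvd_index
  · obtain ⟨k, hk⟩ := hpow g hg
    have h1 : cycloChar p g ^ p ^ k = 1 := by rw [← map_pow]; exact hχ _ hk
    have h2 : cycloChar p g ^ (p - 1) = 1 := by
      rw [← ZMod.card_units p]; exact pow_card_eq_one
    have hco : Nat.Coprime (p ^ k) (p - 1) := by
      refine Nat.Coprime.pow_left k ((Nat.Prime.coprime_iff_not_dvd Fact.out).2 fun h => ?_)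
      have := (Fact.out : p.Prime).two_le
      exact absurd (Nat.le_of_dvd (by omega) h) (by omega)
    have h := pow_gcd_eq_one.2 ⟨h1, h2⟩
    rwa [hco.gcd_eq_one, pow_one] at h

variable (hp2 : p ≠ 2) (hpS : pPrime p ∈ S) {W : Subgroup GQ} [W.Normal]
  (hW : IsLevelSubgroup (Levels.unr S) (MonoidHom.id GQ) W)
  (hχW : ∀ g ∈ W, cycloChar p g = 1)

include hp2 hpS hW hχW in
/-- `funRep M U` has defect zero as soon as `U` has `p`-group image modulo `W`. -/
theorem defect_funRep_of_trivOn {M : Rep.{0} (ZMod p) GQ} [FiniteDimensional (ZMod p) M]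
    (hM : TrivOn W M) {U : Subgroup GQ} (hWU : W ≤ U) (hχ : ∀ g ∈ U, cycloChar p g = 1)
    (hpow : ∀ g ∈ U, ∃ k : ℕ, g ^ p ^ k ∈ W) :
    defect S (funRep M U) = 0 := by
  haveI : FiniteDimensional (ZMod p) (M.dualTwist (cycloChar p)) :=
    inferInstanceAs (FiniteDimensional (ZMod p) (Module.Dual (ZMod p) M))
  exact defect_funRep_eq_zero hp2 hpS ((hM.dual (evalPair M) hχW).smooth hW) (hM.smooth hW)
    (evalPair M) (le_levelSubgroup hWU hW) hχ fun g hg => (hpow g hg).imp fun k hk => hM _ hk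

include hp2 hpS hW hχW in
/-- Additivity. -/
theorem defect_additive {A B C : Rep.{0} (ZMod p) GQ} [FiniteDimensional (ZMod p) B]
    (hB : TrivOn W B) (φ : A →ₗ[ZMod p] B) (hφ : ∀ g a, φ (A.ρ g a) = B.ρ g (φ a))
    (ψ : B →ₗ[ZMod p] C) (hψ : ∀ g b, ψ (B.ρ g b) = C.ρ g (ψ b))
    (hi : Function.Injective φ) (hs : Function.Surjective ψ) (he : Function.Exact φ ψ) :
    defect S B = defect S A + defect S C := by
  classical
  haveI : FiniteDimensional (ZMod p) A := FiniteDimensional.of_injective φ hi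
  haveI : FiniteDimensional (ZMod p) C := Module.Finite.of_surjective ψ hs
  have hA : TrivOn W A := fun g hg => LinearMap.ext fun a => hi (by rw [hφ, hB g hg]; rfl)
  have hC : TrivOn W C := fun g hg => LinearMap.ext fun c => by
    obtain ⟨b, rfl⟩ := hs c
    rw [← hψ, hB g hg]
    rfl
  haveI : Finite (GQ ⧸ W) := hW.finite_quotient
  obtain ⟨U, hWU, hidx, hχ, hpow⟩ := exists_sylow_above W hχW
  have hU := le_levelSubgroup hWU hW
  haveI : Finite (GQ ⧸ U) := hU.finite_quotient
  letI := Fintype.ofFinite (GQ ⧸ U)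
  have hsub := defect_subadd hp2 hpS (hA.smooth hW) (hB.smooth hW) (hC.smooth hW) φ hφ ψ hψ hi hs he
  have hz : ∀ X : Rep.{0} (ZMod p) GQ, [FiniteDimensional (ZMod p) X] → TrivOn W X →
      defect S X + defect S (complRep X U) = 0 := fun X _ hX => by
    haveI := Sha.finiteDimensional_funRep X U
    haveI : FiniteDimensional (ZMod p) (complRep X U) :=
      inferInstanceAs (FiniteDimensional (ZMod p) (LinearMap.ker (avgFun X U)))
    have hN := isSmoothRep_funRep (Levels.hasNormal_unr S) hU (hX.smooth hW)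
    have hK : IsSmoothRep (Levels.unr S) (MonoidHom.id GQ) (complRep X U) := fun f => by
      obtain ⟨F, hF, h⟩ := hN f.1
      exact ⟨F, hF, fun s hs => Subtype.ext (h s hs)⟩
    rw [← defect_split hp2 hpS hN (hX.smooth hW) hK (constFun X U) (constFun_equivariant X U)
      (avgFun X U) (avgFun_equivariant X U) (LinearMap.ker (avgFun X U)).subtype (fun g c => rfl)
      (complProj X U hidx) (complProj_equivariant X U hidx) (avgFun_constFun X U hidx)
      (fun c => LinearMap.mem_ker.1 c.2)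
      (fun m => Subtype.ext (by
        change constFun X U m - constFun X U (avgFun X U (constFun X U m)) = 0
        rw [avgFun_constFun X U hidx, sub_self]))
      (fun c => Subtype.ext (by
        change c.1 - constFun X U (avgFun X U c.1) = c.1
        rw [LinearMap.mem_ker.1 c.2, map_zero, sub_zero]))
      (fun v => add_sub_cancel (constFun X U (avgFun X U v)) v)]
    exact defect_funRep_of_trivOn hp2 hpS hW hχW hX hWU hχ hpow
  -- the sequence of complements
  have post : ∀ {X Y : Rep.{0} (ZMod p) GQ} (u : X →ₗ[ZMod p] Y) (f : funRep X U),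
      avgFun Y U (fun x => u (f x)) = u (avgFun X U f) := fun u f => by
    change (U.index : ZMod p)⁻¹ • ∑ x, u (f x) = u ((U.index : ZMod p)⁻¹ • ∑ x, f x)
    rw [map_smul, map_sum]
  let comp : ∀ {X Y : Rep.{0} (ZMod p) GQ} (u : X →ₗ[ZMod p] Y),
      complRep X U →ₗ[ZMod p] complRep Y U := fun {X Y} u =>
    { toFun := fun f => ⟨fun x => u (f.1 x), LinearMap.mem_ker.2
        (by rw [post, LinearMap.mem_ker.1 f.2, map_zero])⟩
      map_add' := fun f f' => Subtype.ext (funext fun x => map_add u (f.1 x) (f'.1 x))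
      map_smul' := fun a f => Subtype.ext (funext fun x => map_smul u a (f.1 x)) }
  have compG : ∀ {X Y : Rep.{0} (ZMod p) GQ} (u : X →ₗ[ZMod p] Y)
      (hu : ∀ g a, u (X.ρ g a) = Y.ρ g (u a)) (g : GQ) (f : complRep X U),
      comp u ((complRep X U).ρ g f) = (complRep Y U).ρ g (comp u f) := fun u hu g f =>
    Subtype.ext (funext fun x => hu g _)
  have hsm : ∀ X : Rep.{0} (ZMod p) GQ, TrivOn W X →
      IsSmoothRep (Levels.unr S) (MonoidHom.id GQ) (complRep X U) := fun X hX f => by
    obtain ⟨F, hF, h⟩ := isSmoothRep_funRep (Levels.hasNormal_unr S) hU (hX.smooth hW) f.1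
    exact ⟨F, hF, fun s hs => Subtype.ext (h s hs)⟩
  have hfd : ∀ X : Rep.{0} (ZMod p) GQ, [FiniteDimensional (ZMod p) X] →
      FiniteDimensional (ZMod p) (complRep X U) := fun X _ => by
    haveI := Sha.finiteDimensional_funRep X U
    exact inferInstanceAs (FiniteDimensional (ZMod p) (LinearMap.ker (avgFun X U)))
  haveI := hfd A; haveI := hfd B; haveI := hfd C
  have hsub' := defect_subadd hp2 hpS (hsm A hA) (hsm B hB) (hsm C hC) (comp φ) (compG φ hφ)
    (comp ψ) (compG ψ hψ)
    (fun f f' h => Subtype.ext (funext fun x => hi (congrFun (congrArg Subtype.val h) x)))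
    (fun h => by
      choose b hb using fun x => hs (h.1 x)
      refine ⟨complProj B U hidx b, Subtype.ext (funext fun x => ?_)⟩
      change ψ (b x - avgFun B U b) = h.1 x
      rw [map_sub, hb, ← post, show (fun x => ψ (b x)) = h.1 from funext hb,
        LinearMap.mem_ker.1 h.2, sub_zero])
    (fun f => by
      constructor
      · intro hf
        choose a ha using fun x => (he (f.1 x)).1 (congrFun (congrArg Subtype.val hf) x)
        refine ⟨⟨a, LinearMap.mem_ker.2 (hi ?_)⟩, Subtype.ext (funext ha)⟩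
        rw [← post, show (fun x => φ (a x)) = f.1 from funext ha, LinearMap.mem_ker.1 f.2, map_zero]
      · rintro ⟨a, rfl⟩
        exact Subtype.ext (funext fun x => he.apply_apply_eq_zero (a.1 x)))
  have zA := hz A hA
  have zB := hz B hB
  have zC := hz C hC
  omega

end Fermat.Agent.CFT.Euler
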