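import Fermat.Agent.CFT.Setup
import Fermat.Agent.CFT.MuInc

/-!
# The archimedean place: invariants of a module and of its twisted dual
-/

set_option autoImplicit false
set_option linter.style.haveILetI false

open CategoryTheory groupCohomology ExtCitation Module

noncomputable section

namespace Fermat.Agent.CFT.Euler

variable {p : ℕ} [Fact p.Prime]

theorem cycloChar_complexConjugation :
    ((cycloChar p complexConjugation : (ZMod p)ˣ) : ZMod p) = -1 := by
  have hp : p.Prime := Fact.out
  have h1 : muInc p (1 : ZMod p) = zetaP p := by
    rw [show (1 : ZMod p) = ((1 : ℕ) : ZMod p) from Nat.cast_one.symm, muInc_natCast, pow_one]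
  set z : AlgebraicClosure ℚ := (muInc p (1 : ZMod p) : AlgebraicClosure ℚ)
  have hz : z ^ p = 1 := by
    rw [← Units.val_pow_eq_pow_val, muInc_pow_eq_one, Units.val_one]
  have h2 : complexConjugation z = (muInc p (-1) : AlgebraicClosure ℚ) := by
    apply complexEmbedding.toRingHom.injective
    show complexEmbedding (complexConjugation z) = complexEmbedding _
    rw [complexEmbedding_complexConjugation, ← Complex.inv_eq_conj
      (Complex.norm_eq_one_of_pow_eq_one (by rw [← map_pow, hz, map_one]) hp.ne_zero)]
    refine inv_eq_of_mul_eq_one_right ?_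
    rw [← map_mul, ← Units.val_mul, ← muInc_add, add_neg_cancel, muInc_zero, Units.val_one,
      map_one]
  rw [gal_muInc, mul_one] at h2
  exact muInc_injective (Units.ext h2)

/-- The fixed space of complex conjugation. -/
def conjFixed (M : Rep.{0} (ZMod p) GQ) : Submodule (ZMod p) M :=
  LinearMap.ker (M.ρ complexConjugation - 1)

theorem mem_conjFixed {M : Rep.{0} (ZMod p) GQ} {m : M} :
    m ∈ conjFixed M ↔ M.ρ complexConjugation m = m := by
  rw [conjFixed, LinearMap.mem_ker, LinearMap.sub_apply, Module.End.one_apply, sub_eq_zero]

theorem invariants_archimedean (M : Rep.{0} (ZMod p) GQ) :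
    (Rep.res archimedeanLoc M).ρ.invariants = conjFixed M := by
  ext m
  rw [mem_conjFixed]
  constructor
  · intro h
    exact h archimedeanGen
  · intro h g
    obtain ⟨n, hn⟩ := Subgroup.mem_zpowers_iff.1 g.2
    change M.ρ (g : GQ) m = m
    rw [← hn]
    let F : Subgroup GQ :=
      { carrier := {s | M.ρ s m = m}
        one_mem' := show M.ρ 1 m = m by rw [map_one, Module.End.one_apply]
        mul_mem' := fun {a b} ha hb => show M.ρ (a * b) m = m by
          rw [map_mul, Module.End.mul_apply, show M.ρ b m = m from hb]; exact ha
        inv_mem' := fun {a} ha => show M.ρ a⁻¹ m = m by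
          conv_lhs => rw [← show M.ρ a m = m from ha]
          rw [← Module.End.mul_apply, ← map_mul, inv_mul_cancel, map_one, Module.End.one_apply] }
    exact zpow_mem (K := F) (show complexConjugation ∈ F from h) n

theorem finrank_conjFixed_dual (hp2 : p ≠ 2) {A M : Rep.{0} (ZMod p) GQ}
    [FiniteDimensional (ZMod p) A] [FiniteDimensional (ZMod p) M]
    (P : DualPair p (cycloChar p) A M) :
    finrank (ZMod p) (conjFixed A) + finrank (ZMod p) (conjFixed M) = finrank (ZMod p) M := by
  have h2 : (2 : ZMod p) ≠ 0 := by
    intro h
    refine hp2 ((Nat.prime_dvd_prime_iff_eq Fact.out Nat.prime_two).1 ?_)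
    rw [← ZMod.natCast_eq_zero_iff]
    exact_mod_cast h
  set c := complexConjugation with hc
  have hcc : ∀ (V : Rep.{0} (ZMod p) GQ) (v : V), V.ρ c (V.ρ c v) = v := fun V v => by
    rw [← Module.End.mul_apply, ← map_mul, hc, complexConjugation_mul_self, map_one,
      Module.End.one_apply]
  have eq : ∀ a m, P.β (A.ρ c a) (M.ρ c m) = -P.β a m := fun a m => by
    rw [P.equivariant, cycloChar_complexConjugation, neg_one_mul]
  -- invariants of `A` annihilate exactly those of `M`
  have himg : (conjFixed A).map P.β = (conjFixed M).dualAnnihilator := by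
    ext f
    rw [Submodule.mem_map, Submodule.mem_dualAnnihilator]
    constructor
    · rintro ⟨a, ha, rfl⟩ m hm
      have := eq a m
      rw [mem_conjFixed.1 ha, mem_conjFixed.1 hm] at this
      have h' : (2 : ZMod p) * P.β a m = 0 := by linear_combination this
      exact (mul_eq_zero.1 h').resolve_left h2
    · intro hf
      have hsurj : Function.Surjective P.β := by
        have hinj : Function.Injective P.β :=
          (injective_iff_map_eq_zero P.β).2 fun a h => P.left a fun m => by rw [h]; rfl
        have hinj' : Function.Injective P.β.flip :=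
          (injective_iff_map_eq_zero P.β.flip).2 fun m h => P.right m fun a => by
            rw [← LinearMap.flip_apply P.β, h]; rfl
        have e1 := LinearMap.finrank_le_finrank_of_injective (f := P.β.flip) hinj'
        have e2 := LinearMap.finrank_le_finrank_of_injective (f := P.β) hinj
        rw [Subspace.dual_finrank_eq] at e1 e2
        exact (LinearMap.injective_iff_surjective_of_finrank_eq_finrank
          (by rw [Subspace.dual_finrank_eq]; exact le_antisymm e2 e1)).1 hinj
      obtain ⟨a, rfl⟩ := hsurj f
      refine ⟨a, mem_conjFixed.2 (sub_eq_zero.1 (P.left _ fun m => ?_)), rfl⟩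
      have hm : m + M.ρ c m ∈ conjFixed M :=
        mem_conjFixed.2 (by rw [map_add, hcc, add_comm])
      have h0 := hf _ hm
      have e1 := eq a (M.ρ c m)
      rw [hcc] at e1
      rw [map_add] at h0
      rw [map_sub, LinearMap.sub_apply, e1]
      linear_combination -h0
  have hinj : Function.Injective P.β :=
    (injective_iff_map_eq_zero P.β).2 fun a h => P.left a fun m => by rw [h]; rfl
  have e := Subspace.finrank_add_finrank_dualAnnihilator_eq (conjFixed M)
  rw [← himg, ← (Submodule.equivMapOfInjective P.β hinj (conjFixed A)).finrank_eq] at e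
  omega

end Fermat.Agent.CFT.Euler
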