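import Fermat.Agent.CFT.EulerChar.HomU
import Fermat.Agent.CFT.EquivariantCount

/-!
# Dimensions of equivariant maps against cardinalities
-/

set_option autoImplicit false
set_option linter.style.haveILetI false

open Module

noncomputable section

namespace Fermat.Agent.CFT.EulerChar

open EquivariantCount

section card

variable {p : ℕ} [Fact p.Prime] {D : Type} [Group D] {N : Type} [AddCommGroup N]
  [Module (ZMod p) N] (ν : Representation (ZMod p) D N)

/-- A mod `p` representation as a `ℤ`-representation. -/
def intRep {W : Type*} [AddCommGroup W] [Module (ZMod p) W]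
    (ω : Representation (ZMod p) D W) : Representation ℤ D W where
  toFun d := (ω d).toAddMonoidHom.toIntLinearMap
  map_one' := LinearMap.ext fun w => by
    show ω 1 w = w
    rw [map_one, Module.End.one_apply]
  map_mul' d e := LinearMap.ext fun w => by
    show ω (d * e) w = ω d (ω e w)
    rw [map_mul, Module.End.mul_apply]

theorem card_eHom_intRep [Fintype D] [FiniteDimensional (ZMod p) N] {W : Type*} [AddCommGroup W]
    [Module (ZMod p) W] [FiniteDimensional (ZMod p) W] (ω : Representation (ZMod p) D W) :
    Nat.card (eHom ν (intRep ω)) = p ^ eDim ν ω := by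
  have e : eHom ν (intRep ω) ≃ eqHom ν ω :=
    { toFun := fun f => ⟨f.1.toZModLinearMap p, f.2⟩
      invFun := fun φ => ⟨φ.1.toAddMonoidHom, φ.2⟩
      left_inv := fun _ => rfl
      right_inv := fun _ => rfl }
  rw [Nat.card_congr e, Module.natCard_eq_pow_finrank (K := ZMod p), Nat.card_zmod]
  rfl

/-- Equivariantly isomorphic targets have the same count. -/
theorem card_eHom_congr {A B : Type*} [AddCommGroup A] [AddCommGroup B]
    (ρA : Representation ℤ D A) (ρB : Representation ℤ D B) (e : A ≃+ B)
    (he : ∀ d a, e (ρA d a) = ρB d (e a)) :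
    Nat.card (eHom ν ρA) = Nat.card (eHom ν ρB) := by
  refine Nat.card_eq_of_bijective (eHomMap ν ρA ρB e.toAddMonoidHom he)
    ⟨fun f g h => Subtype.ext (AddMonoidHom.ext fun n =>
      e.injective (DFunLike.congr_fun (congrArg Subtype.val h) n)), fun f => ?_⟩
  refine ⟨⟨e.symm.toAddMonoidHom.comp f.1, fun d n => e.injective ?_⟩, ?_⟩
  · rw [he]
    simp [(mem_eHom ν).1 f.2 d n]
  · exact Subtype.ext (AddMonoidHom.ext fun n => e.apply_symm_apply _)

end card

section linear

variable {k : Type} [Field k] {D : Type} [Group D] [Fintype D] {A : Type} [AddCommGroup A]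
  [Module k A] [FiniteDimensional k A] (ν : Representation k D A)
  {W W' W'' : Type*} [AddCommGroup W] [Module k W] [AddCommGroup W'] [Module k W']
  [AddCommGroup W''] [Module k W''] (ω : Representation k D W) (ω' : Representation k D W')
  (ω'' : Representation k D W'') [FiniteDimensional k W] [FiniteDimensional k W']

omit [Fintype D] in
/-- Left exactness: `eDim` is subadditive. -/
lemma eDim_le_add (i : W'' →ₗ[k] W) (hi' : ∀ d w, i (ω'' d w) = ω d (i w))
    (f : W →ₗ[k] W') (hf : ∀ d w, f (ω d w) = ω' d (f w)) (hi : Function.Injective i)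
    (hk : LinearMap.ker f ≤ LinearMap.range i) :
    eDim ν ω ≤ eDim ν ω'' + eDim ν ω' := by
  haveI : FiniteDimensional k W'' := FiniteDimensional.of_injective i hi
  have h := LinearMap.finrank_range_add_finrank_ker (eqComp ν ω ω' f hf)
  have hle : LinearMap.ker (eqComp ν ω ω' f hf) ≤
      LinearMap.range (eqComp ν ω'' ω i hi') := by
    intro φ hφ
    obtain ⟨t, ht⟩ := i.exists_leftInverse_of_injective (LinearMap.ker_eq_bot.2 hi)
    have hmem : ∀ a, i (t (φ.1 a)) = φ.1 a := fun a => by
      obtain ⟨w, hw⟩ := hk (LinearMap.congr_fun (congrArg Subtype.val hφ) a : f (φ.1 a) = 0)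
      have hw' : i w = φ.1 a := hw
      rw [← hw']
      exact congrArg i (LinearMap.congr_fun ht w)
    refine ⟨⟨t ∘ₗ φ.1, fun d a => hi ?_⟩, Subtype.ext (LinearMap.ext hmem)⟩
    rw [LinearMap.comp_apply, hi', LinearMap.comp_apply, hmem, hmem, φ.2 d a]
  have h1 := Submodule.finrank_mono hle
  have h2 := LinearMap.finrank_range_le (eqComp ν ω'' ω i hi')
  have h3 := Submodule.finrank_le (LinearMap.range (eqComp ν ω ω' f hf))
  show finrank k (eqHom ν ω) ≤ finrank k (eqHom ν ω'') + finrank k (eqHom ν ω')
  omega

end linear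

end Fermat.Agent.CFT.EulerChar
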