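import Fermat.Agent.CFT.EulerChar.Arch
import Fermat.Agent.CFT.Interface.GlobalPerm
import Fermat.Agent.CFT.Sha.Pairs

/-!
# The Euler characteristic defect

`defect S M = h⁰ - h¹ + h² - h⁰(ℝ) + dim M`: subadditive on short exact sequences and additive on
split ones.
-/

set_option autoImplicit false
set_option linter.style.haveILetI false

open CategoryTheory groupCohomology ExtCitation Module

noncomputable section

namespace Fermat.Agent.CFT.Euler

open Fermat.Agent.CFT.Sha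

variable {p : ℕ} [Fact p.Prime] (S : Finset Nat.Primes)

/-- `h⁰ - h¹ + h² - h⁰(ℝ) + dim M`. -/
def defect (M : Rep.{0} (ZMod p) GQ) : ℤ :=
  (finrank (ZMod p) M.ρ.invariants + finrank (ZMod p) (G2 S M) + finrank (ZMod p) M : ℕ) -
    (finrank (ZMod p) (G1 S M) + finrank (ZMod p) (conjFixed M) : ℕ)

variable {S} {A B C : Rep.{0} (ZMod p) GQ}

theorem two_ne_zero_of_odd (hp2 : p ≠ 2) : (2 : ZMod p) ≠ 0 := fun h => by
  have h' : ((2 : ℕ) : ZMod p) = 0 := by exact_mod_cast h
  exact hp2 ((Nat.prime_dvd_prime_iff_eq Fact.out Nat.prime_two).1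
    ((CharP.cast_eq_zero_iff (ZMod p) p 2).1 h'))

theorem finrank_conjFixed_exact (hp2 : p ≠ 2) [FiniteDimensional (ZMod p) B]
    (φ : A →ₗ[ZMod p] B) (hφ : ∀ g a, φ (A.ρ g a) = B.ρ g (φ a))
    (ψ : B →ₗ[ZMod p] C) (hψ : ∀ g b, ψ (B.ρ g b) = C.ρ g (ψ b))
    (hi : Function.Injective φ) (hs : Function.Surjective ψ) (he : Function.Exact φ ψ) :
    finrank (ZMod p) (conjFixed B) =
      finrank (ZMod p) (conjFixed A) + finrank (ZMod p) (conjFixed C) := by
  set c := complexConjugation with hc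
  haveI : FiniteDimensional (ZMod p) A := FiniteDimensional.of_injective φ hi
  let f : conjFixed A →ₗ[ZMod p] conjFixed B := φ.restrict fun a ha => by
    rw [mem_conjFixed] at ha ⊢; rw [← hφ, ha]
  let g : conjFixed B →ₗ[ZMod p] conjFixed C := ψ.restrict fun b hb => by
    rw [mem_conjFixed] at hb ⊢; rw [← hψ, hb]
  have hf : Function.Injective f := fun a b h => Subtype.ext (hi (congrArg Subtype.val h))
  have hg : LinearMap.range g = ⊤ := LinearMap.range_eq_top.2 fun x => by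
    obtain ⟨b, hb⟩ := hs x.1
    refine ⟨⟨(2 : ZMod p)⁻¹ • (b + B.ρ c b), mem_conjFixed.2 ?_⟩, Subtype.ext ?_⟩
    · rw [map_smul, map_add, ← Module.End.mul_apply, ← map_mul, hc, complexConjugation_mul_self,
        map_one, Module.End.one_apply, add_comm]
    · change ψ ((2 : ZMod p)⁻¹ • (b + B.ρ c b)) = x.1
      rw [map_smul, map_add, hψ, hb, mem_conjFixed.1 x.2, ← two_smul (ZMod p), smul_smul,
        inv_mul_cancel₀ (two_ne_zero_of_odd hp2), one_smul]
  have hk : LinearMap.ker g = LinearMap.range f := by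
    ext b
    constructor
    · intro hb
      obtain ⟨a, ha⟩ := (he b.1).1 (congrArg Subtype.val (LinearMap.mem_ker.1 hb))
      refine ⟨⟨a, mem_conjFixed.2 (hi ?_)⟩, Subtype.ext ha⟩
      rw [hφ, ha, mem_conjFixed.1 b.2]
    · rintro ⟨a, rfl⟩
      exact Subtype.ext (he.apply_apply_eq_zero a.1)
  have h := LinearMap.finrank_range_add_finrank_ker g
  rw [hg, finrank_top, hk, LinearMap.finrank_range_of_inj hf] at h
  omega

theorem finrank_exact [FiniteDimensional (ZMod p) B]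
    (φ : A →ₗ[ZMod p] B) (ψ : B →ₗ[ZMod p] C)
    (hi : Function.Injective φ) (hs : Function.Surjective ψ) (he : Function.Exact φ ψ) :
    finrank (ZMod p) B = finrank (ZMod p) A + finrank (ZMod p) C := by
  have h := LinearMap.finrank_range_add_finrank_ker ψ
  rw [LinearMap.range_eq_top.2 hs, finrank_top, LinearMap.exact_iff.1 he,
    LinearMap.finrank_range_of_inj hi] at h
  omega

theorem defect_subadd (hp2 : p ≠ 2) (hpS : pPrime p ∈ S)
    [FiniteDimensional (ZMod p) A] [FiniteDimensional (ZMod p) B] [FiniteDimensional (ZMod p) C]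
    (hA : IsSmoothRep (Levels.unr S) (MonoidHom.id GQ) A)
    (hB : IsSmoothRep (Levels.unr S) (MonoidHom.id GQ) B)
    (hC : IsSmoothRep (Levels.unr S) (MonoidHom.id GQ) C)
    (φ : A →ₗ[ZMod p] B) (hφ : ∀ g a, φ (A.ρ g a) = B.ρ g (φ a))
    (ψ : B →ₗ[ZMod p] C) (hψ : ∀ g b, ψ (B.ρ g b) = C.ρ g (ψ b))
    (hi : Function.Injective φ) (hs : Function.Surjective ψ) (he : Function.Exact φ ψ) :
    defect S B ≤ defect S A + defect S C := by
  haveI := finite_H1c_unr S hpS A hA
  haveI := finite_H1c_unr S hpS B hB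
  haveI := finite_H1c_unr S hpS C hC
  haveI := finite_H2c_unr hp2 S hpS A hA
  haveI := finite_H2c_unr hp2 S hpS B hB
  haveI := finite_H2c_unr hp2 S hpS C hC
  have h := euler_subadd φ hφ ψ hψ (Levels.hasNormal_unr S) hB hi hs he
  have h1 := finrank_conjFixed_exact hp2 φ hφ ψ hψ hi hs he
  have h2 := finrank_exact φ ψ hi hs he
  change finrank (ZMod p) B.ρ.invariants + finrank (ZMod p) (G2 S B) +
      (finrank (ZMod p) (G1 S A) + finrank (ZMod p) (G1 S C)) ≤
    finrank (ZMod p) A.ρ.invariants + finrank (ZMod p) (G2 S A) +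
      (finrank (ZMod p) C.ρ.invariants + finrank (ZMod p) (G2 S C)) + finrank (ZMod p) (G1 S B) at h
  simp only [defect]
  omega

theorem defect_congr (e : A ≃ₗ[ZMod p] B) (he : ∀ g a, e (A.ρ g a) = B.ρ g (e a)) :
    defect S A = defect S B := by
  have h0 := finrank_invariants_congr e he
  have h1 : finrank (ZMod p) (G1 S A) = finrank (ZMod p) (G1 S B) :=
    finrank_H1c_congr (L := Levels.unr S) (r := MonoidHom.id GQ) e he
  have h2 : finrank (ZMod p) (G2 S A) = finrank (ZMod p) (G2 S B) :=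
    finrank_H2c_congr (L := Levels.unr S) (r := MonoidHom.id GQ) e he
  have hm : (conjFixed A).map e.toLinearMap = conjFixed B := by
    ext b
    rw [mem_conjFixed, Submodule.mem_map]
    constructor
    · rintro ⟨a, ha, rfl⟩
      change B.ρ _ (e a) = e a
      rw [← he, mem_conjFixed.1 ha]
    · intro hb
      refine ⟨e.symm b, mem_conjFixed.2 (e.injective ?_), e.apply_symm_apply b⟩
      rw [he, e.apply_symm_apply, hb]
  have h3 : finrank (ZMod p) (conjFixed A) = finrank (ZMod p) (conjFixed B) :=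
    hm ▸ (Submodule.equivMapOfInjective e.toLinearMap e.injective (conjFixed A)).finrank_eq
  have h4 := e.finrank_eq
  simp only [defect]
  omega

section split

lemma pushH1_zero_iff (φ : A →ₗ[ZMod p] B) (hφ : ∀ g a, φ (A.ρ g a) = B.ρ g (φ a))
    (c : cocycles₁ A) :
    pushH1 φ hφ ((H1π A).hom c) = 0 ↔ ∃ b, ∀ g, B.ρ g b - b = φ (c g) := by
  rw [pushH1_π, H1π_eq_zero_iff]
  exact ⟨fun ⟨b, hb⟩ => ⟨b, fun g => congrFun hb g⟩, fun ⟨b, hb⟩ => ⟨b, funext hb⟩⟩

variable {N M K : Rep.{0} (ZMod p) GQ}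

theorem finrank_eq_add_of_split {V W X : Type} [AddCommGroup V] [Module (ZMod p) V]
    [AddCommGroup W] [Module (ZMod p) W] [AddCommGroup X] [Module (ZMod p) X]
    [FiniteDimensional (ZMod p) V] [FiniteDimensional (ZMod p) W] [FiniteDimensional (ZMod p) X]
    (a : W →ₗ[ZMod p] V) (b : X →ₗ[ZMod p] V) (c : V →ₗ[ZMod p] W) (d : V →ₗ[ZMod p] X)
    (hca : ∀ x, c (a x) = x) (hcb : ∀ x, c (b x) = 0) (hda : ∀ x, d (a x) = 0)
    (hdb : ∀ x, d (b x) = x) (hinj : ∀ v, c v = 0 → d v = 0 → v = 0) :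
    finrank (ZMod p) V = finrank (ZMod p) W + finrank (ZMod p) X := by
  rw [← Module.finrank_prod]
  refine (LinearEquiv.ofLinearMap (c.prod d) (a.coprod b) ?_ ?_).finrank_eq
  · refine LinearMap.ext fun x => Prod.ext ?_ ?_
    · simp [hca, hcb]
    · simp [hda, hdb]
  · refine LinearMap.ext fun v => sub_eq_zero.1 (hinj _ ?_ ?_)
    · simp [hca, hcb]
    · simp [hda, hdb]

theorem defect_split (hp2 : p ≠ 2) (hpS : pPrime p ∈ S)
    [FiniteDimensional (ZMod p) N] [FiniteDimensional (ZMod p) M] [FiniteDimensional (ZMod p) K]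
    (hN : IsSmoothRep (Levels.unr S) (MonoidHom.id GQ) N)
    (hM : IsSmoothRep (Levels.unr S) (MonoidHom.id GQ) M)
    (hK : IsSmoothRep (Levels.unr S) (MonoidHom.id GQ) K)
    (i : M →ₗ[ZMod p] N) (hi : ∀ g a, i (M.ρ g a) = N.ρ g (i a))
    (π : N →ₗ[ZMod p] M) (hπ : ∀ g a, π (N.ρ g a) = M.ρ g (π a))
    (j : K →ₗ[ZMod p] N) (hj : ∀ g a, j (K.ρ g a) = N.ρ g (j a))
    (ω : N →ₗ[ZMod p] K) (hω : ∀ g a, ω (N.ρ g a) = K.ρ g (ω a))
    (hπi : ∀ m, π (i m) = m) (hπj : ∀ c, π (j c) = 0) (hωi : ∀ m, ω (i m) = 0)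
    (hωj : ∀ c, ω (j c) = c) (hid : ∀ v, i (π v) + j (ω v) = v) :
    defect S N = defect S M + defect S K := by
  haveI := finite_H1c_unr S hpS N hN
  haveI := finite_H1c_unr S hpS M hM
  haveI := finite_H1c_unr S hpS K hK
  haveI := finite_H2c_unr hp2 S hpS N hN
  haveI := finite_H2c_unr hp2 S hpS M hM
  haveI := finite_H2c_unr hp2 S hpS K hK
  have e3 := finrank_eq_add_of_split i j π ω hπi hπj hωi hωj fun v h1 h2 => by
    rw [← hid v, h1, h2, map_zero, map_zero, add_zero]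
  have e4 : finrank (ZMod p) (conjFixed N) =
      finrank (ZMod p) (conjFixed M) + finrank (ZMod p) (conjFixed K) :=
    finrank_conjFixed_exact hp2 i hi ω hω (Function.LeftInverse.injective hπi)
      (fun x => ⟨j x, hωj x⟩)
      fun v => ⟨fun h => ⟨π v, by conv_rhs => rw [← hid v, h, map_zero, add_zero]⟩,
        fun ⟨m, hm⟩ => hm ▸ hωi m⟩
  have e0 : finrank (ZMod p) N.ρ.invariants =
      finrank (ZMod p) M.ρ.invariants + finrank (ZMod p) K.ρ.invariants := by
    refine finrank_eq_add_of_split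
      (i.restrict (q := N.ρ.invariants) fun a ha g => by rw [← hi, ha g])
      (j.restrict (q := N.ρ.invariants) fun a ha g => by rw [← hj, ha g])
      (π.restrict (q := M.ρ.invariants) fun a ha g => by rw [← hπ, ha g])
      (ω.restrict (q := K.ρ.invariants) fun a ha g => by rw [← hω, ha g])
      (fun x => Subtype.ext (hπi x)) (fun x => Subtype.ext (hπj x))
      (fun x => Subtype.ext (hωi x)) (fun x => Subtype.ext (hωj x))
      fun v h1 h2 => Subtype.ext ?_
    have h1' : π v.1 = 0 := congrArg Subtype.val h1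
    have h2' : ω v.1 = 0 := congrArg Subtype.val h2
    rw [← hid v.1, h1', h2', map_zero, map_zero, add_zero]
    rfl
  have e1 : finrank (ZMod p) (G1 S N) =
      finrank (ZMod p) (G1 S M) + finrank (ZMod p) (G1 S K) := by
    have comp : ∀ {X Y Z : Rep.{0} (ZMod p) GQ} (φ : X →ₗ[ZMod p] Y)
        (hφ : ∀ g a, φ (X.ρ g a) = Y.ρ g (φ a)) (ψ : Y →ₗ[ZMod p] Z)
        (hψ : ∀ g a, ψ (Y.ρ g a) = Z.ρ g (ψ a)) (c : cocycles₁ X),
        pushH1 ψ hψ (pushH1 φ hφ ((H1π X).hom c)) =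
          (H1π Z).hom ((mapCocycles₁ (MonoidHom.id GQ) (repHomOf ψ hψ)).hom
            ((mapCocycles₁ (MonoidHom.id GQ) (repHomOf φ hφ)).hom c)) := fun φ hφ ψ hψ c => by
      rw [pushH1_π, pushH1_π]
    refine finrank_eq_add_of_split (pushH1c i hi) (pushH1c j hj) (pushH1c π hπ) (pushH1c ω hω)
      (pushH1c_comp_eq_id _ hi _ hπ hπi) ?_ ?_ (pushH1c_comp_eq_id _ hj _ hω hωj) ?_
    · rintro ⟨_, c, hc, rfl⟩
      refine Subtype.ext ((comp j hj π hπ c).trans ((H1π_eq_zero_iff _).2 ⟨0, funext fun g => ?_⟩))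
      change M.ρ g 0 - 0 = π (j (c g))
      rw [hπj, map_zero, sub_zero]
    · rintro ⟨_, c, hc, rfl⟩
      refine Subtype.ext ((comp i hi ω hω c).trans ((H1π_eq_zero_iff _).2 ⟨0, funext fun g => ?_⟩))
      change K.ρ g 0 - 0 = ω (i (c g))
      rw [hωi, map_zero, sub_zero]
    · rintro ⟨_, c, hc, rfl⟩ h1 h2
      obtain ⟨m, hm⟩ := (pushH1_zero_iff π hπ c).1 (congrArg Subtype.val h1)
      obtain ⟨k, hk⟩ := (pushH1_zero_iff ω hω c).1 (congrArg Subtype.val h2)
      refine Subtype.ext ((H1π_eq_zero_iff _).2 ⟨i m + j k, funext fun g => ?_⟩)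
      change N.ρ g (i m + j k) - (i m + j k) = c g
      rw [← hid (c g), ← hm, ← hk, map_add, map_sub, map_sub, hi, hj]
      abel
  have e2 : finrank (ZMod p) (G2 S N) =
      finrank (ZMod p) (G2 S M) + finrank (ZMod p) (G2 S K) := by
    refine finrank_eq_add_of_split (pushH2 i hi) (pushH2 j hj) (pushH2 π hπ) (pushH2 ω hω)
      (Sha.pushH2_comp_eq_id _ hi _ hπ hπi) ?_ ?_ (Sha.pushH2_comp_eq_id _ hj _ hω hωj) ?_
    · intro x
      obtain ⟨c, rfl⟩ := Submodule.mkQ_surjective _ x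
      exact (congrArg (H2cπ (Levels.unr S) (MonoidHom.id GQ) M)
        (Subtype.ext (funext fun g => hπj _) :
          mapZ2 _ _ π _ (mapZ2 _ _ j _ c) = 0)).trans (map_zero _)
    · intro x
      obtain ⟨c, rfl⟩ := Submodule.mkQ_surjective _ x
      exact (congrArg (H2cπ (Levels.unr S) (MonoidHom.id GQ) K)
        (Subtype.ext (funext fun g => hωi _) :
          mapZ2 _ _ ω _ (mapZ2 _ _ i _ c) = 0)).trans (map_zero _)
    · intro x h1 h2
      obtain ⟨c, rfl⟩ := Submodule.mkQ_surjective _ x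
      obtain ⟨y, hy, ey⟩ := (H2cπ_eq_zero_iff _).1 h1
      obtain ⟨z, hz, ez⟩ := (H2cπ_eq_zero_iff _).1 h2
      refine (H2cπ_eq_zero_iff _).2 ⟨fun g => i (y g) + j (z g),
        ((hy.comp i).prodMk (hz.comp j)).comp fun x => x.1 + x.2, funext fun g => ?_⟩
      have ey' := congrArg i (congrFun ey g)
      have ez' := congrArg j (congrFun ez g)
      rw [d₁₂_hom_apply] at ey' ez'
      rw [map_add, map_sub, hi] at ey'
      rw [map_add, map_sub, hj] at ez'
      change _ = i (π (c.1 g)) at ey'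
      change _ = j (ω (c.1 g)) at ez'
      rw [d₁₂_hom_apply]
      conv_rhs => rw [← hid (c.1 g)]
      rw [map_add, ← ey', ← ez']
      abel
  simp only [defect]
  omega

end split

end Fermat.Agent.CFT.Euler
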