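import Fermat.Agent.CFT.EulerChar.Places

/-!
# The equivariant Euler characteristic bound

The arithmetic input for the individual global Euler characteristic: an equivariant count of
`S`-units, `S`-class groups and places for a Galois extension with group of order prime to `p`.
-/

set_option autoImplicit false

open CategoryTheory groupCohomology ExtCitation Module

noncomputable section

namespace Fermat.Agent.CFT

/-- `h⁰ - h¹ + h² ≤ h⁰(ℝ) - dim` for `funRep M U`, when `M` is trivial on a normal level `V ≤ U`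
of index prime to `p` in `U` on which the cyclotomic character is trivial. -/
theorem equivariant_euler_le {p : ℕ} [Fact p.Prime] (hp2 : p ≠ 2) (S : Finset Nat.Primes)
    (hpS : pPrime p ∈ S) {V U : Subgroup GQ} [V.Normal] (hVU : V ≤ U)
    (hV : IsLevelSubgroup (Levels.unr S) (MonoidHom.id GQ) V) (hidx : ¬ p ∣ V.relIndex U)
    (hχ : ∀ g ∈ V, cycloChar p g = 1) (M : Rep.{0} (ZMod p) GQ) [FiniteDimensional (ZMod p) M]
    (hMV : ∀ g ∈ V, M.ρ g = 1) :
    finrank (ZMod p) (funRep M U).ρ.invariants + finrank (ZMod p) (Sha.G2 S (funRep M U)) +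
        U.index * finrank (ZMod p) M ≤
      finrank (ZMod p) (Sha.G1 S (funRep M U)) +
        finrank (ZMod p) (Rep.res archimedeanLoc (funRep M U)).ρ.invariants := by
  classical
  haveI : Finite (GQ ⧸ V) := hV.finite_quotient
  letI : Fintype (GQ ⧸ V) := Fintype.ofFinite _
  letI : Fintype (EulerChar.levelGrp V U) := Fintype.ofFinite _
  haveI := numberField_fixedField hV.to_all
  let A : Rep.{0} (ZMod p) GQ := M.dualTwist (cycloChar p)
  haveI : FiniteDimensional (ZMod p) A :=
    inferInstanceAs (FiniteDimensional (ZMod p) (Module.Dual (ZMod p) M))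
  haveI : Finite A := Module.finite_of_finite (ZMod p)
  have hA : ∀ g ∈ V, A.ρ g = 1 := fun g hg => LinearMap.ext fun f => by
    change ((cycloChar p g : ZMod p) • ((f : Module.Dual (ZMod p) M) ∘ₗ M.ρ g⁻¹)) = f
    rw [hχ g hg, hMV g⁻¹ (inv_mem hg), Units.val_one, one_smul]
    rfl
  let P : DualPair p (cycloChar p) A M := Sha.evalPair M
  refine EulerChar.euler_reduction hVU hA P hp2 S hpS hV hidx hMV ?_
  set ν := EulerChar.levelOp U hA
  have hD : (Fintype.card (EulerChar.levelGrp V U) : ZMod p) ≠ 0 := by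
    rw [← Nat.card_eq_fintype_card, EulerChar.card_levelGrp V U hVU]
    exact fun h0 => hidx ((CharP.cast_eq_zero_iff (ZMod p) p _).1 h0)
  have hD' : ¬ p ∣ Fintype.card (EulerChar.levelGrp V U) := fun h0 =>
    hD ((CharP.cast_eq_zero_iff (ZMod p) p _).2 h0)
  have hX := EulerChar.eDim_rightOp U hV.to_all hp2 ν hD
  have hH2 := EulerChar.eDim_h2Op_le U S hV hp2 hpS ν hD
  have hμ := EulerChar.card_eHom_sUnit U S hV hχ ν
  have hK := EulerChar.kummer_homCard_le ν hp2 S hpS hV hχ hD
  have hS := EulerChar.sha2_homCard_le ν hp2 S hpS hV hχ hD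
  obtain ⟨-, -, hcls⟩ := EquivariantCount.PhiIs.of_finite (p := p) ν hD'
    ((EulerChar.clsOp V S).comp (EulerChar.levelGrp V U).subtype)
  obtain ⟨-, -, hU⟩ := EulerChar.phiIs_sUnits ν (EulerChar.levelGal V U) hD'
    (placesOver S (EulerChar.lvlFld V)) (fun g _ => EulerChar.smul_mem_placesOver V S g)
    ((EulerChar.fieldOp V).comp (EulerChar.levelGrp V U).subtype) (fun d a => rfl)
    (fun d a ha => (EulerChar.sUnitOp V S d.1 ⟨a, ha⟩).2)
  replace hU : EulerChar.homCard V ν (EquivariantCount.modPRep p (EulerChar.sUnitOp V S)) *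
      Nat.card (EquivariantCount.eHom ν (EulerChar.trivOn (ZMod p))) =
        EulerChar.homCard V ν (EulerChar.sUnitOp V S) *
          (Nat.card (EquivariantCount.eHom ν
              (EulerChar.permFun (ZMod p) (EulerChar.infPerm (EulerChar.levelGal V U)))) *
            Nat.card (EquivariantCount.eHom ν (EulerChar.permFun (ZMod p)
              (EulerChar.finPerm (EulerChar.levelGal V U) (placesOver S (EulerChar.lvlFld V))
                (fun g _ => EulerChar.smul_mem_placesOver V S g))))) := hU
  replace hcls : EulerChar.homCard V ν (EquivariantCount.modPRep p (EulerChar.clsOp V S)) =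
      EulerChar.homCard V ν (EulerChar.clsOp V S) := hcls.trans (mul_one _)
  rw [hcls] at hS
  rw [hμ] at hU
  have hp1 : 1 < p := (Fact.out : p.Prime).one_lt
  refine (Nat.pow_le_pow_iff_right hp1).1 ?_
  rw [pow_add, pow_add, pow_add, hX]
  set cls := EulerChar.homCard V ν (EulerChar.clsOp V S)
  set K := EulerChar.homCard V ν (EquivariantCount.modPRep p (EulerChar.sUnitOp V S))
  set t := Nat.card (EquivariantCount.eHom ν (EulerChar.trivOn (ZMod p)))
  have ht : 0 < t := Nat.card_pos
  refine Nat.le_of_mul_le_mul_right ?_ ht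
  set F := Nat.card (EquivariantCount.eHom ν (EulerChar.permFun (ZMod p)
    (EulerChar.finPerm (EulerChar.levelGal V U) (placesOver S (EulerChar.lvlFld V))
      (fun g _ => EulerChar.smul_mem_placesOver V S g))))
  set I := Nat.card (EquivariantCount.eHom ν
    (EulerChar.permFun (ZMod p) (EulerChar.infPerm (EulerChar.levelGal V U))))
  set e0 := p ^ EulerChar.eDim ν (EulerChar.invOp (funRep (muRep p) V) (EulerChar.rightOp V U)
    (EulerChar.rightOp_comm V U))
  set einf := p ^ EulerChar.eDim ν (EulerChar.invOp (Rep.res archimedeanLoc (funRep (muRep p) V))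
    (EulerChar.rightOp V U) (fun d g f => EulerChar.rightOp_comm V U d (archimedeanLoc g) f))
  set e2 := p ^ EulerChar.eDim ν (EulerChar.h2Op (Levels.unr S) (MonoidHom.id GQ)
    (funRep (muRep p) V) (EulerChar.rightOp V U) (EulerChar.rightOp_comm V U))
  set e1 := p ^ EulerChar.eDim ν (EulerChar.h1Op (Levels.unr S) (MonoidHom.id GQ)
    (funRep (muRep p) V) (EulerChar.rightOp V U) (EulerChar.rightOp_comm V U))
  calc e0 * e2 * (einf * I) * t = (e2 * t) * (e0 * I) * einf := by ring
    _ ≤ (cls * F) * (e0 * I) * einf := Nat.mul_le_mul_right _ (Nat.mul_le_mul_right _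
        (hH2.trans (Nat.mul_le_mul_right _ hS)))
    _ = cls * (e0 * (I * F)) * einf := by ring
    _ = (K * cls) * einf * t := by rw [← hU]; ring
    _ ≤ e1 * einf * t := Nat.mul_le_mul_right _ (Nat.mul_le_mul_right _ hK)

end Fermat.Agent.CFT
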