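import Fermat.Agent.CFT.EulerChar.Induced

/-!
# The defect along a unipotent flag, and descent along a cyclic `p`-step
-/

set_option autoImplicit false
set_option linter.style.haveILetI false

open CategoryTheory groupCohomology ExtCitation Module

noncomputable section

namespace Fermat.Agent.CFT.Euler

open Fermat.Agent.CFT.Sha

variable {p : ℕ} [Fact p.Prime] {S : Finset Nat.Primes}
variable (hp2 : p ≠ 2) (hpS : pPrime p ∈ S) {W : Subgroup GQ} [W.Normal]
  (hW : IsLevelSubgroup (Levels.unr S) (MonoidHom.id GQ) W)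
  (hχW : ∀ g ∈ W, cycloChar p g = 1)

/-- The subrepresentation on a stable subspace. -/
abbrev subRepGQ (B : Rep.{0} (ZMod p) GQ) (K : Submodule (ZMod p) B)
    (h : ∀ g, ∀ x ∈ K, B.ρ g x ∈ K) : Rep.{0} (ZMod p) GQ :=
  Rep.of (Subrepresentation.toRepresentation (ρ := B.ρ) ⟨K, fun g _ hx => h g _ hx⟩)

include hp2 hpS hW hχW in
/-- A nilpotent equivariant endomorphism with the maximal flag. -/
theorem defect_eq_mul_of_nilpotent {B : Rep.{0} (ZMod p) GQ} [FiniteDimensional (ZMod p) B]
    (hB : TrivOn W B) (T : B →ₗ[ZMod p] B) (hT : ∀ g x, T (B.ρ g x) = B.ρ g (T x)) (q : ℕ)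
    (hq : T ^ q = 0) (hdim : finrank (ZMod p) B = q * finrank (ZMod p) (LinearMap.ker T)) :
    defect S B = q * defect S (subRepGQ B (LinearMap.ker T) fun g x hx => by
      rw [LinearMap.mem_ker] at hx ⊢; rw [hT, hx, map_zero]) := by
  classical
  have hTn : ∀ (n : ℕ) g x, (T ^ n) (B.ρ g x) = B.ρ g ((T ^ n) x) := by
    intro n
    induction n with
    | zero => intro g x; rfl
    | succ n ih =>
      intro g x
      rw [pow_succ, Module.End.mul_apply, Module.End.mul_apply, hT, ih]
  have stab : ∀ n, ∀ g, ∀ x ∈ LinearMap.ker (T ^ n), B.ρ g x ∈ LinearMap.ker (T ^ n) :=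
    fun n g x hx => by rw [LinearMap.mem_ker] at hx ⊢; rw [hTn, hx, map_zero]
  let K : ℕ → Submodule (ZMod p) B := fun n => LinearMap.ker (T ^ n)
  let X : ℕ → Submodule (ZMod p) B := fun n => (K (n + 1)).map (T ^ n)
  have hX : ∀ n, X n ≤ LinearMap.ker T := by
    rintro n _ ⟨x, hx, rfl⟩
    rw [LinearMap.mem_ker, ← Module.End.mul_apply, ← pow_succ']
    exact hx
  have hK : ∀ n, K n ≤ K (n + 1) := fun n x hx => by
    change (T ^ (n + 1)) x = 0
    rw [pow_succ', Module.End.mul_apply, show (T ^ n) x = 0 from hx, map_zero]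
  have hXstab : ∀ n, ∀ g, ∀ x ∈ X n, B.ρ g x ∈ X n := by
    rintro n g _ ⟨x, hx, rfl⟩
    exact ⟨B.ρ g x, stab (n + 1) g x hx, hTn n g x⟩
  let pi : ∀ n, K (n + 1) →ₗ[ZMod p] X n := fun n =>
    LinearMap.codRestrict _ ((T ^ n).comp (K (n + 1)).subtype) fun x => ⟨x.1, x.2, rfl⟩
  have hexact : ∀ n, Function.Exact (Submodule.inclusion (hK n)) (pi n) := fun n x => by
    constructor
    · intro h
      exact ⟨⟨x.1, congrArg Subtype.val h⟩, Subtype.ext rfl⟩
    · rintro ⟨y, rfl⟩
      exact Subtype.ext y.2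
  have hsurj : ∀ n, Function.Surjective (pi n) := by
    rintro n ⟨_, x, hx, rfl⟩
    exact ⟨⟨x, hx⟩, Subtype.ext rfl⟩
  have hfr : ∀ n, finrank (ZMod p) (K (n + 1)) = finrank (ZMod p) (K n) + finrank (ZMod p) (X n) :=
    fun n => finrank_exact (A := subRepGQ B (K n) (stab n)) (B := subRepGQ B (K (n + 1)) (stab (n + 1)))
      (C := subRepGQ B (X n) (hXstab n)) (Submodule.inclusion (hK n)) (pi n)
      (Submodule.inclusion_injective _) (hsurj n) (hexact n)
  set k1 := finrank (ZMod p) (LinearMap.ker T) with hk1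
  have hXle : ∀ n, finrank (ZMod p) (X n) ≤ k1 := fun n => Submodule.finrank_mono (hX n)
  have hgrow : ∀ n m, finrank (ZMod p) (K (n + m)) ≤ finrank (ZMod p) (K n) + m * k1 := by
    intro n m
    induction m with
    | zero => simp
    | succ m ih =>
      have := hXle (n + m)
      rw [← add_assoc, hfr, add_mul, one_mul]
      omega
  have h0 : finrank (ZMod p) (K 0) = 0 := by
    rw [Submodule.finrank_eq_zero, Submodule.eq_bot_iff]
    intro x hx
    exact hx
  have hKq : finrank (ZMod p) (K q) = q * k1 := by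
    rw [show K q = ⊤ from LinearMap.ker_eq_top.2 hq, finrank_top, hdim]
  have hXeq : ∀ n < q, X n = LinearMap.ker T := fun n hn => by
    refine Submodule.eq_of_le_of_finrank_le (hX n) ?_
    have e1 := hgrow 0 n
    rw [zero_add, h0, zero_add] at e1
    have e2 := hgrow (n + 1) (q - (n + 1))
    rw [Nat.add_sub_cancel' hn, hKq, hfr] at e2
    have e3 : q * k1 = n * k1 + k1 + (q - (n + 1)) * k1 := by
      rw [← add_one_mul, ← add_mul, show n + 1 + (q - (n + 1)) = q by omega]
    omega
  let d1 := defect S (subRepGQ B (LinearMap.ker T) fun g x hx => by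
    rw [LinearMap.mem_ker] at hx ⊢; rw [hT, hx, map_zero])
  have hsubTriv : ∀ (V : Submodule (ZMod p) B) (hV : ∀ g, ∀ x ∈ V, B.ρ g x ∈ V),
      TrivOn W (subRepGQ B V hV) := fun V hV g hg => LinearMap.ext fun x => Subtype.ext (by
    change B.ρ g x.1 = x.1
    rw [hB g hg]
    rfl)
  have hind : ∀ n ≤ q, defect S (subRepGQ B (K n) (stab n)) = n * d1 := by
    intro n hn
    induction n with
    | zero =>
      haveI : Subsingleton (subRepGQ B (K 0) (stab 0)) :=
        ⟨fun a b => Subtype.ext ((show a.1 = 0 from a.2).trans (show b.1 = 0 from b.2).symm)⟩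
      have h := defect_additive hp2 hpS hW hχW (A := subRepGQ B (K 0) (stab 0))
        (C := subRepGQ B (K 0) (stab 0)) (hsubTriv (K 0) (stab 0)) LinearMap.id (fun _ _ => rfl)
        LinearMap.id (fun _ _ => rfl) (fun _ _ h => h) (fun x => ⟨x, rfl⟩)
        (fun x => iff_of_true (Subsingleton.elim _ _) ⟨x, rfl⟩)
      push_cast
      omega
    | succ n ih =>
      have h := defect_additive hp2 hpS hW hχW (A := subRepGQ B (K n) (stab n))
        (C := subRepGQ B (X n) (hXstab n)) (hsubTriv (K (n + 1)) (stab (n + 1)))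
        (Submodule.inclusion (hK n)) (fun _ _ => rfl) (pi n)
        (fun g x => Subtype.ext (hTn n g x.1)) (Submodule.inclusion_injective _) (hsurj n) (hexact n)
      have hd : defect S (subRepGQ B (X n) (hXstab n)) = d1 :=
        defect_congr (LinearEquiv.ofEq _ _ (hXeq n hn)) fun g x => rfl
      rw [h, hd, ih (Nat.le_of_succ_le hn)]
      push_cast
      ring
  have hfin := hind q le_rfl
  rw [← hfin]
  exact (defect_congr (A := subRepGQ B (K q) (stab q)) (B := B)
    ((LinearEquiv.ofEq _ _ (LinearMap.ker_eq_top.2 hq)).trans Submodule.topEquiv)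
    fun g x => rfl).symm

include hp2 hpS hW hχW in
/-- If `U'` is normalised by `d`, `U = ⟨d⟩ U'` and `[U : U'] = p ^ a`, vanishing descends to `U`. -/
theorem defect_funRep_eq_zero_of_step {M : Rep.{0} (ZMod p) GQ} [FiniteDimensional (ZMod p) M]
    (hM : TrivOn W M) {U' U : Subgroup GQ} (hWU : W ≤ U') (hle : U' ≤ U) (d : GQ) (hd : d ∈ U)
    (hnorm : ∀ u ∈ U', d⁻¹ * u * d ∈ U') (hgen : ∀ u ∈ U, ∃ i : ℕ, (d ^ i)⁻¹ * u ∈ U') (a : ℕ)
    (hpow : d ^ p ^ a ∈ U') (hidx : U'.relIndex U = p ^ a)
    (h' : defect S (funRep M U') = 0) :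
    defect S (funRep M U) = 0 := by
  classical
  have hU' := le_levelSubgroup hWU hW
  haveI : Finite (GQ ⧸ U') := hU'.finite_quotient
  haveI : Finite (GQ ⧸ U) := (le_levelSubgroup (hWU.trans hle) hW).finite_quotient
  haveI := Sha.finiteDimensional_funRep M U'
  haveI := Sha.finiteDimensional_funRep M U
  let r : GQ ⧸ U' → GQ ⧸ U' := Quotient.map' (fun g => g * d) fun g h hgh => by
    rw [QuotientGroup.leftRel_apply] at hgh ⊢
    have := hnorm _ hgh
    simpa [mul_inv_rev, mul_assoc] using this
  have hr : ∀ g : GQ, r (QuotientGroup.mk g) = QuotientGroup.mk (g * d) := fun g => rfl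
  have hrsmul : ∀ (g : GQ) x, r (g • x) = g • r x := fun g x => by
    obtain ⟨h, rfl⟩ := QuotientGroup.mk_surjective x
    rw [MulAction.Quotient.smul_mk, hr, hr, MulAction.Quotient.smul_mk, smul_eq_mul, smul_eq_mul,
      mul_assoc]
  have hriter : ∀ (n : ℕ) (g : GQ), r^[n] (QuotientGroup.mk g) = QuotientGroup.mk (g * d ^ n) := by
    intro n
    induction n with
    | zero => intro g; simp
    | succ n ih => intro g; rw [Function.iterate_succ_apply, hr, ih, mul_assoc, ← pow_succ']
  let R : funRep M U' →ₗ[ZMod p] funRep M U' :=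
    { toFun := fun f x => f (r x)
      map_add' := fun _ _ => rfl
      map_smul' := fun _ _ => rfl }
  have hRg : ∀ g f, R ((funRep M U').ρ g f) = (funRep M U').ρ g (R f) := fun g f =>
    funext fun x => by
      change M.ρ g (f (g⁻¹ • r x)) = M.ρ g (f (r (g⁻¹ • x)))
      rw [hrsmul]
  have hRn : ∀ (n : ℕ) f x, (R ^ n) f x = f (r^[n] x) := by
    intro n
    induction n with
    | zero => intro f x; rfl
    | succ n ih => intro f x; rw [pow_succ', Module.End.mul_apply, Function.iterate_succ_apply]; exact ih f (r x)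
  have hRq : R ^ p ^ a = 1 := LinearMap.ext fun f => funext fun x => by
    obtain ⟨g, rfl⟩ := QuotientGroup.mk_surjective x
    rw [hRn, hriter, QuotientGroup.mk_mul_of_mem g hpow]
    rfl
  let T : funRep M U' →ₗ[ZMod p] funRep M U' := R - 1
  have hTq : T ^ p ^ a = 0 := by
    have hpoly : (Polynomial.X - 1 : Polynomial (ZMod p)) ^ p ^ a = Polynomial.X ^ p ^ a - 1 := by
      rw [sub_pow_char_pow, one_pow]
    have := congrArg (Polynomial.aeval R) hpoly
    simpa [T, hRq] using this
  have hTg : ∀ g f, T ((funRep M U').ρ g f) = (funRep M U').ρ g (T f) := fun g f => by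
    simp only [T, LinearMap.sub_apply, Module.End.one_apply, map_sub, hRg]
  -- the kernel of `T` is `funRep M U`
  let π : GQ ⧸ U' → GQ ⧸ U := Quotient.map' id fun g h hgh => by
    rw [QuotientGroup.leftRel_apply] at hgh ⊢; exact hle hgh
  let incl : funRep M U →ₗ[ZMod p] LinearMap.ker T :=
    LinearMap.codRestrict _
      { toFun := fun f x => f (π x), map_add' := fun _ _ => rfl, map_smul' := fun _ _ => rfl }
      fun f => by
        rw [LinearMap.mem_ker]
        simp only [T, LinearMap.sub_apply, Module.End.one_apply, sub_eq_zero]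
        funext x
        obtain ⟨g, rfl⟩ := QuotientGroup.mk_surjective x
        change f (π (r (QuotientGroup.mk g))) = f (π (QuotientGroup.mk g))
        exact congrArg f (QuotientGroup.mk_mul_of_mem g hd)
  have hincl : Function.Bijective incl := by
    refine ⟨fun f f' h => funext fun y => ?_, fun F => ?_⟩
    · obtain ⟨g, rfl⟩ := QuotientGroup.mk_surjective y
      exact congrFun (congrArg Subtype.val h) (QuotientGroup.mk g)
    · have hF : ∀ x, F.1 (r x) = F.1 x := fun x => by
        have h := LinearMap.mem_ker.1 F.2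
        simp only [T, LinearMap.sub_apply, Module.End.one_apply, sub_eq_zero] at h
        exact congrFun h x
      have hFi : ∀ (n : ℕ) x, F.1 (r^[n] x) = F.1 x := by
        intro n
        induction n with
        | zero => intro x; rfl
        | succ n ih => intro x; rw [Function.iterate_succ_apply, ih, hF]
      refine ⟨fun y => Quotient.liftOn' y (fun g => F.1 (QuotientGroup.mk g)) fun g h hgh => ?_,
        Subtype.ext (funext fun x => ?_)⟩
      · rw [QuotientGroup.leftRel_apply] at hgh
        obtain ⟨i, hi⟩ := hgen _ hgh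
        rw [← hFi i (QuotientGroup.mk g), hriter]
        refine congrArg F.1 (QuotientGroup.eq.2 ?_)
        convert hi using 1
        group
      · obtain ⟨g, rfl⟩ := QuotientGroup.mk_surjective x
        rfl
  let e := LinearEquiv.ofBijective incl hincl
  have hk : finrank (ZMod p) (LinearMap.ker T) = U.index * finrank (ZMod p) M := by
    rw [← e.finrank_eq, finrank_funRep]
  have hB : finrank (ZMod p) (funRep M U') = p ^ a * finrank (ZMod p) (LinearMap.ker T) := by
    rw [hk, finrank_funRep, ← Subgroup.relIndex_mul_index hle, hidx, mul_assoc]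
  have h := defect_eq_mul_of_nilpotent (S := S) hp2 hpS hW hχW (hM.funRep hWU) T hTg (p ^ a) hTq hB
  rw [h', eq_comm] at h
  have hz := (mul_eq_zero.1 h).resolve_left
    (by exact_mod_cast (pow_ne_zero a (Fact.out : p.Prime).ne_zero))
  rw [← hz]
  exact defect_congr e fun g f => Subtype.ext (funext fun x => by
    obtain ⟨b, rfl⟩ := QuotientGroup.mk_surjective x
    rfl)

end Fermat.Agent.CFT.Euler
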