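import Fermat.Agent.CFT.EulerChar.PermModel
import Fermat.Agent.CFT.GlobalPerm.Kummer
import Fermat.Agent.CFT.EquivariantCount
import Fermat.Agent.CFT.PlaceAction

/-!
# `Γ/V` acting on the units, primes and `S`-classes of the fixed field of a normal level `V`
-/

set_option autoImplicit false
set_option linter.style.haveILetI false

open CategoryTheory groupCohomology ExtCitation Module NumberField IsDedekindDomain

noncomputable section

namespace Fermat.Agent.CFT.EulerChar

open EquivariantCount

variable (V : Subgroup GQ)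

/-- The fixed field of `V`. -/
abbrev lvlFld : IntermediateField ℚ (AlgebraicClosure ℚ) := IntermediateField.fixedField V

variable [V.Normal]

/-- The Galois action on the fixed field of a normal subgroup. -/
def galFix : GQ →* Gal(lvlFld V/ℚ) :=
  MonoidHom.mk'
    (fun g =>
      { toFun := fun a => ⟨g a, fun u => by
          show (u : GQ) (g a) = g a
          have h := a.2 ⟨g⁻¹ * u.1 * g, Subgroup.Normal.conj_mem' inferInstance u.1 u.2 g⟩
          change (g⁻¹ * u.1 * g) (a : AlgebraicClosure ℚ) = a at h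
          rw [AlgEquiv.mul_apply, AlgEquiv.mul_apply] at h
          have h' := congrArg g h
          rwa [← AlgEquiv.mul_apply g g⁻¹, mul_inv_cancel, AlgEquiv.one_apply] at h'⟩
        invFun := fun a => ⟨g⁻¹ a, fun u => by
          show (u : GQ) (g⁻¹ a) = g⁻¹ a
          have h := a.2 ⟨g * u.1 * g⁻¹, Subgroup.Normal.conj_mem inferInstance u.1 u.2 g⟩
          change (g * u.1 * g⁻¹) (a : AlgebraicClosure ℚ) = a at h
          rw [AlgEquiv.mul_apply, AlgEquiv.mul_apply] at h
          have h' := congrArg (fun y => (g⁻¹ : GQ) y) h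
          beta_reduce at h'
          rwa [← AlgEquiv.mul_apply g⁻¹ g, inv_mul_cancel, AlgEquiv.one_apply] at h'⟩
        left_inv := fun a => Subtype.ext (by
          show g⁻¹ (g a) = a
          rw [← AlgEquiv.mul_apply, inv_mul_cancel, AlgEquiv.one_apply])
        right_inv := fun a => Subtype.ext (by
          show g (g⁻¹ a) = a
          rw [← AlgEquiv.mul_apply, mul_inv_cancel, AlgEquiv.one_apply])
        map_add' := fun a b => Subtype.ext (map_add g (a : AlgebraicClosure ℚ) b)
        map_mul' := fun a b => Subtype.ext (map_mul g (a : AlgebraicClosure ℚ) b)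
        commutes' := fun r => Subtype.ext (g.commutes r) })
    fun g h => AlgEquiv.ext fun a => Subtype.ext rfl

lemma coe_galFix (g : GQ) (a : lvlFld V) :
    ((galFix V g a : lvlFld V) : AlgebraicClosure ℚ) = g a := rfl

/-- `Γ/V → Gal(L/ℚ)`. -/
def galQ : GQ ⧸ V →* Gal(lvlFld V/ℚ) :=
  QuotientGroup.lift V (galFix V) fun g hg => MonoidHom.mem_ker.2
    (AlgEquiv.ext fun a => Subtype.ext (a.2 ⟨g, hg⟩))

lemma coe_galQ (g : GQ) (a : lvlFld V) :
    ((galQ V (g : GQ ⧸ V) a : lvlFld V) : AlgebraicClosure ℚ) = g a := rfl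

/-- The action on the multiplicative group. -/
def fieldOp : Representation ℤ (GQ ⧸ V) (Additive (lvlFld V)ˣ) where
  toFun x := (MonoidHom.toAdditive (Units.map (galQ V x).toAlgHom.toRingHom.toMonoidHom)).toIntLinearMap
  map_one' := LinearMap.ext fun a => Additive.toMul.injective (Units.ext (by
    change galQ V 1 (a.toMul : lvlFld V) = _
    rw [map_one, AlgEquiv.one_apply]
    rfl))
  map_mul' x y := LinearMap.ext fun a => Additive.toMul.injective (Units.ext (by
    change galQ V (x * y) (a.toMul : lvlFld V) = _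
    rw [map_mul, AlgEquiv.mul_apply]
    rfl))

lemma fieldOp_coe (g : GQ) (a : Additive (lvlFld V)ˣ) :
    (((fieldOp V (g : GQ ⧸ V) a).toMul : lvlFld V) : AlgebraicClosure ℚ) =
      g ((a.toMul : lvlFld V) : AlgebraicClosure ℚ) := rfl

variable [NumberField (lvlFld V)] (S : Finset Nat.Primes)

lemma ordP_fieldOp (x : GQ ⧸ V) (v : HeightOneSpectrum (𝓞 (lvlFld V))) (a : (lvlFld V)ˣ) :
    ordP v (fieldOp V x (Additive.ofMul a)).toMul = ordP ((galQ V x)⁻¹ • v) a := by
  have h := valuation_apply_eq (galQ V x) v (a : lvlFld V)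
  rw [valuation_eq_exp_ordP] at h
  have h' : v.valuation (lvlFld V) ((fieldOp V x (Additive.ofMul a)).toMul : lvlFld V) =
      WithZero.exp (-ordP ((galQ V x)⁻¹ • v) a) := h
  rw [valuation_eq_exp_ordP] at h'
  have := WithZero.exp_injective h'
  omega

lemma smul_mem_placesOver (g : Gal(lvlFld V/ℚ)) {v : HeightOneSpectrum (𝓞 (lvlFld V))} :
    g • v ∈ placesOver S (lvlFld V) ↔ v ∈ placesOver S (lvlFld V) := by
  rw [mem_placesOver, mem_placesOver]
  refine exists_congr fun q => and_congr_right fun _ => ?_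
  rw [mem_placeAct_iff]
  have h : g⁻¹ • ((q : ℕ) : 𝓞 (lvlFld V)) = ((q : ℕ) : 𝓞 (lvlFld V)) :=
    map_natCast (ringOfIntegersAut g⁻¹).toRingHom _
  rw [h]

/-- The action on the primes outside `S`. -/
def offPerm (x : GQ ⧸ V) (v : OffPrimes (placesOver S (lvlFld V))) :
    OffPrimes (placesOver S (lvlFld V)) :=
  ⟨galQ V x • v.1, fun h => v.2 ((smul_mem_placesOver V S _).1 h)⟩

/-- The action on divisors outside `S`. -/
def divOp : Representation ℤ (GQ ⧸ V) (OffPrimes (placesOver S (lvlFld V)) →₀ ℤ) where
  toFun x := Finsupp.lmapDomain ℤ ℤ (offPerm V S x)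
  map_one' := by
    have h : offPerm V S 1 = id := funext fun v => Subtype.ext (by
      show galQ V 1 • v.1 = v.1
      rw [map_one, one_smul])
    rw [h, Finsupp.lmapDomain_id]
    rfl
  map_mul' x y := by
    have h : offPerm V S (x * y) = offPerm V S x ∘ offPerm V S y := funext fun v => Subtype.ext (by
      show galQ V (x * y) • v.1 = galQ V x • galQ V y • v.1
      rw [map_mul, mul_smul])
    rw [h, Finsupp.lmapDomain_comp]
    rfl

lemma offPerm_injective (x : GQ ⧸ V) : Function.Injective (offPerm V S x) := fun v w h =>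
  Subtype.ext (MulAction.injective (galQ V x) (congrArg Subtype.val h))

lemma divOff_fieldOp (x : GQ ⧸ V) (a : Additive (lvlFld V)ˣ) :
    divOff (placesOver S (lvlFld V)) (fieldOp V x a) =
      divOp V S x (divOff (placesOver S (lvlFld V)) a) := by
  ext v
  have hv : v = offPerm V S x (offPerm V S x⁻¹ v) := Subtype.ext (by
    show v.1 = galQ V x • galQ V x⁻¹ • v.1
    rw [map_inv, smul_inv_smul])
  show ordP v.1 (fieldOp V x a).toMul = Finsupp.mapDomain _ _ v
  conv_rhs => rw [hv, Finsupp.mapDomain_apply (offPerm_injective V S x)]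
  rw [show a = Additive.ofMul a.toMul from rfl, ordP_fieldOp, divOff_apply]
  show _ = ordP (galQ V x⁻¹ • v.1) a.toMul
  rw [map_inv]

/-- The action on the `S`-class group. -/
def clsOp : Representation ℤ (GQ ⧸ V) (SClass (placesOver S (lvlFld V))) :=
  quotRep (divOp V S) (divOff (placesOver S (lvlFld V))).range fun x d hd => by
    obtain ⟨a, rfl⟩ := hd
    exact ⟨fieldOp V x a, divOff_fieldOp V S x a⟩

/-- The `S`-units. -/
def sUnitGrp : AddSubgroup (Additive (lvlFld V)ˣ) :=
  (divOff (placesOver S (lvlFld V))).ker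

/-- The action on the `S`-units. -/
def sUnitOp : Representation ℤ (GQ ⧸ V) (sUnitGrp V S) :=
  subRep (fieldOp V) (sUnitGrp V S) fun x a ha => by
    change divOff _ (fieldOp V x a) = 0
    rw [divOff_fieldOp, show divOff _ a = 0 from ha, map_zero]

variable {p : ℕ} [Fact p.Prime] {U : Subgroup GQ} {A : Type} [AddCommGroup A] [Module (ZMod p) A]
  (ν : Representation (ZMod p) (levelGrp V U) A)

/-- The number of `U/V`-equivariant additive maps into a `Γ/V`-module. -/
def homCard {W : Type*} [AddCommGroup W] (ρ : Representation ℤ (GQ ⧸ V) W) : ℕ :=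
  Nat.card (eHom ν (ρ.comp (levelGrp V U).subtype))

end Fermat.Agent.CFT.EulerChar
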