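import Fermat.Agent.CFT.EulerChar.Flag
import Fermat.Agent.CFT.ModularArtin

/-!
# The global Euler characteristic
-/

set_option autoImplicit false
set_option linter.style.haveILetI false

open CategoryTheory groupCohomology ExtCitation Module

noncomputable section

namespace Fermat.Agent.CFT.Euler

open Fermat.Agent.CFT.Sha

variable {p : ℕ} [Fact p.Prime] {S : Finset Nat.Primes}

section quotient

variable (hp2 : p ≠ 2) (hpS : pPrime p ∈ S) {W : Subgroup GQ} [W.Normal]
  (hW : IsLevelSubgroup (Levels.unr S) (MonoidHom.id GQ) W)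
  (hχW : ∀ g ∈ W, cycloChar p g = 1)

/-- Inflation from `GQ ⧸ W`. -/
abbrev inflQ (W : Subgroup GQ) [W.Normal] (V : Rep.{0} (ZMod p) (GQ ⧸ W)) : Rep.{0} (ZMod p) GQ :=
  Rep.res (QuotientGroup.mk' W) V

theorem trivOn_inflQ (V : Rep.{0} (ZMod p) (GQ ⧸ W)) : TrivOn W (inflQ W V) := fun g hg => by
  change V.ρ (QuotientGroup.mk' W g) = 1
  rw [show QuotientGroup.mk' W g = 1 from (QuotientGroup.eq_one_iff g).2 hg, map_one]

include hp2 hpS hW hχW in
theorem isAdditiveOnRep_defect :
    IsAdditiveOnRep (fun V : Rep.{0} (ZMod p) (GQ ⧸ W) => defect S (inflQ W V)) := by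
  intro A B C φ ψ hB hi hs he
  haveI : FiniteDimensional (ZMod p) (inflQ W B) := hB
  exact defect_additive hp2 hpS hW hχW (trivOn_inflQ B) φ.hom.toLinearMap
    (fun g a => Rep.hom_comm_apply φ _ a) ψ.hom.toLinearMap
    (fun g a => Rep.hom_comm_apply ψ _ a) hi hs he

include hp2 hpS hW hχW in
theorem defect_inflQ_eq_zero (V : Rep.{0} (ZMod p) (GQ ⧸ W)) [FiniteDimensional (ZMod p) V] :
    defect S (inflQ W V) = 0 := by
  classical
  haveI : Finite (GQ ⧸ W) := hW.finite_quotient
  letI := Fintype.ofFinite (GQ ⧸ W)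
  haveI hfd : FiniteDimensional (ZMod p) (inflQ W V) := ‹FiniteDimensional (ZMod p) V›
  refine additive_eq_zero_of_cyclic (isAdditiveOnRep_defect hp2 hpS hW hχW) V fun D hD => ?_
  set f := QuotientGroup.mk' W
  have hf : Function.Surjective f := QuotientGroup.mk'_surjective W
  obtain ⟨⟨γ, hγD⟩, hgenD⟩ := hD.exists_generator
  have hγ : Subgroup.zpowers γ = D := le_antisymm (Subgroup.zpowers_le.2 hγD) fun x hx => by
    obtain ⟨i, hi⟩ := Subgroup.mem_zpowers_iff.1 (hgenD ⟨x, hx⟩)
    exact Subgroup.mem_zpowers_iff.2 ⟨i, congrArg Subtype.val hi⟩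
  set n := orderOf γ
  have hn : 0 < n := orderOf_pos γ
  set a := n.factorization p
  have hdvd : p ^ a ∣ n := Nat.ordProj_dvd n p
  set C := Subgroup.zpowers (γ ^ p ^ a) with hC
  have hcardC : Nat.card C = n / p ^ a := by
    rw [hC, Nat.card_zpowers, orderOf_pow, Nat.gcd_eq_right hdvd]
  have hCD : C ≤ D := by
    rw [hC, ← hγ]
    exact Subgroup.zpowers_le.2 (pow_mem (Subgroup.mem_zpowers γ) _)
  have hrel : C.relIndex D = p ^ a := by
    have h := Subgroup.relIndex_mul_relIndex ⊥ C D bot_le hCD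
    rw [Subgroup.relIndex_bot_left, Subgroup.relIndex_bot_left, hcardC, ← hγ, Nat.card_zpowers] at h
    rw [← hγ]
    exact mul_left_cancel₀ (Nat.div_pos (Nat.le_of_dvd hn hdvd) (pow_pos (Fact.out : p.Prime).pos a)).ne'
      (h.trans (Nat.div_mul_cancel hdvd).symm)
  obtain ⟨d, hd⟩ := hf γ
  set U := D.comap f
  set U' := C.comap f
  have hWU : W ≤ U' := fun g hg => by
    change f g ∈ C
    rw [show f g = 1 from (QuotientGroup.eq_one_iff g).2 hg]
    exact one_mem _
  have hW' : W = (⊥ : Subgroup (GQ ⧸ W)).comap f := by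
    ext g
    rw [Subgroup.mem_comap, Subgroup.mem_bot]
    exact (QuotientGroup.eq_one_iff g).symm
  have hM := trivOn_inflQ (p := p) V
  have h' : defect S (funRep (inflQ W V) U') = 0 := by
    refine defect_funRep_eq_zero_of_prime_index hp2 hpS hW hχW hM hWU ?_
    rw [show W.relIndex U' = ((⊥ : Subgroup (GQ ⧸ W)).comap f).relIndex U' by rw [← hW'],
      Subgroup.relIndex_comap, Subgroup.relIndex_bot_left,
      Subgroup.map_comap_eq_self_of_surjective hf, hcardC]
    exact Nat.not_dvd_ordCompl Fact.out hn.ne'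
  have hcomm : ∀ c ∈ C, γ⁻¹ * c * γ = c := fun c hc => by
    obtain ⟨i, rfl⟩ := Subgroup.mem_zpowers_iff.1 hc
    rw [mul_assoc, ((Commute.refl γ).pow_left _).zpow_left i |>.eq, inv_mul_cancel_left]
  have hzero : defect S (funRep (inflQ W V) U) = 0 := by
    refine defect_funRep_eq_zero_of_step hp2 hpS hW hχW hM hWU (Subgroup.comap_mono hCD) d ?_
      (fun u hu => ?_) (fun u hu => ?_) a ?_ ?_ h'
    · change f d ∈ D
      rw [hd, ← hγ]
      exact Subgroup.mem_zpowers γ
    · change f (d⁻¹ * u * d) ∈ C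
      rw [map_mul, map_mul, map_inv, hd, hcomm _ hu]
      exact hu
    · change f u ∈ D at hu
      rw [← hγ] at hu
      obtain ⟨i, hi⟩ := mem_powers_iff_mem_zpowers.2 hu
      refine ⟨i, ?_⟩
      change f ((d ^ i)⁻¹ * u) ∈ C
      rw [map_mul, map_inv, map_pow, hd, show γ ^ i = f u from hi, inv_mul_cancel]
      exact one_mem _
    · change f (d ^ p ^ a) ∈ C
      rw [map_pow, hd]
      exact Subgroup.mem_zpowers _
    · rw [Subgroup.relIndex_comap, Subgroup.map_comap_eq_self_of_surjective hf, hrel]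
  rw [← hzero]
  have hmap : ∀ g h : GQ, (QuotientGroup.leftRel U) g h →
      (QuotientGroup.leftRel D) (f g) (f h) := fun g h hgh => by
    rw [QuotientGroup.leftRel_apply] at hgh ⊢
    rw [← map_inv, ← map_mul]
    exact hgh
  let π : GQ ⧸ U → (GQ ⧸ W) ⧸ D := Quotient.map' f hmap
  have hπ : Function.Bijective π := by
    refine ⟨fun x y h => ?_, fun z => ?_⟩
    · obtain ⟨g, rfl⟩ := QuotientGroup.mk_surjective x
      obtain ⟨g', rfl⟩ := QuotientGroup.mk_surjective y
      have h' := QuotientGroup.eq.1 (show (QuotientGroup.mk (f g) : (GQ ⧸ W) ⧸ D) = QuotientGroup.mk (f g') from h)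
      refine QuotientGroup.eq.2 ?_
      change f (g⁻¹ * g') ∈ D
      rw [map_mul, map_inv]
      exact h'
    · obtain ⟨z, rfl⟩ := QuotientGroup.mk_surjective z
      obtain ⟨g, rfl⟩ := hf z
      exact ⟨QuotientGroup.mk g, rfl⟩
  refine defect_congr (A := inflQ W (permTwist ((GQ ⧸ W) ⧸ D) V)) (B := funRep (inflQ W V) U)
    (LinearEquiv.funCongrLeft (ZMod p) V (Equiv.ofBijective π hπ)) fun g h => funext fun x => ?_
  obtain ⟨b, rfl⟩ := QuotientGroup.mk_surjective x
  rfl

end quotient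

/-- The Euler characteristic of `H^*(G_S, M)` is `h⁰(ℝ, M) - dim M`. -/
theorem defect_eq_zero (hp2 : p ≠ 2) (hpS : pPrime p ∈ S) (M : Rep.{0} (ZMod p) GQ)
    [FiniteDimensional (ZMod p) M] (hM : IsSmoothRep (Levels.unr S) (MonoidHom.id GQ) M) :
    defect S M = 0 := by
  classical
  let W : Subgroup GQ := MonoidHom.ker M.ρ ⊓ (cycloChar p).ker
  haveI : W.Normal := Subgroup.normal_inf_normal _ _
  have hW : IsLevelSubgroup (Levels.unr S) (MonoidHom.id GQ) W := by
    let b := Module.finBasis (ZMod p) M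
    choose F hF hfix using fun i => hM (b i)
    obtain ⟨F₁, hF₁, hfix₁⟩ := Sha.isSmoothRep_muRep (p := p) hpS (1 : ZMod p)
    obtain ⟨F', hF', hle⟩ := Levels.exists_ge (L := Levels.unr S) F hF
    refine ⟨F' ⊔ F₁, (Levels.unr S).sup _ _ hF' hF₁, fun s hs => ⟨?_, ?_⟩⟩
    · exact MonoidHom.mem_ker.2 (b.ext fun i => hfix i s
        (IntermediateField.fixingSubgroup_antitone ((hle i).trans le_sup_left) hs))
    · refine MonoidHom.mem_ker.2 (Units.ext ?_)
      have := hfix₁ s (IntermediateField.fixingSubgroup_antitone le_sup_right hs)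
      rwa [muRep_apply, mul_one] at this
  let V : Rep.{0} (ZMod p) (GQ ⧸ W) :=
    Rep.of (QuotientGroup.lift W M.ρ fun g hg => hg.1)
  haveI : FiniteDimensional (ZMod p) V := ‹FiniteDimensional (ZMod p) M›
  have h := defect_inflQ_eq_zero hp2 hpS hW (fun g hg => MonoidHom.mem_ker.1 hg.2) V
  rw [← h]
  exact defect_congr (A := M) (B := inflQ W V) (LinearEquiv.refl (ZMod p) M) fun g m => rfl

end Fermat.Agent.CFT.Euler
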