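import Fermat.Agent.CFT.Sha.Pairs

/-!
# Equivariant maps into a module with a commuting finite group of operators

For a finite group `D` of order prime to the characteristic acting on `A`, and on `X` commuting
with the Galois action, `eqRep` is `Hom_D(A, X)`; its cohomology is compared with
`Hom_D(A, H^*(X))`.
-/

set_option autoImplicit false
set_option linter.style.haveILetI false

open CategoryTheory groupCohomology ExtCitation Module

noncomputable section

namespace Fermat.Agent.CFT.EulerChar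

variable {k : Type} [Field k] {D : Type} [Group D] [Fintype D]
  {A : Type} [AddCommGroup A] [Module k A] (ν : Representation k D A)

section count

variable {W W' : Type*} [AddCommGroup W] [Module k W] [AddCommGroup W'] [Module k W']
  (ω : Representation k D W) (ω' : Representation k D W')

/-- Equivariant linear maps. -/
def eqHom : Submodule k (A →ₗ[k] W) where
  carrier := {φ | ∀ d a, φ (ν d a) = ω d (φ a)}
  add_mem' hφ hψ d a := by simp [hφ d a, hψ d a]
  zero_mem' d a := by simp
  smul_mem' c φ hφ d a := by simp [hφ d a]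

lemma mem_eqHom {φ : A →ₗ[k] W} : φ ∈ eqHom ν ω ↔ ∀ d a, φ (ν d a) = ω d (φ a) := Iff.rfl

/-- The normalised average of a linear map. -/
def homAvg : (A →ₗ[k] W) →ₗ[k] (A →ₗ[k] W) :=
  (Fintype.card D : k)⁻¹ • ∑ d : D, LinearMap.lcomp k W (ν d⁻¹) ∘ₗ (ω d).compRight k

lemma homAvg_apply (φ : A →ₗ[k] W) (a : A) :
    homAvg ν ω φ a = (Fintype.card D : k)⁻¹ • ∑ d : D, ω d (φ (ν d⁻¹ a)) := by
  simp [homAvg, LinearMap.sum_apply]

lemma homAvg_mem (φ : A →ₗ[k] W) : homAvg ν ω φ ∈ eqHom ν ω := by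
  intro e a
  rw [homAvg_apply, homAvg_apply, map_smul, map_sum]
  congr 1
  refine (Fintype.sum_equiv (Equiv.mulLeft e) _ _ fun d => ?_).symm
  rw [Equiv.coe_mulLeft, ← Module.End.mul_apply, ← map_mul, ← Module.End.mul_apply (f := ν _),
    ← map_mul, mul_inv_rev, inv_mul_cancel_right]

variable (hD : (Fintype.card D : k) ≠ 0)

include hD in
lemma homAvg_eq_self {φ : A →ₗ[k] W} (hφ : φ ∈ eqHom ν ω) : homAvg ν ω φ = φ := by
  refine LinearMap.ext fun a => ?_
  rw [homAvg_apply]
  have : ∀ d : D, ω d (φ (ν d⁻¹ a)) = φ a := fun d => by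
    rw [← hφ, ← Module.End.mul_apply, ← map_mul, mul_inv_cancel, map_one, Module.End.one_apply]
  rw [Finset.sum_congr rfl fun d _ => this d, Finset.sum_const, Finset.card_univ,
    ← Nat.cast_smul_eq_nsmul k, smul_smul, inv_mul_cancel₀ hD, one_smul]

/-- The dimension of the equivariant maps. -/
def eDim : ℕ := finrank k (eqHom ν ω)

/-- Composition with an equivariant map. -/
def eqComp (f : W →ₗ[k] W') (hf : ∀ d w, f (ω d w) = ω' d (f w)) :
    eqHom ν ω →ₗ[k] eqHom ν ω' :=
  (f.compRight k).restrict fun φ hφ d a => by simp [hφ d a, hf]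

@[simp] lemma coe_eqComp (f : W →ₗ[k] W') (hf : ∀ d w, f (ω d w) = ω' d (f w))
    (φ : eqHom ν ω) : (eqComp ν ω ω' f hf φ : A →ₗ[k] W') = f ∘ₗ (φ : A →ₗ[k] W) := rfl

lemma eqComp_injective (f : W →ₗ[k] W') (hf : ∀ d w, f (ω d w) = ω' d (f w))
    (hi : Function.Injective f) : Function.Injective (eqComp ν ω ω' f hf) := fun φ ψ h =>
  Subtype.ext (LinearMap.ext fun a => hi (LinearMap.congr_fun (congrArg Subtype.val h) a))

variable [FiniteDimensional k A]

include hD in
lemma eqComp_surjective (f : W →ₗ[k] W') (hf : ∀ d w, f (ω d w) = ω' d (f w))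
    (hs : Function.Surjective f) : Function.Surjective (eqComp ν ω ω' f hf) := by
  intro ψ
  obtain ⟨s, hs'⟩ := f.exists_rightInverse_of_surjective (LinearMap.range_eq_top.2 hs)
  refine ⟨⟨homAvg ν ω (s ∘ₗ ψ.1), homAvg_mem ν ω _⟩, Subtype.ext ?_⟩
  refine Eq.trans ?_ (homAvg_eq_self ν ω' hD ψ.2)
  refine LinearMap.ext fun a => ?_
  rw [coe_eqComp, LinearMap.comp_apply, homAvg_apply, homAvg_apply, map_smul, map_sum]
  congr 1
  refine Finset.sum_congr rfl fun d _ => ?_
  rw [hf, LinearMap.comp_apply]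
  exact congrArg (ω' d) (LinearMap.congr_fun hs' _)

lemma eDim_le_of_injective [FiniteDimensional k W'] (f : W →ₗ[k] W')
    (hf : ∀ d w, f (ω d w) = ω' d (f w)) (hi : Function.Injective f) :
    eDim ν ω ≤ eDim ν ω' :=
  LinearMap.finrank_le_finrank_of_injective (eqComp_injective ν ω ω' f hf hi)

include hD in
lemma eDim_le_of_surjective [FiniteDimensional k W] (f : W →ₗ[k] W')
    (hf : ∀ d w, f (ω d w) = ω' d (f w)) (hs : Function.Surjective f) :
    eDim ν ω' ≤ eDim ν ω :=
  (LinearEquiv.finrank_eq (LinearEquiv.ofTop _ (LinearMap.range_eq_top.2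
    (eqComp_surjective ν ω ω' hD f hf hs))).symm).le.trans (LinearMap.finrank_range_le _)

variable {W'' : Type*} [AddCommGroup W''] [Module k W''] (ω'' : Representation k D W'')

include hD in
/-- `eDim` is additive on short exact sequences. -/
lemma eDim_add [FiniteDimensional k W] (i : W'' →ₗ[k] W) (hi' : ∀ d w, i (ω'' d w) = ω d (i w))
    (f : W →ₗ[k] W') (hf : ∀ d w, f (ω d w) = ω' d (f w)) (hi : Function.Injective i)
    (hs : Function.Surjective f) (he : Function.Exact i f) :
    eDim ν ω = eDim ν ω'' + eDim ν ω' := by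
  have h := LinearMap.finrank_range_add_finrank_ker (eqComp ν ω ω' f hf)
  rw [LinearMap.range_eq_top.2 (eqComp_surjective ν ω ω' hD f hf hs), finrank_top] at h
  have hk : LinearMap.ker (eqComp ν ω ω' f hf) = LinearMap.range (eqComp ν ω'' ω i hi') := by
    refine le_antisymm (fun φ hφ => ?_) ?_
    · obtain ⟨t, ht⟩ := i.exists_leftInverse_of_injective (LinearMap.ker_eq_bot.2 hi)
      have hmem : ∀ a, i (t (φ.1 a)) = φ.1 a := fun a => by
        obtain ⟨w, hw⟩ := (he _).1 (LinearMap.congr_fun (congrArg Subtype.val hφ) a)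
        have hw' : i w = φ.1 a := hw
        rw [← hw']
        exact congrArg i (LinearMap.congr_fun ht w)
      refine ⟨⟨t ∘ₗ φ.1, fun d a => hi ?_⟩, Subtype.ext (LinearMap.ext hmem)⟩
      rw [LinearMap.comp_apply, hi', LinearMap.comp_apply, hmem, hmem, φ.2 d a]
    · rintro _ ⟨φ, rfl⟩
      exact Subtype.ext (LinearMap.ext fun a => he.apply_apply_eq_zero _)
  rw [hk, LinearMap.finrank_range_of_inj (eqComp_injective ν ω'' ω i hi' hi)] at h
  show finrank k (eqHom ν ω) = finrank k (eqHom ν ω'') + finrank k (eqHom ν ω')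
  omega

end count

variable {G : Type} [Group G] {L : Levels} {r : G →* GQ}

lemma isConst₁_finset_sum {ι V : Type*} [AddCommMonoid V] (s : Finset ι) (f : ι → G → V)
    (hf : ∀ i ∈ s, IsConst₁ L r (f i)) : IsConst₁ L r (∑ i ∈ s, f i) := by
  classical
  induction s using Finset.induction with
  | empty => exact ⟨⊥, L.bot, fun _ _ _ => rfl⟩
  | insert i s hi ih =>
    rw [Finset.sum_insert hi]
    exact ((hf i (Finset.mem_insert_self i s)).prodMk
      (ih fun j hj => hf j (Finset.mem_insert_of_mem hj))).comp fun x => x.1 + x.2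

lemma isConst₂_finset_sum {ι V : Type*} [AddCommMonoid V] (s : Finset ι) (f : ι → G × G → V)
    (hf : ∀ i ∈ s, IsConst₂ L r (f i)) : IsConst₂ L r (∑ i ∈ s, f i) := by
  classical
  induction s using Finset.induction with
  | empty => exact ⟨⊥, L.bot, fun _ _ _ _ _ _ => rfl⟩
  | insert i s hi ih =>
    rw [Finset.sum_insert hi]
    exact ((hf i (Finset.mem_insert_self i s)).prodMk
      (ih fun j hj => hf j (Finset.mem_insert_of_mem hj))).comp fun x => x.1 + x.2

variable (X : Rep.{0} k G)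
  (R : Representation k D X) (hR : ∀ d g (x : X), R d (X.ρ g x) = X.ρ g (R d x))

/-- Composition with the Galois action on the target. -/
def homRepρ : Representation k G (eqHom ν R) where
  toFun g := eqComp ν R R (X.ρ g) fun d x => (hR d g x).symm
  map_one' := LinearMap.ext fun φ => Subtype.ext (LinearMap.ext fun a => by simp)
  map_mul' g h := LinearMap.ext fun φ => Subtype.ext (LinearMap.ext fun a => by simp)

/-- `Hom_D(A, X)`. -/
abbrev eqRep : Rep.{0} k G := Rep.of (homRepρ ν X R hR)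

lemma eqRep_apply (g : G) (φ : eqRep ν X R hR) (a : A) :
    ((eqRep ν X R hR).ρ g φ : eqHom ν R).1 a = X.ρ g ((φ : eqHom ν R).1 a) := rfl

/-- Evaluation at `a`. -/
def evalAt (a : A) : eqRep ν X R hR →ₗ[k] X :=
  (LinearMap.applyₗ a).comp (eqHom ν R).subtype

lemma evalAt_equivariant (a : A) (g : G) (φ : eqRep ν X R hR) :
    evalAt ν X R hR a ((eqRep ν X R hR).ρ g φ) = X.ρ g (evalAt ν X R hR a φ) := rfl

/-- The operators on `H⁰`. -/
def invOp : Representation k D X.ρ.invariants where
  toFun d := (R d).restrict fun x hx g => by rw [← hR, hx g]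
  map_one' := LinearMap.ext fun x => Subtype.ext (by simp)
  map_mul' d e := LinearMap.ext fun x => Subtype.ext (by
    change R (d * e) x.1 = R d (R e x.1)
    rw [map_mul, Module.End.mul_apply])

variable (L r) in
/-- The operators on `H¹`. -/
def h1Op : Representation k D (H1c L r X) where
  toFun d := Sha.pushH1c (R d) (hR d)
  map_one' := LinearMap.ext fun x => by
    obtain ⟨_, c, hc, rfl⟩ := x
    refine Subtype.ext ?_
    change Sha.pushH1 (R 1) (hR 1) ((H1π X).hom c) = _
    rw [Sha.pushH1_π]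
    exact congrArg (H1π X).hom (Subtype.ext (funext fun g => by
      change R 1 (c g) = c g
      rw [map_one, Module.End.one_apply]))
  map_mul' d e := LinearMap.ext fun x => by
    obtain ⟨_, c, hc, rfl⟩ := x
    refine Subtype.ext ?_
    change Sha.pushH1 (R (d * e)) (hR _) ((H1π X).hom c) =
      Sha.pushH1 (R d) (hR d) (Sha.pushH1 (R e) (hR e) ((H1π X).hom c))
    rw [Sha.pushH1_π, Sha.pushH1_π, Sha.pushH1_π]
    exact congrArg (H1π X).hom (Subtype.ext (funext fun g => by
      change R (d * e) (c g) = R d (R e (c g))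
      rw [map_mul, Module.End.mul_apply]))

variable (L r) in
/-- The operators on `H²`. -/
def h2Op : Representation k D (H2c L r X) where
  toFun d := pushH2 (R d) (hR d)
  map_one' := LinearMap.ext fun x => by
    obtain ⟨c, rfl⟩ := Submodule.mkQ_surjective _ x
    exact congrArg (H2cπ L r X) (Subtype.ext (funext fun g => by
      change R 1 (c.1 g) = c.1 g
      rw [map_one, Module.End.one_apply]))
  map_mul' d e := LinearMap.ext fun x => by
    obtain ⟨c, rfl⟩ := Submodule.mkQ_surjective _ x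
    exact congrArg (H2cπ L r X) (Subtype.ext (funext fun g => by
      change R (d * e) (c.1 g) = R d (R e (c.1 g))
      rw [map_mul, Module.End.mul_apply]))

variable [FiniteDimensional k A] [FiniteDimensional k X]

instance : FiniteDimensional k (eqRep ν X R hR) :=
  inferInstanceAs (FiniteDimensional k (eqHom ν R))

omit [Fintype D] [FiniteDimensional k A] [FiniteDimensional k X] in
/-- `H⁰(Hom_D(A, X)) = Hom_D(A, H⁰ X)`. -/
theorem finrank_invariants_eqRep :
    finrank k (eqRep ν X R hR).ρ.invariants = eDim ν (invOp X R hR) :=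
  LinearEquiv.finrank_eq
    { toFun := fun φ => ⟨LinearMap.codRestrict _ (φ.1 : eqHom ν R).1 fun a g =>
        LinearMap.congr_fun (congrArg Subtype.val (φ.2 g)) a,
        fun d a => Subtype.ext ((φ.1 : eqHom ν R).2 d a)⟩
      map_add' := fun _ _ => rfl
      map_smul' := fun _ _ => rfl
      invFun := fun ψ => ⟨(⟨(Submodule.subtype _).comp ψ.1,
          fun d a => congrArg Subtype.val (ψ.2 d a)⟩ : eqHom ν R),
        fun g => Subtype.ext (LinearMap.ext fun a => (ψ.1 a).2 g)⟩
      left_inv := fun _ => rfl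
      right_inv := fun _ => rfl }

variable (hD : (Fintype.card D : k) ≠ 0)

/-- The averaging map into `Hom_D(A, X)`. -/
def avgRep : (A →ₗ[k] X) →ₗ[k] eqRep ν X R hR :=
  LinearMap.codRestrict _ (homAvg ν R) (homAvg_mem ν R)

include hR in
omit [FiniteDimensional k A] [FiniteDimensional k X] in
lemma avgRep_equivariant (g : G) (φ : A →ₗ[k] X) :
    avgRep ν X R hR (X.ρ g ∘ₗ φ) = (eqRep ν X R hR).ρ g (avgRep ν X R hR φ) := by
  refine Subtype.ext (LinearMap.ext fun a => ?_)
  rw [eqRep_apply]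
  change homAvg ν R (X.ρ g ∘ₗ φ) a = X.ρ g (homAvg ν R φ a)
  rw [homAvg_apply, homAvg_apply, map_smul, map_sum]
  congr 1
  exact Finset.sum_congr rfl fun d _ => hR d g _

include hD in
omit [FiniteDimensional k A] [FiniteDimensional k X] in
lemma avgRep_self (φ : eqRep ν X R hR) : avgRep ν X R hR (φ : eqHom ν R).1 = φ :=
  Subtype.ext (homAvg_eq_self ν R hD (φ : eqHom ν R).2)

include hD in
/-- `dim Hom_D(A, H¹ X) ≤ dim H¹(Hom_D(A, X))`. -/
theorem eDim_h1Op_le [FiniteDimensional k (H1c L r (eqRep ν X R hR))]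
    [FiniteDimensional k (H1c L r X)] :
    eDim ν (h1Op L r X R hR) ≤ finrank k (H1c L r (eqRep ν X R hR)) := by
  classical
  let b := Module.finBasis k A
  let Ψ : H1c L r (eqRep ν X R hR) →ₗ[k] (A →ₗ[k] H1c L r X) :=
    LinearMap.mk₂ k (fun x a => Sha.pushH1c (evalAt ν X R hR a)
        (evalAt_equivariant ν X R hR a) x)
      (fun x y a => map_add _ x y) (fun c x a => map_smul _ c x)
      (fun x a a' => by
        obtain ⟨_, c, hc, rfl⟩ := x
        refine Subtype.ext ?_
        change Sha.pushH1 _ _ ((H1π _).hom c) =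
          Sha.pushH1 _ _ ((H1π _).hom c) + Sha.pushH1 _ _ ((H1π _).hom c)
        rw [Sha.pushH1_π, Sha.pushH1_π, Sha.pushH1_π, ← map_add]
        exact congrArg (H1π X).hom (Subtype.ext (funext fun g => map_add (c g : eqHom ν R).1 a a')))
      (fun s x a => by
        obtain ⟨_, c, hc, rfl⟩ := x
        refine Subtype.ext ?_
        change Sha.pushH1 _ _ ((H1π _).hom c) = s • Sha.pushH1 _ _ ((H1π _).hom c)
        rw [Sha.pushH1_π, Sha.pushH1_π, ← map_smul]
        exact congrArg (H1π X).hom (Subtype.ext (funext fun g => map_smul (c g : eqHom ν R).1 s a)))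
  let q1 : ↥(Z1 L r X) →ₗ[k] H1c L r X :=
    LinearMap.codRestrict _ ((H1π X).hom.comp (Z1 L r X).subtype) fun z => ⟨z.1, z.2, rfl⟩
  have hq1 : Function.Surjective q1 := fun x => by
    obtain ⟨_, z, hz, rfl⟩ := x
    exact ⟨⟨z, hz⟩, rfl⟩
  obtain ⟨σ, hσ⟩ := q1.exists_rightInverse_of_surjective (LinearMap.range_eq_top.2 hq1)
  have key : ∀ Φ ∈ eqHom ν (h1Op L r X R hR), ∃ x, Ψ x = Φ := by
    intro Φ hΦ
    let w : G → (A →ₗ[k] X) := fun g =>
      (LinearMap.proj (φ := fun _ : G => X) g) ∘ₗ (cocycles₁ X).subtype ∘ₗ (Z1 L r X).subtype ∘ₗ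
        σ ∘ₗ Φ
    have hw : ∀ g h, w (g * h) = X.ρ g ∘ₗ w h + w g := fun g h => LinearMap.ext fun a =>
      (mem_cocycles₁_iff _).1 (σ (Φ a)).1.2 g h
    let z : G → eqRep ν X R hR := fun g => avgRep ν X R hR (w g)
    have hz : z ∈ cocycles₁ (eqRep ν X R hR) := by
      rw [mem_cocycles₁_iff]
      intro g h
      change avgRep ν X R hR (w (g * h)) = _
      rw [hw, map_add, avgRep_equivariant]
    have hwc : IsConst₁ L r w := by
      have e : w = ∑ i, (fun g => (b.coord i).smulRight (((σ (Φ (b i))).1 : G → X) g)) := by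
        refine funext fun g => b.ext fun j => ?_
        simp [w, Finset.sum_apply, LinearMap.sum_apply, Finsupp.single_apply]
      rw [e]
      exact isConst₁_finset_sum _ _ fun i _ =>
        (σ (Φ (b i))).2.comp fun x => (b.coord i).smulRight x
    refine ⟨⟨(H1π _).hom ⟨z, hz⟩, ⟨_, hwc.comp (avgRep ν X R hR), rfl⟩⟩, LinearMap.ext fun a => ?_⟩
    have hΦ' : ∀ d, h1Op L r X R hR d (Φ (ν d⁻¹ a)) = Φ a := fun d => by
      rw [← hΦ, ← Module.End.mul_apply, ← map_mul, mul_inv_cancel, map_one, Module.End.one_apply]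
    have e : Φ a = (Fintype.card D : k)⁻¹ • ∑ d : D, h1Op L r X R hR d (q1 (σ (Φ (ν d⁻¹ a)))) := by
      have hσ' : ∀ y, q1 (σ y) = y := LinearMap.congr_fun hσ
      rw [Finset.sum_congr rfl fun d _ => (congrArg _ (hσ' _)).trans (hΦ' d),
        Finset.sum_const, Finset.card_univ, ← Nat.cast_smul_eq_nsmul k, smul_smul,
        inv_mul_cancel₀ hD, one_smul]
    rw [e]
    refine Subtype.ext ?_
    rw [Submodule.coe_smul, Submodule.coe_sum]
    change Sha.pushH1 _ _ ((H1π _).hom ⟨z, hz⟩) = (Fintype.card D : k)⁻¹ •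
      ∑ d : D, Sha.pushH1 (R d) (hR d) ((H1π X).hom (σ (Φ (ν d⁻¹ a))).1)
    refine (Sha.pushH1_π _ _ _).trans (Eq.trans ?_ (congrArg ((Fintype.card D : k)⁻¹ • ·)
      (Finset.sum_congr rfl fun d _ => (Sha.pushH1_π (R d) (hR d) _).symm)))
    rw [← map_sum, ← map_smul]
    refine congrArg (H1π X).hom (Subtype.ext (funext fun g => ?_))
    change homAvg ν R (w g) a = _
    rw [homAvg_apply]
    simp only [Submodule.coe_smul, Submodule.coe_sum, Pi.smul_apply, Finset.sum_apply]
    rfl
  haveI : FiniteDimensional k (A →ₗ[k] H1c L r X) := inferInstance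
  have h : eqHom ν (h1Op L r X R hR) ≤ LinearMap.range Ψ := fun Φ hΦ => key Φ hΦ
  exact (Submodule.finrank_mono h).trans (LinearMap.finrank_range_le Ψ)

include hD in
/-- `dim H²(Hom_D(A, X)) ≤ dim Hom_D(A, H² X)`. -/
theorem finrank_H2c_eqRep_le [FiniteDimensional k (H2c L r X)] :
    finrank k (H2c L r (eqRep ν X R hR)) ≤ eDim ν (h2Op L r X R hR) := by
  classical
  let b := Module.finBasis k A
  let ev : A → (H2c L r (eqRep ν X R hR) →ₗ[k] H2c L r X) := fun a =>
    pushH2 (evalAt ν X R hR a) (evalAt_equivariant ν X R hR a)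
  let Ψ : H2c L r (eqRep ν X R hR) →ₗ[k] (A →ₗ[k] H2c L r X) :=
    LinearMap.mk₂ k (fun x a => ev a x) (fun x y a => map_add _ x y)
      (fun c x a => map_smul _ c x)
      (fun x a a' => by
        obtain ⟨c, rfl⟩ := Submodule.mkQ_surjective _ x
        refine (congrArg (H2cπ L r X) (Subtype.ext (funext fun g => ?_))).trans (map_add _ _ _)
        exact map_add (c.1 g : eqHom ν R).1 a a')
      (fun s x a => by
        obtain ⟨c, rfl⟩ := Submodule.mkQ_surjective _ x
        refine (congrArg (H2cπ L r X) (Subtype.ext (funext fun g => ?_))).trans (map_smul _ _ _)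
        exact map_smul (c.1 g : eqHom ν R).1 s a)
  let Ψ' : H2c L r (eqRep ν X R hR) →ₗ[k] eqHom ν (h2Op L r X R hR) :=
    LinearMap.codRestrict _ Ψ fun x d a => by
      obtain ⟨c, rfl⟩ := Submodule.mkQ_surjective _ x
      exact congrArg (H2cπ L r X) (Subtype.ext (funext fun g => (c.1 g : eqHom ν R).2 d a))
  refine LinearMap.finrank_le_finrank_of_injective (f := Ψ') ((injective_iff_map_eq_zero Ψ').2 ?_)
  intro x hx
  obtain ⟨c, rfl⟩ := Submodule.mkQ_surjective _ x
  have h0 : ∀ a, ∃ y : G → X, IsConst₁ L r y ∧ ∀ g : G × G,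
      X.ρ g.1 (y g.2) - y (g.1 * g.2) + y g.1 = (c.1 g : eqHom ν R).1 a := fun a => by
    have hev : Ψ (H2cπ L r _ c) a = 0 := by
      rw [show Ψ (H2cπ L r _ c) = 0 from congrArg Subtype.val hx, LinearMap.zero_apply]
    have h : H2cπ L r X (mapZ2 (MonoidHom.id G) (isLevelHom_of_eq _ fun _ => rfl)
        (evalAt ν X R hR a) (evalAt_equivariant ν X R hR a) c) = 0 := hev
    obtain ⟨y, hy, e⟩ := (H2cπ_eq_zero_iff _).1 h
    refine ⟨y, hy, fun g => ?_⟩
    rw [← d₁₂_hom_apply]
    exact congrFun e g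
  choose y hy hye using h0
  let w : G → (A →ₗ[k] X) := ∑ i, fun g => (b.coord i).smulRight (y (b i) g)
  have hwb : ∀ g j, w g (b j) = y (b j) g := fun g j => by
    simp [w, Finset.sum_apply, LinearMap.sum_apply, Finsupp.single_apply]
  have hwc : IsConst₁ L r w :=
    isConst₁_finset_sum _ _ fun i _ => (hy (b i)).comp fun x => (b.coord i).smulRight x
  let Y : G → eqRep ν X R hR := fun g => avgRep ν X R hR (w g)
  refine (Submodule.Quotient.mk_eq_zero _).2 ⟨Y, hwc.comp _, funext fun g => ?_⟩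
  have e : X.ρ g.1 ∘ₗ w g.2 - w (g.1 * g.2) + w g.1 = (c.1 g : eqHom ν R).1 := b.ext fun j => by
    rw [LinearMap.add_apply, LinearMap.sub_apply, LinearMap.comp_apply, hwb, hwb, hwb]
    exact hye (b j) g
  rw [d₁₂_hom_apply]
  change (eqRep ν X R hR).ρ g.1 (avgRep ν X R hR (w g.2)) - avgRep ν X R hR (w (g.1 * g.2)) +
    avgRep ν X R hR (w g.1) = c.1 g
  rw [← avgRep_equivariant, ← map_sub, ← map_add, e, avgRep_self ν X R hR hD]

end Fermat.Agent.CFT.EulerChar
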