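import Fermat.Agent.CFT.EulerChar.Additive
import Fermat.Agent.CFT.EulerChar.Equivariant

/-!
# Vanishing of the defect on modules induced from subgroups prime to `p` modulo `W`
-/

set_option autoImplicit false
set_option linter.style.haveILetI false

open CategoryTheory groupCohomology ExtCitation Module

noncomputable section

namespace Fermat.Agent.CFT.Euler

open Fermat.Agent.CFT.Sha

variable {p : ℕ} [Fact p.Prime] {S : Finset Nat.Primes}

theorem finrank_funRep (M : Rep.{0} (ZMod p) GQ) [FiniteDimensional (ZMod p) M] (U : Subgroup GQ)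
    [Finite (GQ ⧸ U)] : finrank (ZMod p) (funRep M U) = U.index * finrank (ZMod p) M := by
  letI := Fintype.ofFinite (GQ ⧸ U)
  rw [show finrank (ZMod p) (funRep M U) = finrank (ZMod p) (GQ ⧸ U → M) from rfl,
    Module.finrank_pi_fintype, Finset.sum_const, Finset.card_univ, smul_eq_mul,
    ← Nat.card_eq_fintype_card]
  rfl

variable (hp2 : p ≠ 2) (hpS : pPrime p ∈ S) {W : Subgroup GQ} [W.Normal]
  (hW : IsLevelSubgroup (Levels.unr S) (MonoidHom.id GQ) W)
  (hχW : ∀ g ∈ W, cycloChar p g = 1)

include hp2 hpS hW hχW in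
theorem defect_funRep_nonpos {M : Rep.{0} (ZMod p) GQ} [FiniteDimensional (ZMod p) M]
    (hM : TrivOn W M) {U : Subgroup GQ} (hWU : W ≤ U) (hidx : ¬ p ∣ W.relIndex U) :
    defect S (funRep M U) ≤ 0 := by
  haveI : Finite (GQ ⧸ U) := (le_levelSubgroup hWU hW).finite_quotient
  have h := equivariant_euler_le hp2 S hpS hWU hW hidx hχW M hM
  have hc : finrank (ZMod p) (Rep.res archimedeanLoc (funRep M U)).ρ.invariants =
      finrank (ZMod p) (conjFixed (funRep M U)) :=
    (LinearEquiv.ofEq _ _ (invariants_archimedean (funRep M U))).finrank_eq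
  rw [hc] at h
  have hd := finrank_funRep M U
  unfold defect
  omega

include hp2 hpS hW hχW in
/-- The inequality is an equality: compare with `funRep M W`, which contains a copy of `M`. -/
theorem defect_funRep_eq_zero_of_prime_index {M : Rep.{0} (ZMod p) GQ}
    [FiniteDimensional (ZMod p) M]
    (hM : TrivOn W M) {U : Subgroup GQ} (hWU : W ≤ U) (hidx : ¬ p ∣ W.relIndex U) :
    defect S (funRep M U) = 0 := by
  classical
  haveI : Finite (GQ ⧸ W) := hW.finite_quotient
  letI := Fintype.ofFinite (GQ ⧸ W)
  haveI : Finite (GQ ⧸ U) := (le_levelSubgroup hWU hW).finite_quotient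
  haveI := Sha.finiteDimensional_funRep M U
  haveI := Sha.finiteDimensional_funRep M W
  haveI : FiniteDimensional (ZMod p) (funRep (funRep M W) U) := Sha.finiteDimensional_funRep _ U
  -- the sum map and its kernel
  let sm : funRep M W →ₗ[ZMod p] M :=
    { toFun := fun f => ∑ x, f x
      map_add' := fun f f' => Finset.sum_add_distrib
      map_smul' := fun a f => show ∑ x, a • (f x : M) = a • ∑ x, (f x : M) from Finset.smul_sum.symm }
  have hsm : ∀ g f, sm ((funRep M W).ρ g f) = M.ρ g (sm f) := fun g f => by
    change ∑ x, M.ρ g (f (g⁻¹ • x)) = M.ρ g (∑ x, f x)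
    rw [map_sum]
    exact Fintype.sum_equiv (MulAction.toPerm (g⁻¹ : GQ)) _ _ fun x => rfl
  let Z : Rep.{0} (ZMod p) GQ :=
    Rep.of (Subrepresentation.toRepresentation (ρ := (funRep M W).ρ)
      ⟨LinearMap.ker sm, fun g f hf => by
        rw [LinearMap.mem_ker, hsm, LinearMap.mem_ker.1 hf, map_zero]⟩)
  haveI : FiniteDimensional (ZMod p) Z :=
    inferInstanceAs (FiniteDimensional (ZMod p) (LinearMap.ker sm))
  have hMW : TrivOn W (funRep M W) := hM.funRep le_rfl
  have hZ : TrivOn W Z := fun g hg => LinearMap.ext fun f => Subtype.ext (by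
    change (funRep M W).ρ g f.1 = f.1
    rw [hMW g hg]
    rfl)
  have hsms : Function.Surjective sm := fun m =>
    ⟨Pi.single (QuotientGroup.mk (1 : GQ)) m, Fintype.sum_pi_single' _ _⟩
  -- induce the sequence to `U`
  let φ : funRep Z U →ₗ[ZMod p] funRep (funRep M W) U :=
    { toFun := fun f x => (f x).1
      map_add' := fun _ _ => rfl
      map_smul' := fun _ _ => rfl }
  let ψ : funRep (funRep M W) U →ₗ[ZMod p] funRep M U :=
    { toFun := fun f x => sm (f x)
      map_add' := fun f f' => funext fun x => map_add sm (f x) (f' x)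
      map_smul' := fun a f => funext fun x => map_smul sm a (f x) }
  have hadd := defect_additive hp2 hpS hW hχW (hMW.funRep hWU) φ (fun g f => rfl) ψ
    (fun g f => funext fun x => hsm g _)
    (fun f f' h => funext fun x => Subtype.ext (congrFun h x))
    (fun f => ⟨fun x => (hsms (f x)).choose, funext fun x => (hsms (f x)).choose_spec⟩)
    (fun f => ⟨fun h => ⟨fun x => ⟨f x, congrFun h x⟩, rfl⟩,
      fun h => funext fun x => (congrArg sm (congrFun h.choose_spec x)).symm.trans (h.choose x).2⟩)
  -- swap the two inductions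
  let e : funRep (funRep M W) U ≃ₗ[ZMod p] funRep (funRep M U) W :=
    { toFun := fun F y x => F x y
      invFun := fun F x y => F y x
      left_inv := fun _ => rfl
      right_inv := fun _ => rfl
      map_add' := fun _ _ => rfl
      map_smul' := fun _ _ => rfl }
  have he : defect S (funRep (funRep M W) U) = defect S (funRep (funRep M U) W) :=
    defect_congr e fun g F => rfl
  have h0 := defect_funRep_of_trivOn hp2 hpS hW hχW (hM.funRep hWU) le_rfl hχW
    (fun g hg => ⟨0, by rwa [pow_zero, pow_one]⟩)
  have h1 := defect_funRep_nonpos hp2 hpS hW hχW hZ hWU hidx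
  have h2 := defect_funRep_nonpos hp2 hpS hW hχW hM hWU hidx
  omega

end Fermat.Agent.CFT.Euler
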