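import Fermat.Agent.CFT.EulerChar.Defs
import Fermat.Agent.CFT.Sha.Descent

/-!
# Coinduced modules with `p`-group image have defect zero
-/

set_option autoImplicit false
set_option linter.style.haveILetI false

open CategoryTheory groupCohomology ExtCitation Module

noncomputable section

namespace Fermat.Agent.CFT.Euler

open Fermat.Agent.CFT.Sha

variable {p : ℕ} [Fact p.Prime] {S : Finset Nat.Primes}

/-- The image of `U` in `GL(M)` consists of elements of `p`-power order. -/
def PImage (U : Subgroup GQ) (M : Rep.{0} (ZMod p) GQ) : Prop :=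
  ∀ g ∈ U, ∃ k : ℕ, M.ρ (g ^ p ^ k) = 1

theorem PImage.filt {U : Subgroup GQ} {V : Rep.{0} (ZMod p) GQ} [FiniteDimensional (ZMod p) V]
    (h : PImage U V) (W : Submodule (ZMod p) V) (hW : ∀ g ∈ U, ∀ w ∈ W, V.ρ g w ∈ W) (hne : W ≠ ⊤) :
    ∃ m ∉ W, ∀ g ∈ U, V.ρ g m - m ∈ W := by
  classical
  let act : U →* Module.End (ZMod p) (V ⧸ W) :=
    { toFun := fun g => W.mapQ W (V.ρ g) fun w hw => hW g g.2 w hw
      map_one' := Submodule.linearMap_qext _ (LinearMap.ext fun v => by simp)
      map_mul' := fun g h => Submodule.linearMap_qext _ (LinearMap.ext fun v => by simp) }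
  let H : Subgroup (Module.End (ZMod p) (V ⧸ W))ˣ := act.toHomUnits.range
  have hH : IsPGroup p H := by
    rintro ⟨_, g, rfl⟩
    obtain ⟨k, hk⟩ := h g g.2
    refine ⟨k, Subtype.ext (Units.ext ?_)⟩
    have : act (g ^ p ^ k) = 1 :=
      Submodule.linearMap_qext _ (LinearMap.ext fun v => by
        show Submodule.Quotient.mk (V.ρ ((g ^ p ^ k : U) : GQ) v) = Submodule.Quotient.mk v
        rw [Subgroup.coe_pow, hk]
        rfl)
    simpa [map_pow] using this
  letI : MulAction H (V ⧸ W) :=
    { smul := fun h x => (h.1 : Module.End (ZMod p) (V ⧸ W)) x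
      one_smul := fun x => rfl
      mul_smul := fun h h' x => rfl }
  haveI : Finite (V ⧸ W) := Module.finite_of_finite (ZMod p)
  haveI : Nontrivial (V ⧸ W) := Submodule.Quotient.nontrivial_iff.2 hne
  have hdvd : p ∣ Nat.card (V ⧸ W) := by
    rw [Module.natCard_eq_pow_finrank (K := ZMod p), Nat.card_zmod]
    exact dvd_pow_self p (Module.finrank_pos).ne'
  obtain ⟨x, hx, hx0⟩ := hH.exists_fixed_point_of_prime_dvd_card_of_fixed_point (V ⧸ W) hdvd
    (a := 0) (fun h => map_zero (h.1 : Module.End (ZMod p) (V ⧸ W)))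
  obtain ⟨m, rfl⟩ := Submodule.Quotient.mk_surjective W x
  refine ⟨m, fun hm => hx0 ((Submodule.Quotient.mk_eq_zero W).2 hm).symm, fun g hg => ?_⟩
  exact (Submodule.Quotient.eq W).1 (hx ⟨_, ⟨g, hg⟩, rfl⟩)

theorem PImage.dual {U : Subgroup GQ} {A M : Rep.{0} (ZMod p) GQ} (h : PImage U M)
    (P : DualPair p (cycloChar p) A M) (hχ : ∀ g ∈ U, cycloChar p g = 1) : PImage U A := fun g hg => by
  obtain ⟨k, hk⟩ := h g hg
  exact ⟨k, rho_eq_one_of_pair P hk (hχ _ (pow_mem hg _))⟩

/-- Complex conjugation fixes no coset of `U`, so it fixes half of `funRep M U`. -/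
theorem conjFixed_funRep_ge (hp2 : p ≠ 2) (M : Rep.{0} (ZMod p) GQ) [FiniteDimensional (ZMod p) M]
    (U : Subgroup GQ) [Finite (GQ ⧸ U)] (hχ : ∀ g ∈ U, cycloChar p g = 1) :
    U.index * finrank (ZMod p) M ≤ 2 * finrank (ZMod p) (conjFixed (funRep M U)) := by
  classical
  haveI := Sha.finiteDimensional_funRep M U
  letI := Fintype.ofFinite (GQ ⧸ U)
  set c := complexConjugation with hc
  have hfree : ∀ x : GQ ⧸ U, c • x ≠ x := by
    intro x
    obtain ⟨g, rfl⟩ := QuotientGroup.mk_surjective x
    intro h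
    rw [MulAction.Quotient.smul_mk, QuotientGroup.eq] at h
    have h1 := hχ _ h
    rw [smul_eq_mul, map_mul, map_inv, map_mul, mul_inv_rev, mul_comm, ← mul_assoc,
      mul_inv_cancel, one_mul, inv_eq_one] at h1
    have h2 := cycloChar_complexConjugation (p := p)
    rw [← hc, h1, Units.val_one] at h2
    exact two_ne_zero_of_odd (p := p) hp2 (by linear_combination h2)
  have hinv : ∀ x : GQ ⧸ U, c⁻¹ • x = c • x := fun x => by rw [hc, complexConjugation_inv]
  have hcc : ∀ x : GQ ⧸ U, c • c • x = x := fun x => by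
    rw [← mul_smul, hc, complexConjugation_mul_self, one_smul]
  let e := Fintype.equivFin (GQ ⧸ U)
  let s : GQ ⧸ U → ZMod p := fun x => if e x < e (c • x) then 1 else -1
  have hs : ∀ x, s (c • x) = -s x := fun x => by
    simp only [s, hcc]
    rcases lt_trichotomy (e x) (e (c • x)) with h | h | h
    · rw [if_pos h, if_neg (asymm h)]
    · exact absurd (e.injective h).symm (hfree x)
    · rw [if_pos h, if_neg (asymm h), neg_neg]
  have hs2 : ∀ x, s x * s x = 1 := fun x => by
    simp only [s]; split_ifs <;> ring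
  let R := (funRep M U).ρ c
  have hR : ∀ (f : funRep M U) x, R f x = M.ρ c (f (c • x)) := fun f x => by
    rw [funRep_ρ_apply, hinv]
  let T : funRep M U →ₗ[ZMod p] funRep M U :=
    { toFun := fun f x => s x • f x
      map_add' := fun f f' => funext fun x => smul_add (s x) (f x) (f' x)
      map_smul' := fun a f => funext fun x => smul_comm (s x) a (f x) }
  have hTR : ∀ f, R (T f) = -T (R f) := fun f => funext fun x => by
    change R (T f) x = -(s x • R f x)
    rw [hR, hR]
    change M.ρ c (s (c • x) • f (c • x)) = _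
    rw [map_smul, hs, neg_smul]
  have hTT : ∀ f, T (T f) = f := fun f => funext fun x => by
    change s x • s x • f x = f x
    rw [smul_smul, hs2, one_smul]
  let pr : funRep M U →ₗ[ZMod p] conjFixed (funRep M U) :=
    LinearMap.codRestrict _ (1 + R) fun f => mem_conjFixed.2 (by
      change R (f + R f) = f + R f
      rw [map_add, ← Module.End.mul_apply R R, show R * R = 1 by
        rw [← map_mul, hc, complexConjugation_mul_self, map_one], Module.End.one_apply, add_comm])
  have hk : ∀ f, f ∈ LinearMap.ker pr ↔ f + R f = 0 := fun f => by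
    rw [LinearMap.mem_ker]
    exact ⟨fun h => congrArg Subtype.val h, fun h => Subtype.ext h⟩
  let T' : LinearMap.ker pr →ₗ[ZMod p] conjFixed (funRep M U) :=
    T.restrict fun f hf => mem_conjFixed.2 (by
      change R (T f) = T f
      rw [hTR, eq_neg_of_add_eq_zero_right ((hk f).1 hf), map_neg, neg_neg])
  have h1 := LinearMap.finrank_le_finrank_of_injective (f := T') fun a b h =>
    Subtype.ext (by rw [← hTT a.1, ← hTT b.1]; exact congrArg T (congrArg Subtype.val h))
  have h2 := LinearMap.finrank_range_add_finrank_ker pr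
  have h3 := Submodule.finrank_le (LinearMap.range pr)
  have h4 : finrank (ZMod p) (funRep M U) = U.index * finrank (ZMod p) M := by
    rw [show finrank (ZMod p) (funRep M U) = finrank (ZMod p) (GQ ⧸ U → M) from rfl,
      Module.finrank_pi_fintype, Finset.sum_const, Finset.card_univ, smul_eq_mul,
      ← Nat.card_eq_fintype_card]
    rfl
  omega

variable (hp2 : p ≠ 2) (hpS : pPrime p ∈ S)

include hp2 hpS in
/-- The defect of a coinduced module with `p`-group image vanishes. -/
theorem defect_funRep_eq_zero {A M : Rep.{0} (ZMod p) GQ} [FiniteDimensional (ZMod p) A]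
    [FiniteDimensional (ZMod p) M]
    (hA : IsSmoothRep (Levels.unr S) (MonoidHom.id GQ) A)
    (hM : IsSmoothRep (Levels.unr S) (MonoidHom.id GQ) M)
    (P : DualPair p (cycloChar p) A M) {U : Subgroup GQ}
    (hU : IsLevelSubgroup (Levels.unr S) (MonoidHom.id GQ) U)
    (hχ : ∀ g ∈ U, cycloChar p g = 1) (hPM : PImage U M) :
    defect S (funRep M U) = 0 := by
  haveI : Finite (GQ ⧸ U) := hU.finite_quotient
  haveI := Sha.finiteDimensional_funRep M U
  haveI := Sha.finiteDimensional_funRep A U
  have hL := Levels.hasNormal_unr S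
  have hNM := isSmoothRep_funRep hL hU hM
  have hNA := isSmoothRep_funRep hL hU hA
  haveI := finite_H1c_unr S hpS _ hNM
  haveI := finite_H1c_unr S hpS _ hNA
  haveI := finite_H2c_unr hp2 S hpS _ hNM
  haveI := finite_H2c_unr hp2 S hpS _ hNA
  have hPA := hPM.dual P hχ
  let Q := funPair P U
  have g1 := finrank_G2_add hp2 hpS hNA hNM Q (exact_H2 hp2 hpS hNA hNM Q)
  have g2 := finrank_G2_add hp2 hpS hNM hNA Q.swap (exact_H2 hp2 hpS hNM hNA Q.swap)
  have i := finrank_images_le hp2 hpS hNA hNM Q
  have e1 := layered_euler_le hp2 hpS hM hU hχ hPM.filt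
  have e2 := layered_euler_le hp2 hpS hA hU hχ hPA.filt
  have c1 := conjFixed_funRep_ge hp2 M U hχ
  have c2 := conjFixed_funRep_ge hp2 A U hχ
  have c3 := finrank_conjFixed_dual hp2 Q
  have l := sum_finrank_Lo1_le hp2 hpS hM hA P hU hχ hPM.filt
  have t1 := layered_sha_eq hp2 hpS hM hA P hU hχ hPM.filt hPA.filt
  have t2 := layered_sha_eq hp2 hpS hA hM P.swap hU hχ hPA.filt hPM.filt
  have s1 := Submodule.finrank_le (Sha1 S (funRep A U))
  have s2 := Submodule.finrank_le (Sha1 S (funRep M U))
  have hd : ∀ V : Rep.{0} (ZMod p) GQ, [FiniteDimensional (ZMod p) V] →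
      finrank (ZMod p) (funRep V U) = U.index * finrank (ZMod p) V := fun V _ => by
    letI := Fintype.ofFinite (GQ ⧸ U)
    rw [show finrank (ZMod p) (funRep V U) = finrank (ZMod p) (GQ ⧸ U → V) from rfl,
      Module.finrank_pi_fintype, Finset.sum_const, Finset.card_univ, smul_eq_mul,
      ← Nat.card_eq_fintype_card]
    rfl
  have d1 := hd M
  have d2 := hd A
  have hdim : finrank (ZMod p) A = finrank (ZMod p) M := by
    have h1 := LinearMap.finrank_le_finrank_of_injective (f := P.β)
      ((injective_iff_map_eq_zero P.β).2 fun a h => P.left a fun m => by rw [h]; rfl)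
    have h2 := LinearMap.finrank_le_finrank_of_injective (f := P.β.flip)
      ((injective_iff_map_eq_zero P.β.flip).2 fun m h => P.right m fun a => by
        rw [← LinearMap.flip_apply P.β, h]; rfl)
    rw [Subspace.dual_finrank_eq] at h1 h2
    exact le_antisymm h1 h2
  rw [hdim] at e2 c2 d2
  unfold defect
  omega

end Fermat.Agent.CFT.Euler
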