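import Fermat.Agent.CFT.EulerChar.HomU
import Fermat.Agent.CFT.Interface.GlobalPerm
import Fermat.Agent.CFT.GlobalPerm.Kummer

/-!
# `funRep M U` as the equivariant maps into `funRep μ_p V`

For a normal level `V ≤ U` acting trivially on `M` and on `μ_p`, right translation makes
`D = U/V` act on `funRep μ_p V`, and `funRep M U = Hom_D(A, funRep μ_p V)` for `A` dual to `M`.
-/

set_option autoImplicit false
set_option linter.style.haveILetI false

open CategoryTheory groupCohomology ExtCitation Module

noncomputable section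

namespace Fermat.Agent.CFT.EulerChar

variable {p : ℕ} [Fact p.Prime] (V U : Subgroup GQ) [V.Normal]

/-- `U/V` inside `Γ/V`. -/
abbrev levelGrp : Subgroup (GQ ⧸ V) := U.map (QuotientGroup.mk' V)

lemma card_levelGrp (hVU : V ≤ U) [Finite (GQ ⧸ V)] :
    Nat.card (levelGrp V U) = V.relIndex U := by
  have h1 := Subgroup.card_mul_index (levelGrp V U)
  have h2 : (levelGrp V U).index = U.index := by
    rw [← Subgroup.index_comap_of_surjective (levelGrp V U) (QuotientGroup.mk'_surjective V)]
    congr 1
    rw [Subgroup.comap_map_eq, QuotientGroup.ker_mk', sup_eq_left.2 hVU]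
  have h3 := Subgroup.relIndex_mul_index hVU
  have h4 : V.index = Nat.card (GQ ⧸ V) := rfl
  rw [h2, ← h4, ← h3] at h1
  refine Nat.eq_of_mul_eq_mul_right ?_ h1
  rw [← h2]
  exact Nat.pos_of_ne_zero Subgroup.index_ne_zero_of_finite

lemma smul_eq_mk_mul (g : GQ) (x : GQ ⧸ V) : g • x = (g : GQ ⧸ V) * x := by
  induction x using QuotientGroup.induction_on with
  | _ t => rfl

/-- Right translation on `funRep μ_p V`. -/
def rightOp : Representation (ZMod p) (levelGrp V U) (funRep (muRep p) V) where
  toFun d :=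
    { toFun := fun f x => f (x * d.1)
      map_add' := fun _ _ => rfl
      map_smul' := fun _ _ => rfl }
  map_one' := LinearMap.ext fun f => funext fun x => congrArg f (mul_one x)
  map_mul' d e := LinearMap.ext fun f => funext fun x => congrArg f (mul_assoc x d.1 e.1).symm

lemma rightOp_apply (d : levelGrp V U) (f : funRep (muRep p) V) (x : GQ ⧸ V) :
    rightOp V U d f x = f (x * d.1) := rfl

lemma rightOp_comm (d : levelGrp V U) (g : GQ) (f : funRep (muRep p) V) :
    rightOp V U d ((funRep (muRep p) V).ρ g f) = (funRep (muRep p) V).ρ g (rightOp V U d f) :=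
  funext fun x => by
    rw [rightOp_apply, funRep_ρ_apply, funRep_ρ_apply, rightOp_apply, smul_eq_mk_mul,
      smul_eq_mk_mul, mul_assoc]

variable {V U} {A M : Rep.{0} (ZMod p) GQ}

/-- The action of `Γ/V` on a module on which `V` is trivial. -/
def quotOp (hA : ∀ g ∈ V, A.ρ g = 1) : Representation (ZMod p) (GQ ⧸ V) A :=
  QuotientGroup.lift V A.ρ fun g hg => MonoidHom.mem_ker.2 (hA g hg)

lemma quotOp_mk (hA : ∀ g ∈ V, A.ρ g = 1) (g : GQ) : quotOp hA (g : GQ ⧸ V) = A.ρ g := rfl

/-- The action of `U/V` on `A`. -/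
def levelOp (U : Subgroup GQ) (hA : ∀ g ∈ V, A.ρ g = 1) :
    Representation (ZMod p) (levelGrp V U) A :=
  (quotOp hA).comp (levelGrp V U).subtype

variable (hVU : V ≤ U) (hA : ∀ g ∈ V, A.ρ g = 1) (P : DualPair p (cycloChar p) A M)

omit [V.Normal] in
/-- The projection `Γ/V → Γ/U`. -/
def cosetProj : GQ ⧸ V → GQ ⧸ U := Subgroup.quotientMapOfLE hVU

lemma cosetProj_mul (x : GQ ⧸ V) (d : levelGrp V U) :
    cosetProj hVU (x * d.1) = cosetProj hVU x := by
  obtain ⟨_, u, hu, rfl⟩ := d
  induction x using QuotientGroup.induction_on with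
  | _ t =>
    refine QuotientGroup.eq.2 ?_
    change (t * u)⁻¹ * t ∈ U
    rw [mul_inv_rev, inv_mul_cancel_right]
    exact inv_mem hu

lemma cosetProj_smul (g : GQ) (x : GQ ⧸ V) : cosetProj hVU (g • x) = g • cosetProj hVU x := by
  induction x using QuotientGroup.induction_on with
  | _ t => rfl

variable [Fintype (levelGrp V U)]

/-- `h ↦ (a ↦ (x ↦ β(x a, h(x U))))`. -/
def toEq : funRep M U →ₗ[ZMod p]
    eqRep (levelOp U hA) (funRep (muRep p) V) (rightOp V U) (rightOp_comm V U) where
  toFun h := ⟨{ toFun := fun a x => P.β (quotOp hA x a) (h (cosetProj hVU x))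
                map_add' := fun a b => funext fun x => by
                  change P.β (quotOp hA x (a + b)) _ = _ + _
                  rw [map_add, map_add, LinearMap.add_apply]
                map_smul' := fun c a => funext fun x => by
                  change P.β (quotOp hA x (c • a)) _ = c • _
                  rw [map_smul, map_smul, LinearMap.smul_apply] },
    fun d a => funext fun x => by
      change P.β (quotOp hA x (quotOp hA d.1 a)) _ =
        P.β (quotOp hA (x * d.1) a) (h (cosetProj hVU (x * d.1)))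
      rw [cosetProj_mul, map_mul, Module.End.mul_apply]⟩
  map_add' h h' := Subtype.ext (LinearMap.ext fun a => funext fun x => by
    exact map_add (P.β _) _ _)
  map_smul' c h := Subtype.ext (LinearMap.ext fun a => funext fun x => by
    exact map_smul (P.β _) _ _)

lemma toEq_apply (h : funRep M U) (a : A) (x : GQ ⧸ V) :
    ((toEq hVU hA P h : eqHom (levelOp U hA) (rightOp V U)).1 a : GQ ⧸ V → ZMod p) x =
      P.β (quotOp hA x a) (h (cosetProj hVU x)) := rfl

lemma toEq_equivariant (g : GQ) (h : funRep M U) :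
    toEq hVU hA P ((funRep M U).ρ g h) =
      (eqRep (levelOp U hA) (funRep (muRep p) V) (rightOp V U) (rightOp_comm V U)).ρ g
        (toEq hVU hA P h) := by
  refine Subtype.ext (LinearMap.ext fun a => funext fun x => ?_)
  rw [eqRep_apply]
  induction x using QuotientGroup.induction_on with
  | _ t =>
    rw [toEq_apply, funRep_ρ_apply, funRep_ρ_apply, toEq_apply, muRep_apply, cosetProj_smul,
      MulAction.Quotient.smul_mk, smul_eq_mul, quotOp_mk, quotOp_mk,
      show A.ρ t a = A.ρ g (A.ρ (g⁻¹ * t) a) by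
        rw [← Module.End.mul_apply, ← map_mul, mul_inv_cancel_left],
      P.equivariant]

variable [FiniteDimensional (ZMod p) A] [FiniteDimensional (ZMod p) M]

lemma toEq_bijective : Function.Bijective (toEq hVU hA P) := by
  refine ⟨(injective_iff_map_eq_zero _).2 fun h hh => funext fun y => ?_, fun φ => ?_⟩
  · induction y using QuotientGroup.induction_on with
    | _ t =>
      refine P.right _ fun a => ?_
      have e := congrArg (fun f => (f : eqHom (levelOp U hA) (rightOp V U)).1 (A.ρ t⁻¹ a)) hh
      have e' := congrFun (show ((toEq hVU hA P h : eqHom (levelOp U hA) (rightOp V U)).1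
        (A.ρ t⁻¹ a) : GQ ⧸ V → ZMod p) = 0 from e) (t : GQ ⧸ V)
      rw [toEq_apply, quotOp_mk, ← Module.End.mul_apply, ← map_mul, mul_inv_cancel, map_one,
        Module.End.one_apply] at e'
      exact e'
  · have hfl : Function.Surjective P.β.flip := by
      refine (LinearMap.injective_iff_surjective_of_finrank_eq_finrank ?_).1
        ((injective_iff_map_eq_zero _).2 fun m hm => P.right m fun a => LinearMap.congr_fun hm a)
      refine le_antisymm ?_ ?_
      · exact LinearMap.finrank_le_finrank_of_injective (f := P.β.flip)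
          ((injective_iff_map_eq_zero _).2 fun m hm => P.right m fun a => LinearMap.congr_fun hm a)
      · rw [Subspace.dual_finrank_eq]
        exact (LinearMap.finrank_le_finrank_of_injective (f := P.β)
          ((injective_iff_map_eq_zero _).2 fun a ha => P.left a fun m => LinearMap.congr_fun ha m)).trans
          Subspace.dual_finrank_eq.le
    choose m hm using fun y : GQ ⧸ U => hfl
      ((LinearMap.proj (φ := fun _ : GQ ⧸ V => ZMod p) (((Quotient.out y : GQ) : GQ ⧸ V))) ∘ₗ
        (φ : eqHom (levelOp U hA) (rightOp V U)).1 ∘ₗ A.ρ (Quotient.out y : GQ)⁻¹)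
    refine ⟨m, Subtype.ext (LinearMap.ext fun a => funext fun x => ?_)⟩
    rw [toEq_apply]
    induction x using QuotientGroup.induction_on with
    | _ t =>
      change P.β (A.ρ t a) (m (t : GQ ⧸ U)) = _
      obtain ⟨u, hu⟩ := QuotientGroup.mk_out_eq_mul U t
      have hd : ((u.1 : GQ) : GQ ⧸ V) ∈ levelGrp V U := ⟨u.1, u.2, rfl⟩
      have e : P.β (A.ρ t a) (m (t : GQ ⧸ U)) =
          ((φ : eqHom (levelOp U hA) (rightOp V U)).1
            (A.ρ (Quotient.out (t : GQ ⧸ U) : GQ)⁻¹ (A.ρ t a)) : GQ ⧸ V → ZMod p)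
            ((Quotient.out (t : GQ ⧸ U) : GQ) : GQ ⧸ V) :=
        LinearMap.congr_fun (hm (t : GQ ⧸ U)) (A.ρ t a)
      rw [e, hu, mul_inv_rev, map_mul, Module.End.mul_apply, ← Module.End.mul_apply (A.ρ t⁻¹),
        ← map_mul, inv_mul_cancel, map_one, Module.End.one_apply]
      have e2 := congrFun ((φ : eqHom (levelOp U hA) (rightOp V U)).2 ⟨_, hd⟩
        (A.ρ u.1⁻¹ a)) (t : GQ ⧸ V)
      rw [rightOp_apply] at e2
      rw [QuotientGroup.mk_mul, ← e2]
      change ((φ : eqHom (levelOp U hA) (rightOp V U)).1 (A.ρ u.1 (A.ρ u.1⁻¹ a)) :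
        GQ ⧸ V → ZMod p) _ = _
      rw [← Module.End.mul_apply, ← map_mul, mul_inv_cancel, map_one, Module.End.one_apply]

/-- `funRep M U = Hom_D(A, funRep μ_p V)`. -/
def toEqEquiv : funRep M U ≃ₗ[ZMod p]
    eqRep (levelOp U hA) (funRep (muRep p) V) (rightOp V U) (rightOp_comm V U) :=
  LinearEquiv.ofBijective _ (toEq_bijective hVU hA P)

include hVU hA P in
/-- The Euler characteristic of `funRep M U` from the counts on `funRep μ_p V`. -/
theorem euler_reduction (hp2 : p ≠ 2) (S : Finset Nat.Primes) (hpS : pPrime p ∈ S)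
    (hV : IsLevelSubgroup (Levels.unr S) (MonoidHom.id GQ) V)
    (hidx : ¬ p ∣ V.relIndex U) (hMV : ∀ g ∈ V, M.ρ g = 1)
    (h : eDim (levelOp U hA) (invOp (funRep (muRep p) V) (rightOp V U) (rightOp_comm V U)) +
        eDim (levelOp U hA)
          (h2Op (Levels.unr S) (MonoidHom.id GQ) (funRep (muRep p) V) (rightOp V U)
            (rightOp_comm V U)) +
        eDim (levelOp U hA) (rightOp V U) ≤
      eDim (levelOp U hA)
          (h1Op (Levels.unr S) (MonoidHom.id GQ) (funRep (muRep p) V) (rightOp V U)
            (rightOp_comm V U)) +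
        eDim (levelOp U hA)
          (invOp (Rep.res archimedeanLoc (funRep (muRep p) V)) (rightOp V U)
            (fun d g f => rightOp_comm V U d (archimedeanLoc g) f))) :
    finrank (ZMod p) (funRep M U).ρ.invariants + finrank (ZMod p) (Sha.G2 S (funRep M U)) +
        U.index * finrank (ZMod p) M ≤
      finrank (ZMod p) (Sha.G1 S (funRep M U)) +
        finrank (ZMod p) (Rep.res archimedeanLoc (funRep M U)).ρ.invariants := by
  have hU : IsLevelSubgroup (Levels.unr S) (MonoidHom.id GQ) U := by
    obtain ⟨F, hF, hle⟩ := hV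
    exact ⟨F, hF, fun s hs => hVU (hle s hs)⟩
  have hL := Levels.hasNormal_unr S
  haveI : Finite (GQ ⧸ V) := hV.finite_quotient
  haveI : Finite (GQ ⧸ U) := hU.finite_quotient
  haveI : Fintype (GQ ⧸ U) := Fintype.ofFinite _
  have hD : (Fintype.card (levelGrp V U) : ZMod p) ≠ 0 := by
    rw [← Nat.card_eq_fintype_card, card_levelGrp V U hVU]
    exact fun h0 => hidx ((CharP.cast_eq_zero_iff (ZMod p) p _).1 h0)
  have hM : IsSmoothRep (Levels.unr S) (MonoidHom.id GQ) M := fun m => by
    obtain ⟨F, hF, hle⟩ := hV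
    exact ⟨F, hF, fun s hs => LinearMap.congr_fun (hMV s (hle s hs)) m⟩
  have hsX := isSmoothRep_funRep hL hV (isSmoothRep_muRep_of_unr (p := p) hpS)
  have hsN := isSmoothRep_funRep hL hU hM
  haveI := finiteDimensional_funRep (p := p) hV.to_all
  haveI := Sha.finiteDimensional_funRep M U
  haveI := finite_H1c_unr S hpS _ hsX
  haveI := finite_H2c_unr hp2 S hpS _ hsX
  let E := toEqEquiv hVU hA P
  have hE := toEq_equivariant hVU hA P
  haveI : FiniteDimensional (ZMod p) (H1c (Levels.unr S) (MonoidHom.id GQ)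
      (eqRep (levelOp U hA) (funRep (muRep p) V) (rightOp V U) (rightOp_comm V U))) := by
    refine finite_H1c_unr S hpS _ fun φ => ?_
    obtain ⟨h₀, rfl⟩ := E.surjective φ
    obtain ⟨F, hF, hfix⟩ := hsN h₀
    exact ⟨F, hF, fun s hs => (hE s h₀).symm.trans (congrArg E (hfix s hs))⟩
  have e0 : finrank (ZMod p) (funRep M U).ρ.invariants =
      eDim (levelOp U hA) (invOp (funRep (muRep p) V) (rightOp V U) (rightOp_comm V U)) :=
    (Sha.finrank_invariants_congr E hE).trans (finrank_invariants_eqRep _ _ _ _)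
  have einf : finrank (ZMod p) (Rep.res archimedeanLoc (funRep M U)).ρ.invariants =
      eDim (levelOp U hA) (invOp (Rep.res archimedeanLoc (funRep (muRep p) V)) (rightOp V U)
        (fun d g f => rightOp_comm V U d (archimedeanLoc g) f)) :=
    (Sha.finrank_invariants_congr (A := Rep.res archimedeanLoc (funRep M U))
      (B := eqRep (levelOp U hA) (Rep.res archimedeanLoc (funRep (muRep p) V)) (rightOp V U)
        (fun d g f => rightOp_comm V U d (archimedeanLoc g) f))
      E fun g f => hE (archimedeanLoc g) f).trans (finrank_invariants_eqRep _ _ _ _)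
  have e1 : eDim (levelOp U hA)
      (h1Op (Levels.unr S) (MonoidHom.id GQ) (funRep (muRep p) V) (rightOp V U)
        (rightOp_comm V U)) ≤ finrank (ZMod p) (Sha.G1 S (funRep M U)) :=
    (eDim_h1Op_le (L := Levels.unr S) (r := MonoidHom.id GQ) _ _ _ (rightOp_comm V U) hD).trans
      (Sha.finrank_H1c_congr (L := Levels.unr S) (r := MonoidHom.id GQ) E hE).ge
  have e2 : finrank (ZMod p) (Sha.G2 S (funRep M U)) ≤ eDim (levelOp U hA)
      (h2Op (Levels.unr S) (MonoidHom.id GQ) (funRep (muRep p) V) (rightOp V U)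
        (rightOp_comm V U)) :=
    (Sha.finrank_H2c_congr (L := Levels.unr S) (r := MonoidHom.id GQ) E hE).le.trans
      (finrank_H2c_eqRep_le (L := Levels.unr S) (r := MonoidHom.id GQ) _ _ _ (rightOp_comm V U) hD)
  have ed : U.index * finrank (ZMod p) M = eDim (levelOp U hA) (rightOp V U) := by
    have h1 : finrank (ZMod p) (funRep M U) = U.index * finrank (ZMod p) M := by
      change finrank (ZMod p) (GQ ⧸ U → M) = _
      rw [Module.finrank_pi_fintype, Finset.sum_const, Finset.card_univ, smul_eq_mul,
        ← Nat.card_eq_fintype_card]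
      rfl
    exact h1.symm.trans E.finrank_eq
  omega

end Fermat.Agent.CFT.EulerChar
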