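import Fermat.Agent.CFT.EulerChar.GalAction
import Fermat.Agent.CFT.GlobalPerm.H90
import Fermat.Agent.CFT.Sha.Functorial

/-!
# The equivariant Kummer map on elements with `S`-divisor divisible by `p`
-/

set_option autoImplicit false
set_option linter.style.haveILetI false

open CategoryTheory groupCohomology ExtCitation Module NumberField IsDedekindDomain

noncomputable section

namespace Fermat.Agent.CFT.EulerChar

open EquivariantCount

variable {p : ℕ} [Fact p.Prime] {S : Finset Nat.Primes} {V U : Subgroup GQ}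

theorem kummerFun_mul_roots {α β : (AlgebraicClosure ℚ)ˣ} {u : GQ}
    (hα : u ((α : AlgebraicClosure ℚ) ^ p) = (α : AlgebraicClosure ℚ) ^ p)
    (hβ : u ((β : AlgebraicClosure ℚ) ^ p) = (β : AlgebraicClosure ℚ) ^ p) :
    (kummerFun (α * β) u : ZMod p) = kummerFun α u + kummerFun β u := by
  apply muInc_injective
  apply Units.ext
  apply mul_right_cancel₀ (α * β).ne_zero
  rw [muInc_kummerFun (by rw [Units.val_mul, mul_pow, map_mul, hα, hβ]), muInc_add, Units.val_mul,
    Units.val_mul, mul_mul_mul_comm, muInc_kummerFun hα, muInc_kummerFun hβ, map_mul]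

theorem kummerFun_eq_of_pow_eq {α β : (AlgebraicClosure ℚ)ˣ} {u : GQ} (hu : cycloChar p u = 1)
    (h : (α : AlgebraicClosure ℚ) ^ p = (β : AlgebraicClosure ℚ) ^ p)
    (hα : u ((α : AlgebraicClosure ℚ) ^ p) = (α : AlgebraicClosure ℚ) ^ p) :
    (kummerFun α u : ZMod p) = kummerFun β u := by
  obtain ⟨i, hi⟩ := exists_muInc_eq (p := p) (w := α / β) (by
    rw [div_pow, div_eq_one]
    exact Units.ext h)
  rw [eq_div_iff_mul_eq'] at hi
  apply muInc_injective
  apply Units.ext
  apply mul_right_cancel₀ α.ne_zero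
  have hβ : u ((β : AlgebraicClosure ℚ) ^ p) = (β : AlgebraicClosure ℚ) ^ p := h ▸ hα
  rw [muInc_kummerFun hα, ← hi, Units.val_mul, map_mul, gal_muInc_of_eq_one hu,
    ← muInc_kummerFun hβ, mul_left_comm]

variable [V.Normal]

theorem cycloChar_conj (hχ : ∀ g ∈ V, cycloChar p g = 1) (n : GQ) {u : GQ} (hu : u ∈ V) :
    cycloChar p (n⁻¹ * u * n) = 1 :=
  hχ _ (Subgroup.Normal.conj_mem' inferInstance u hu n)

theorem smul_mk_of_mem {u : GQ} (hu : u ∈ V) (x : GQ ⧸ V) : u • x = x := by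
  induction x using QuotientGroup.induction_on with
  | _ t =>
    rw [MulAction.Quotient.smul_mk, QuotientGroup.eq, smul_eq_mul, mul_inv_rev]
    simpa using Subgroup.Normal.conj_mem' (inferInstance : V.Normal) u⁻¹ (inv_mem hu) t

/-- A cocycle of the permutation module at a point `n`, from its value at the trivial coset. -/
theorem cocycle_eval_conj (hχ : ∀ g ∈ V, cycloChar p g = 1)
    (w : cocycles₁ (funRep (muRep p) V)) (n : GQ) {u : GQ} (hu : u ∈ V) :
    w u (n : GQ ⧸ V) = (cycloChar p n : ZMod p) * w (n⁻¹ * u * n) ((1 : GQ) : GQ ⧸ V) := by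
  have h1 := (mem_cocycles₁_iff _).1 w.2 n (n⁻¹ * u * n)
  have h2 := (mem_cocycles₁_iff _).1 w.2 u n
  rw [show n * (n⁻¹ * u * n) = u * n by group] at h1
  have h := congrFun (h1.symm.trans h2) (n : GQ ⧸ V)
  simp only [Pi.add_apply] at h
  rw [funRep_ρ_apply, funRep_ρ_apply, muRep_apply, muRep_apply, hχ u hu, Units.val_one, one_mul,
    smul_mk_of_mem (inv_mem hu), MulAction.Quotient.smul_mk, smul_eq_mul, inv_mul_cancel] at h
  change (cycloChar p n : ZMod p) * w (n⁻¹ * u * n) ((1 : GQ) : GQ ⧸ V) + w n (n : GQ ⧸ V)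
    = w n (n : GQ ⧸ V) + w u (n : GQ ⧸ V) at h
  linear_combination -h

/-- Classes with the same values at the trivial coset are equal. -/
theorem H1π_eq_of_eval_eq (hpS : pPrime p ∈ S)
    (hV : IsLevelSubgroup (Levels.unr S) (MonoidHom.id GQ) V)
    (hχ : ∀ g ∈ V, cycloChar p g = 1) (w w' : cocycles₁ (funRep (muRep p) V))
    (h : ∀ u : V, w u ((1 : GQ) : GQ ⧸ V) = w' u ((1 : GQ) : GQ ⧸ V)) :
    H1π (funRep (muRep p) V) w = H1π (funRep (muRep p) V) w' := by
  refine (H1π_eq_iff _ _).2 ?_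
  obtain ⟨f, hf⟩ := shapiro₁_injective (M := muRep p) (Levels.hasNormal_unr S) hV
    (fun g => (w - w') g)
    ((mem_cocycles₁_iff _).1 (w - w').2) 0 (fun u => by
      change w u ((1 : GQ) : GQ ⧸ V) - w' u ((1 : GQ) : GQ ⧸ V) = _
      rw [h u, sub_self, map_zero, sub_zero])
  exact ⟨f, funext fun g => (hf g).symm⟩

variable (V S p) in
/-- Elements of the field whose divisor away from `S` is divisible by `p`. -/
def pDivGrp [NumberField (lvlFld V)] : AddSubgroup (Additive (lvlFld V)ˣ) :=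
  (pMul p (OffPrimes (placesOver S (lvlFld V)) →₀ ℤ)).comap (divOff (placesOver S (lvlFld V)))

variable [NumberField (lvlFld V)]

/-- The divisor divided by `p`. -/
def divPart (a : pDivGrp p S V) : OffPrimes (placesOver S (lvlFld V)) →₀ ℤ :=
  (mem_pMul.1 (a.2 : divOff _ a.1 ∈ pMul p _)).choose

theorem nsmul_divPart (a : pDivGrp p S V) :
    p • divPart a = divOff (placesOver S (lvlFld V)) a.1 :=
  (mem_pMul.1 (a.2 : divOff _ a.1 ∈ pMul p _)).choose_spec

theorem nsmul_finsupp_cancel {X : Type*} {e e' : X →₀ ℤ} (h : p • e = p • e') : e = e' := by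
  ext v
  have := DFunLike.congr_fun h v
  simpa [(Fact.out : p.Prime).ne_zero] using this

/-- `a ↦ [div a / p]`. -/
def clsPart : pDivGrp p S V →+ SClass (placesOver S (lvlFld V)) :=
  AddMonoidHom.mk' (fun a => QuotientAddGroup.mk (divPart a)) fun a b => by
    rw [← QuotientAddGroup.mk_add]
    congr 1
    apply nsmul_finsupp_cancel (p := p)
    rw [nsmul_divPart, smul_add, nsmul_divPart, nsmul_divPart, AddSubgroup.coe_add, map_add]

theorem fieldOp_mem_pDivGrp (x : GQ ⧸ V) {a : Additive (lvlFld V)ˣ} (ha : a ∈ pDivGrp p S V) :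
    fieldOp V x a ∈ pDivGrp p S V := by
  obtain ⟨e, he⟩ := mem_pMul.1 (ha : divOff _ a ∈ pMul p _)
  exact mem_pMul.2 ⟨divOp V S x e, by rw [← map_nsmul, he, divOff_fieldOp]⟩

variable (V S p) in
/-- The action on `pDivGrp`. -/
def pDivOp : Representation ℤ (GQ ⧸ V) (pDivGrp p S V) :=
  subRep (fieldOp V) (pDivGrp p S V) fun x _ ha => fieldOp_mem_pDivGrp x ha

theorem clsPart_pDivOp (x : GQ ⧸ V) (a : pDivGrp p S V) :
    clsPart (pDivOp p S V x a) = clsOp V S x (clsPart a) := by
  change (QuotientAddGroup.mk (divPart (pDivOp p S V x a)) : SClass _) =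
    (QuotientAddGroup.mk (divOp V S x (divPart a)) : SClass _)
  congr 1
  apply nsmul_finsupp_cancel (p := p)
  rw [nsmul_divPart, ← map_nsmul, nsmul_divPart, ← divOff_fieldOp]
  rfl

theorem exists_clsPart_eq {c : SClass (placesOver S (lvlFld V))} (hc : p • c = 0) :
    ∃ a : pDivGrp p S V, clsPart a = c := by
  obtain ⟨x, hx⟩ := exists_divOff_eq_smul _ hc
  refine ⟨⟨Additive.ofMul x, mem_pMul.2 ⟨c.out, hx.symm⟩⟩, ?_⟩
  conv_rhs => rw [← QuotientAddGroup.out_eq' c]
  change (QuotientAddGroup.mk _ : SClass _) = _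
  congr 1
  apply nsmul_finsupp_cancel (p := p)
  rw [nsmul_divPart, hx]

variable (hpS : pPrime p ∈ S) (hV : IsLevelSubgroup (Levels.unr S) (MonoidHom.id GQ) V)
  (hχ : ∀ g ∈ V, cycloChar p g = 1)

include hpS hV hχ in
theorem exists_kummer_data (a : pDivGrp p S V) :
    ∃ (α : (AlgebraicClosure ℚ)ˣ) (w : cocycles₁ (funRep (muRep p) V)),
      (α : AlgebraicClosure ℚ) ^ p = ((a.1.toMul : lvlFld V) : AlgebraicClosure ℚ) ∧
        IsConst₁ (Levels.unr S) (MonoidHom.id GQ) w ∧
        ∀ u : V, w u (QuotientGroup.mk 1) = kummerFun α u :=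
  exists_kummer_class hpS hV hχ a.1.toMul fun v hv => ⟨divPart a ⟨v, hv⟩, by
    rw [← divOff_apply (placesOver S (lvlFld V)) a.1 ⟨v, hv⟩, ← nsmul_divPart, Finsupp.smul_apply,
      nsmul_eq_mul]⟩

/-- The root chosen for the Kummer class. -/
def kummerRoot (a : pDivGrp p S V) : (AlgebraicClosure ℚ)ˣ :=
  (exists_kummer_data hpS hV hχ a).choose

/-- The cocycle chosen for the Kummer class. -/
def kummerCocycle (a : pDivGrp p S V) : cocycles₁ (funRep (muRep p) V) :=
  (exists_kummer_data hpS hV hχ a).choose_spec.choose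

theorem kummerRoot_pow (a : pDivGrp p S V) :
    (kummerRoot hpS hV hχ a : AlgebraicClosure ℚ) ^ p =
      ((a.1.toMul : lvlFld V) : AlgebraicClosure ℚ) :=
  (exists_kummer_data hpS hV hχ a).choose_spec.choose_spec.1

theorem kummerCocycle_eval (a : pDivGrp p S V) (u : V) :
    kummerCocycle hpS hV hχ a u ((1 : GQ) : GQ ⧸ V) =
      kummerFun (kummerRoot hpS hV hχ a) (u : GQ) :=
  (exists_kummer_data hpS hV hχ a).choose_spec.choose_spec.2.2 u

theorem kummerCocycle_const (a : pDivGrp p S V) :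
    IsConst₁ (Levels.unr S) (MonoidHom.id GQ) (kummerCocycle hpS hV hχ a) :=
  (exists_kummer_data hpS hV hχ a).choose_spec.choose_spec.2.1

theorem kummerRoot_fix (a : pDivGrp p S V) {u : GQ} (hu : u ∈ V) :
    u ((kummerRoot hpS hV hχ a : AlgebraicClosure ℚ) ^ p) =
      (kummerRoot hpS hV hχ a : AlgebraicClosure ℚ) ^ p := by
  rw [kummerRoot_pow]
  exact apply_unitsIncl hu _

/-- The Kummer map. -/
def kummerMap : pDivGrp p S V →+ H1c (Levels.unr S) (MonoidHom.id GQ) (funRep (muRep p) V) :=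
  AddMonoidHom.mk' (fun a => ⟨(H1π _).hom (kummerCocycle hpS hV hχ a),
    ⟨kummerCocycle hpS hV hχ a, kummerCocycle_const hpS hV hχ a, rfl⟩⟩) fun a b => by
    refine Subtype.ext ?_
    change (H1π _).hom _ = (H1π _).hom _ + (H1π _).hom _
    rw [← map_add]
    refine H1π_eq_of_eval_eq hpS hV hχ _ _ fun u => ?_
    change _ = kummerCocycle hpS hV hχ a u ((1 : GQ) : GQ ⧸ V)
      + kummerCocycle hpS hV hχ b u ((1 : GQ) : GQ ⧸ V)
    rw [kummerCocycle_eval, kummerCocycle_eval, kummerCocycle_eval,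
      ← kummerFun_mul_roots (kummerRoot_fix hpS hV hχ a u.2) (kummerRoot_fix hpS hV hχ b u.2)]
    refine kummerFun_eq_of_pow_eq (hχ u u.2) ?_ (kummerRoot_fix hpS hV hχ _ u.2)
    rw [Units.val_mul, mul_pow, kummerRoot_pow, kummerRoot_pow, kummerRoot_pow]
    rfl

theorem kummerMap_val (a : pDivGrp p S V) :
    (kummerMap hpS hV hχ a).1 = (H1π _).hom (kummerCocycle hpS hV hχ a) := rfl

theorem kummerMap_equivariant (d : levelGrp V U) (a : pDivGrp p S V) :
    kummerMap hpS hV hχ (pDivOp p S V d.1 a) =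
      h1Op (Levels.unr S) (MonoidHom.id GQ) (funRep (muRep p) V) (rightOp V U) (rightOp_comm V U) d
        (kummerMap hpS hV hχ a) := by
  refine Subtype.ext ?_
  change _ = Sha.pushH1 (rightOp V U d) (rightOp_comm V U d)
    ((H1π _).hom (kummerCocycle hpS hV hχ a))
  rw [kummerMap_val, Sha.pushH1_π]
  refine H1π_eq_of_eval_eq hpS hV hχ _ _ fun u => ?_
  change _ = kummerCocycle hpS hV hχ a u (((1 : GQ) : GQ ⧸ V) * d.1)
  obtain ⟨n, hn⟩ := QuotientGroup.mk_surjective d.1
  rw [QuotientGroup.mk_one, one_mul, ← hn, cocycle_eval_conj hχ _ n u.2]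
  have hc : n⁻¹ * (u : GQ) * n ∈ V := Subgroup.Normal.conj_mem' inferInstance _ u.2 n
  rw [show kummerCocycle hpS hV hχ a (n⁻¹ * (u : GQ) * n) ((1 : GQ) : GQ ⧸ V) = _ from
    kummerCocycle_eval hpS hV hχ a ⟨_, hc⟩, ← QuotientGroup.mk_one, kummerCocycle_eval]
  set α := kummerRoot hpS hV hχ a
  have hnα : (galUnits n α : AlgebraicClosure ℚ) ^ p =
      (kummerRoot hpS hV hχ (pDivOp p S V (n : GQ ⧸ V) a) : AlgebraicClosure ℚ) ^ p := by
    rw [kummerRoot_pow, coe_galUnits, ← map_pow, kummerRoot_pow]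
    rfl
  have hfix : (u : GQ) ((galUnits n α : AlgebraicClosure ℚ) ^ p) =
      (galUnits n α : AlgebraicClosure ℚ) ^ p := by
    rw [hnα]; exact kummerRoot_fix hpS hV hχ _ u.2
  rw [← kummerFun_eq_of_pow_eq (hχ u u.2) hnα hfix]
  apply muInc_injective
  apply Units.ext
  apply mul_right_cancel₀ (galUnits n α).ne_zero
  rw [muInc_kummerFun hfix, ← gal_muInc, coe_galUnits, ← map_mul,
    muInc_kummerFun (kummerRoot_fix hpS hV hχ a hc), ← AlgEquiv.mul_apply, ← AlgEquiv.mul_apply]
  congr 1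
  group

theorem kummerMap_eq_zero_iff (a : pDivGrp p S V) :
    kummerMap hpS hV hχ a = 0 ↔ a.1 ∈ pMul p (Additive (lvlFld V)ˣ) := by
  constructor
  · intro h
    have h0 : (H1π _).hom (kummerCocycle hpS hV hχ a) =
        (H1π _).hom (kummerCocycle hpS hV hχ 0) := by
      rw [← kummerMap_val, ← kummerMap_val, h, map_zero]
    obtain ⟨t, ht⟩ := eq_mul_pow_of_class_eq hχ (kummerRoot_pow hpS hV hχ a)
      (kummerRoot_pow hpS hV hχ 0) (kummerCocycle_eval hpS hV hχ a)
      (kummerCocycle_eval hpS hV hχ 0) h0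
    refine mem_pMul.2 ⟨Additive.ofMul t, ?_⟩
    change t ^ p = a.1.toMul
    rw [ht]
    exact (one_mul _).symm
  · intro h
    obtain ⟨t, ht⟩ := mem_pMul.1 h
    refine Subtype.ext ((H1π_eq_of_eval_eq hpS hV hχ _ 0 fun u => ?_).trans (map_zero _))
    change kummerCocycle hpS hV hχ a u ((1 : GQ) : GQ ⧸ V) = 0
    rw [kummerCocycle_eval]
    have hpow : (kummerRoot hpS hV hχ a : AlgebraicClosure ℚ) ^ p =
        (unitsIncl _ t.toMul : AlgebraicClosure ℚ) ^ p := by
      rw [kummerRoot_pow, ← ht]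
      rfl
    rw [kummerFun_eq_of_pow_eq (hχ u u.2) hpow (kummerRoot_fix hpS hV hχ a u.2)]
    refine (kummerFun_eq_zero_iff ?_).2 (apply_unitsIncl u.2 _)
    rw [map_pow, apply_unitsIncl u.2]

variable [Fintype (levelGrp V U)] {A : Type} [AddCommGroup A] [Module (ZMod p) A]
  [FiniteDimensional (ZMod p) A] (ν : Representation (ZMod p) (levelGrp V U) A)

include hpS hV hχ in
/-- `S`-units modulo `p` and `p`-torsion `S`-classes inject into `H¹`, equivariantly. -/
theorem kummer_homCard_le_proof (hD : (Fintype.card (levelGrp V U) : ZMod p) ≠ 0) :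
    homCard V ν (modPRep p (sUnitOp V S)) * homCard V ν (clsOp V S) ≤
      p ^ eDim ν (h1Op (Levels.unr S) (MonoidHom.id GQ) (funRep (muRep p) V) (rightOp V U)
        (rightOp_comm V U)) := by
  classical
  haveI := finiteDimensional_funRep (p := p) hV.to_all
  haveI := finite_H1c_unr_proof S (funRep (muRep p) V)
    (isSmoothRep_funRep (Levels.hasNormal_unr S) hV (isSmoothRep_muRep_of_unr hpS))
  haveI : Finite (H1c (Levels.unr S) (MonoidHom.id GQ) (funRep (muRep p) V)) :=
    Module.finite_of_finite (ZMod p)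
  haveI : Finite A := Module.finite_of_finite (ZMod p)
  set ω := h1Op (Levels.unr S) (MonoidHom.id GQ) (funRep (muRep p) V) (rightOp V U)
    (rightOp_comm V U)
  haveI : Finite (eqHom ν ω) := Module.finite_of_finite (ZMod p)
  have hG : ¬ p ∣ Fintype.card (levelGrp V U) := fun h =>
    hD ((CharP.cast_eq_zero_iff (ZMod p) p _).2 h)
  let κ := kummerMap hpS hV hχ
  let N : AddSubgroup (pDivGrp p S V) := (pMul p (Additive (lvlFld V)ˣ)).comap (pDivGrp p S V).subtype
  have hN : ∀ x a, a ∈ N → pDivOp p S V x a ∈ N := fun x a ha => by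
    obtain ⟨t, ht⟩ := mem_pMul.1 (ha : a.1 ∈ pMul p _)
    refine mem_pMul.2 ⟨fieldOp V x t, ?_⟩
    rw [← map_nsmul, ht]
    rfl
  let κ' : pDivGrp p S V ⧸ N →+ H1c (Levels.unr S) (MonoidHom.id GQ) (funRep (muRep p) V) :=
    QuotientAddGroup.lift N κ fun a ha => (kummerMap_eq_zero_iff hpS hV hχ a).2 ha
  have hκ'i : Function.Injective κ' := (injective_iff_map_eq_zero κ').2 fun y hy => by
    induction y using QuotientAddGroup.induction_on with
    | _ a => exact (QuotientAddGroup.eq_zero_iff a).2 ((kummerMap_eq_zero_iff hpS hV hχ a).1 hy)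
  let π : pDivGrp p S V ⧸ N →+ SClass (placesOver S (lvlFld V)) :=
    QuotientAddGroup.lift N clsPart fun a ha => by
      obtain ⟨t, ht⟩ := mem_pMul.1 (ha : a.1 ∈ pMul p _)
      refine (QuotientAddGroup.eq_zero_iff _).2 ⟨t, ?_⟩
      apply nsmul_finsupp_cancel (p := p)
      rw [nsmul_divPart, ← map_nsmul, ht]
      rfl
  let ρW : Representation ℤ (levelGrp V U) (pDivGrp p S V ⧸ N) :=
    (quotRep (pDivOp p S V) N hN).comp (levelGrp V U).subtype
  have hκ'e : ∀ (d : levelGrp V U) w, κ' (ρW d w) = ω d (κ' w) := fun d w => by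
    induction w using QuotientAddGroup.induction_on with
    | _ a => exact kummerMap_equivariant hpS hV hχ d a
  have hπe : ∀ (d : levelGrp V U) w,
      π (ρW d w) = (clsOp V S).comp (levelGrp V U).subtype d (π w) := fun d w => by
    induction w using QuotientAddGroup.induction_on with
    | _ a => exact clsPart_pDivOp d.1 a
  have hWp : ∀ w : pDivGrp p S V ⧸ N, p • w = 0 := fun w => by
    induction w using QuotientAddGroup.induction_on with
    | _ a =>
      rw [← QuotientAddGroup.mk_nsmul, QuotientAddGroup.eq_zero_iff]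
      exact ⟨a.1, rfl⟩
  -- the units
  let inc : sUnitGrp V S →+ pDivGrp p S V :=
    AddMonoidHom.mk' (fun e => ⟨e.1, mem_pMul.2 ⟨0, by
      rw [smul_zero]; exact (e.2 : divOff _ e.1 = 0).symm⟩⟩) fun _ _ => rfl
  let ι : ModP p (sUnitGrp V S) →+ pDivGrp p S V ⧸ N :=
    QuotientAddGroup.map (pMul p _) N inc fun e he => by
      obtain ⟨b, rfl⟩ := mem_pMul.1 he
      exact ⟨b.1, rfl⟩
  have hιi : Function.Injective ι := (injective_iff_map_eq_zero ι).2 fun y hy => by
    induction y using QuotientAddGroup.induction_on with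
    | _ e =>
      obtain ⟨t, ht⟩ := mem_pMul.1 ((QuotientAddGroup.eq_zero_iff (inc e)).1 hy : (inc e).1 ∈ _)
      refine (QuotientAddGroup.eq_zero_iff e).2 (mem_pMul.2 ⟨⟨t, ?_⟩, Subtype.ext ht⟩)
      change divOff _ t = 0
      apply nsmul_finsupp_cancel (p := p)
      rw [← map_nsmul, ht, smul_zero]
      exact e.2
  have hπι : ∀ y, π (ι y) = 0 := fun y => by
    induction y using QuotientAddGroup.induction_on with
    | _ e =>
      change (QuotientAddGroup.mk (divPart (inc e)) : SClass _) = 0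
      rw [show divPart (inc e) = 0 from nsmul_finsupp_cancel (p := p)
        (by rw [nsmul_divPart, smul_zero]; exact e.2)]
      rfl
  have hιe : ∀ (d : levelGrp V U) y,
      ι (modPRep p (sUnitOp V S) d.1 y) = ρW d (ι y) := fun d y => by
    induction y using QuotientAddGroup.induction_on with
    | _ e => rfl
  -- lifts of the class part
  choose L hL hLπ using fun ψ : eHom ν ((clsOp V S).comp (levelGrp V U).subtype) =>
    exists_lift ν hG ρW ((clsOp V S).comp (levelGrp V U).subtype) π hπe hWp ψ.1 ψ.2 fun a => by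
      obtain ⟨b, hb⟩ := exists_clsPart_eq (p := p) (nsmul_apply_eq_zero ψ.1 a)
      exact ⟨QuotientAddGroup.mk b, hb⟩
  let Φ : eHom ν ((modPRep p (sUnitOp V S)).comp (levelGrp V U).subtype) ×
      eHom ν ((clsOp V S).comp (levelGrp V U).subtype) → eqHom ν ω := fun z =>
    ⟨(AddMonoidHom.mk' (fun a => κ' (ι (z.1.1 a) + L z.2 a)) fun a b => by
      rw [map_add z.1.1, map_add (L z.2), map_add ι, ← map_add κ', add_add_add_comm]).toZModLinearMap p, fun d a => by
      change κ' (ι (z.1.1 (ν d a)) + L z.2 (ν d a)) = ω d (κ' (ι (z.1.1 a) + L z.2 a))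
      have e1 : z.1.1 (ν d a) = modPRep p (sUnitOp V S) d.1 (z.1.1 a) := z.1.2 d a
      rw [← hκ'e, e1, hιe, (hL z.2) d a, map_add (ρW d)]⟩
  have hΦ : Function.Injective Φ := fun z z' h => by
    have h1 : ∀ a, ι (z.1.1 a) + L z.2 a = ι (z'.1.1 a) + L z'.2 a := fun a =>
      hκ'i (LinearMap.congr_fun (congrArg Subtype.val h) a)
    have h2 : z.2 = z'.2 := Subtype.ext (AddMonoidHom.ext fun a => by
      rw [← hLπ z.2 a, ← hLπ z'.2 a]
      simpa [hπι] using congrArg π (h1 a))
    refine Prod.ext (Subtype.ext (AddMonoidHom.ext fun a => hιi ?_)) h2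
    have := h1 a
    rw [h2] at this
    have h3 := congrArg κ' this
    rw [map_add, map_add] at h3
    exact hκ'i (add_right_cancel h3)
  refine le_trans (le_of_eq (Nat.card_prod _ _).symm) ((Nat.card_le_card_of_injective Φ hΦ).trans ?_)
  rw [Module.natCard_eq_pow_finrank (K := ZMod p) (V := eqHom ν ω), Nat.card_zmod]
  rfl

end Fermat.Agent.CFT.EulerChar
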