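import Fermat.Agent.CFT.EulerChar.GalAction
import Fermat.Agent.CFT.GlobalPerm.ClassUpper
import Fermat.Agent.CFT.Sha.Functorial

/-!
# `Ш²` of the permutation module maps equivariantly into the `S`-class group modulo `p`
-/

set_option autoImplicit false
set_option linter.style.haveILetI false

open CategoryTheory groupCohomology ExtCitation Module NumberField IsDedekindDomain
open scoped Pointwise

noncomputable section

namespace Fermat.Agent.CFT.EulerChar

open EquivariantCount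

variable {p : ℕ} [Fact p.Prime] {S : Finset Nat.Primes} {V U : Subgroup GQ} [V.Normal]
  [NumberField (lvlFld V)]

/-- `D` records the divisor of `β ^ p` away from `S` up to multiples of `p`. -/
def IsDiv (p : ℕ) (S : Finset Nat.Primes) (β : (AlgebraicClosure ℚ)ˣ)
    (D : OffPrimes (placesOver S (lvlFld V)) →₀ ℤ) : Prop :=
  ∀ q ∉ S, ∀ (g : GQ) (v : OffPrimes (placesOver S (lvlFld V))),
    primeAt (lvlFld V) q g = v.1 →
      ∃ k : ℤ, galNorm q g β ^ p = ((q : ℕ) : ℝ) ^ ((p : ℤ) * k - D v)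

theorem IsDiv.sub {β β' : (AlgebraicClosure ℚ)ˣ}
    {D D' : OffPrimes (placesOver S (lvlFld V)) →₀ ℤ} (h : IsDiv p S β D) (h' : IsDiv p S β' D') :
    IsDiv p S (β / β') (D - D') := fun q hq g v hv => by
  obtain ⟨k, hk⟩ := h q hq g v hv
  obtain ⟨k', hk'⟩ := h' q hq g v hv
  refine ⟨k - k', ?_⟩
  rw [Units.val_div_eq_div_val, div_eq_mul_inv, galNorm_mul, galNorm_inv, mul_pow, inv_pow, hk, hk',
    ← zpow_neg, ← zpow_add₀ (Nat.cast_ne_zero.2 q.2.ne_zero), Finsupp.sub_apply]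
  congr 1
  ring

/-- `c` is the class attached to `x`. -/
def IsClassOf (p : ℕ) [Fact p.Prime] (S : Finset Nat.Primes)
    (x : H2c (Levels.unr S) (MonoidHom.id GQ) (funRep (muRep p) V))
    (c : ModP p (SClass (placesOver S (lvlFld V)))) : Prop :=
  ∃ (C : ↥(Z2 (Levels.unr S) (MonoidHom.id GQ) (funRep (muRep p) V))) (μ : V → ZMod p)
    (β : (AlgebraicClosure ℚ)ˣ) (D : OffPrimes (placesOver S (lvlFld V)) →₀ ℤ),
    H2cπ _ _ _ C = x ∧ ClassData S C.1 μ β ∧ IsDiv p S β D ∧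
      c = ((D : SClass (placesOver S (lvlFld V))) : ModP p (SClass (placesOver S (lvlFld V))))

theorem IsClassOf.sub {x y : H2c (Levels.unr S) (MonoidHom.id GQ) (funRep (muRep p) V)}
    {c d : ModP p (SClass (placesOver S (lvlFld V)))} (hx : IsClassOf p S x c)
    (hy : IsClassOf p S y d) : IsClassOf p S (x - y) (c - d) := by
  obtain ⟨C, μ, β, D, rfl, hd, hD, rfl⟩ := hx
  obtain ⟨C', μ', β', D', rfl, hd', hD', rfl⟩ := hy
  exact ⟨C - C', _, _, D - D', map_sub _ C C', hd.sub hd', hD.sub hD', rfl⟩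

variable (hV : IsLevelSubgroup (Levels.unr S) (MonoidHom.id GQ) V)
  (hχ : ∀ g ∈ V, cycloChar p g = 1)

include hV hχ in
theorem exists_isClassOf (hp2 : p ≠ 2)
    (x : H2c (Levels.unr S) (MonoidHom.id GQ) (funRep (muRep p) V))
    (hloc : ∀ q ∈ S, locS q (funRep (muRep p) V) x = 0) : ∃ c, IsClassOf p S x c := by
  obtain ⟨C, rfl⟩ := Submodule.mkQ_surjective _ x
  obtain ⟨μ, β, hd⟩ := exists_classData hp2 hV hχ C hloc
  choose qv gv hgv using fun v : OffPrimes (placesOver S (lvlFld V)) =>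
    exists_primeAt_eq (lvlFld V) v.1
  have hqv : ∀ v, qv v ∉ S := fun v hq => v.2 (mem_placesOver.2 ⟨qv v, hq, by
    rw [← hgv v]; exact natCast_mem_primeUnder (lvlFld V) _ _⟩)
  obtain ⟨D, hD⟩ := hd.exists_divisor C.2.1 hχ hV qv gv hqv hgv
  refine ⟨_, C, μ, β, D, rfl, hd, fun q hq g v hv => ?_, rfl⟩
  obtain ⟨hqq, τ, u, hu, hg⟩ :=
    (primeAt_eq_iff (fixingSubgroup_fixedField_of_level hV.to_all)).1 ((hgv v).trans hv.symm)
  subst hqq
  subst hg
  obtain ⟨j, hj⟩ := hd.exists_exponent C.2.1 hχ hq (gv v) hu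
  refine ⟨j, ?_⟩
  rw [show galNorm (qv v) (primeLocalToGlobal (qv v) τ * gv v * u) (β : AlgebraicClosure ℚ)
      = galNorm (qv v) (gv v) (u (β : AlgebraicClosure ℚ)) by
    rw [mul_assoc, galNorm_eq_of_local]; rfl, hj, mul_pow, hD, ← zpow_natCast, ← zpow_mul,
    ← zpow_add₀ (Nat.cast_ne_zero.2 (qv v).2.ne_zero)]
  congr 1
  ring

include hV hχ in
/-- The class of `0` is `0`. -/
theorem isClassOf_zero {c : ModP p (SClass (placesOver S (lvlFld V)))}
    (h : IsClassOf p S (0 : H2c (Levels.unr S) (MonoidHom.id GQ) (funRep (muRep p) V)) c) :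
    c = 0 := by
  obtain ⟨C, μ, β, D, hC0, hdata, hD, rfl⟩ := h
  obtain ⟨hμc, hd, F, hF, -, -, hr⟩ := hdata
  obtain ⟨Y, hY, hYd⟩ := (H2cπ_eq_zero_iff _).1 hC0
  let μ₀ : V → ZMod p := fun s => Y (s : GQ) ((1 : GQ) : GQ ⧸ V)
  have hd₀ : ∀ s t : V, C.1 ((s : GQ), (t : GQ)) (QuotientGroup.mk 1)
      = μ₀ t - μ₀ (s * t) + μ₀ s := fun s t => by
    have := congrFun (congrFun hYd ((s : GQ), (t : GQ))) ((1 : GQ) : GQ ⧸ V)
    rw [← this, d₁₂_hom_apply]
    change (funRep (muRep p) V).ρ (s : GQ) (Y (t : GQ)) ((1 : GQ) : GQ ⧸ V) - μ₀ (s * t) + μ₀ s = _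
    rw [funRep_ρ_apply, muRep_apply, hχ s s.2, Units.val_one, one_mul,
      show (s : GQ)⁻¹ • ((1 : GQ) : GQ ⧸ V) = ((1 : GQ) : GQ ⧸ V) by
        rw [MulAction.Quotient.smul_mk, QuotientGroup.eq]; simp]
  let ν' : V → ZMod p := fun s => μ s - μ₀ s
  have hν : ∀ s t, ν' (s * t) = ν' s + ν' t := fun s t => by
    have h1 := hd s t
    rw [hd₀ s t] at h1
    linear_combination h1
  obtain ⟨FY, hFY, hYc⟩ := hY
  obtain ⟨Fμ, hFμ, hμ'⟩ := hμc
  obtain ⟨γ, hγ⟩ := exists_galUnits_div_of_cocycle hV.to_all (fun s => muInc p (ν' s))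
    (fun s t => by rw [galUnits_muInc (hχ s s.2), hν, muInc_add, mul_comm])
    ⟨Fμ ⊔ FY, Levels.all.sup _ _ hFμ hFY.1, fun g s hs => by
      rw [IntermediateField.fixingSubgroup_sup] at hs
      simp only [ν', μ₀, Subgroup.coe_mul, hμ' g s hs.1, hYc g s hs.2]⟩
  have hγV : ∀ s : V, (s : GQ) ((γ : AlgebraicClosure ℚ) ^ p) = (γ : AlgebraicClosure ℚ) ^ p :=
    fun s => by
      have h1 := congrArg (fun w : (AlgebraicClosure ℚ)ˣ => (w : AlgebraicClosure ℚ) ^ p)
        (eq_div_iff_mul_eq'.1 (hγ s))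
      rw [Units.val_mul, mul_pow, ← Units.val_pow_eq_pow_val (muInc p _), muInc_pow_eq_one,
        Units.val_one, one_mul, coe_galUnits] at h1
      rw [map_pow, ← h1]
  let z : (lvlFld V)ˣ := Units.mk0 ⟨(γ : AlgebraicClosure ℚ) ^ p, hγV⟩
    fun h0 => pow_ne_zero p γ.ne_zero (congrArg Subtype.val h0)
  let F₁ := F ⊔ FY
  have hF₁ : F₁.IsUnramifiedOutside S := hF.sup hFY
  haveI : FiniteDimensional ℚ F₁ := hF₁.1
  have hη : ((β / γ : (AlgebraicClosure ℚ)ˣ) : AlgebraicClosure ℚ) ∈ F₁ := by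
    rw [← InfiniteGalois.fixedField_fixingSubgroup F₁, IntermediateField.mem_fixedField_iff]
    intro s hs
    rw [IntermediateField.fixingSubgroup_sup] at hs
    obtain ⟨hsV, e⟩ := hr s hs.1
    have hb : baseVal C.1 = μ₀ ⟨s, hsV⟩ := by
      have h1 := hd₀ 1 1
      have h2 := hYc 1 s hs.2
      rw [one_mul] at h1 h2
      simp only [baseVal, μ₀, h2, OneMemClass.coe_one] at h1 ⊢
      linear_combination h1
    suffices hh : galUnits s (β / γ) = β / γ from congrArg Units.val hh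
    rw [map_div, e, ← eq_div_iff_mul_eq'.1 (hγ ⟨s, hsV⟩), hb]
    exact mul_div_mul_left_eq_div _ _ _
  have key : ∀ v, (p : ℤ) ∣ D v - ordP v.1 z := fun v => by
    obtain ⟨q, g, hv⟩ := exists_primeAt_eq (lvlFld V) v.1
    have hq : q ∉ S := fun hq => v.2 (mem_placesOver.2 ⟨q, hq, by
      rw [← hv]; exact natCast_mem_primeUnder (lvlFld V) _ _⟩)
    obtain ⟨k, hk⟩ := hD q hq g v hv
    obtain ⟨j, hj⟩ := exists_galNorm_eq_zpow (F := F₁) (fun A hA s hs => hF₁.2 q hq A hA hs) g hη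
      (Units.ne_zero _)
    haveI := finiteDimensional_fixedField hV.to_all
    have hz : galNorm q g ((γ : AlgebraicClosure ℚ) ^ p) = ((q : ℕ) : ℝ) ^ (-ordP v.1 z) := by
      rw [← hv]
      refine galNorm_eq_zpow_ordP ?_ g z
      rw [fixingSubgroup_fixedField_of_level hV.to_all]
      exact hV.inertiaLE hq
    have hb : galNorm q g β ^ p = ((q : ℕ) : ℝ) ^ ((p : ℤ) * j - ordP v.1 z) := by
      rw [show (β : AlgebraicClosure ℚ) = ((β / γ : (AlgebraicClosure ℚ)ˣ) : AlgebraicClosure ℚ)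
          * (γ : AlgebraicClosure ℚ) by rw [← Units.val_mul, div_mul_cancel],
        galNorm_mul, mul_pow, hj, ← galNorm_pow q g (γ : AlgebraicClosure ℚ), hz, ← zpow_natCast,
        ← zpow_mul, ← zpow_add₀ (Nat.cast_ne_zero.2 q.2.ne_zero)]
      congr 1
      ring
    rw [hk] at hb
    have hq1 : (1 : ℝ) < ((q : ℕ) : ℝ) := by exact_mod_cast q.2.one_lt
    have := zpow_right_injective₀ (by positivity) hq1.ne' hb
    exact ⟨k - j, by linear_combination -this⟩
  let e : OffPrimes (placesOver S (lvlFld V)) →₀ ℤ :=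
    (D - divOff _ (Additive.ofMul z)).mapRange (fun m => m / (p : ℤ)) (Int.zero_ediv _)
  have he : D = p • e + divOff _ (Additive.ofMul z) := Finsupp.ext fun v => by
    rw [Finsupp.add_apply, Finsupp.smul_apply, nsmul_eq_mul, Finsupp.mapRange_apply,
      Finsupp.sub_apply, divOff_apply, toMul_ofMul, Int.mul_ediv_cancel' (key v), sub_add_cancel]
  rw [he, QuotientAddGroup.mk_add,
    (QuotientAddGroup.eq_zero_iff (N := (divOff (placesOver S (lvlFld V))).range)
      (divOff (placesOver S (lvlFld V)) (Additive.ofMul z))).2 ⟨_, rfl⟩, add_zero,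
    QuotientAddGroup.mk_nsmul, QuotientAddGroup.eq_zero_iff]
  exact mem_pMul.2 ⟨_, rfl⟩

include hV hχ in
theorem eq_zero_of_isClassOf (hpS : pPrime p ∈ S)
    {x : H2c (Levels.unr S) (MonoidHom.id GQ) (funRep (muRep p) V)}
    (h : IsClassOf p S x 0) : x = 0 := by
  obtain ⟨C, μ, β, D, rfl, hdata, hD, h0⟩ := h
  obtain ⟨w, hw⟩ := mem_pMul.1 ((QuotientAddGroup.eq_zero_iff _).1 h0.symm)
  have h1 : (QuotientAddGroup.mk (D - p • w.out) : SClass (placesOver S (lvlFld V))) = 0 := by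
    rw [QuotientAddGroup.mk_sub, QuotientAddGroup.mk_nsmul, QuotientAddGroup.out_eq', hw, sub_self]
  obtain ⟨z, hz⟩ := (QuotientAddGroup.eq_zero_iff _).1 h1
  refine eq_zero_of_classData hpS hV hχ C hdata z.toMul fun q hq g => ?_
  let v : OffPrimes (placesOver S (lvlFld V)) :=
    ⟨primeAt (lvlFld V) q g, primeAt_not_mem_placesOver hq g⟩
  obtain ⟨k, hk⟩ := hD q hq g v rfl
  refine ⟨k - w.out v, ?_⟩
  haveI := finiteDimensional_fixedField hV.to_all
  have hzv := DFunLike.congr_fun hz v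
  rw [divOff_apply, Finsupp.sub_apply, Finsupp.smul_apply, nsmul_eq_mul] at hzv
  rw [hk, galNorm_eq_zpow_ordP (by
      rw [fixingSubgroup_fixedField_of_level hV.to_all]; exact hV.inertiaLE hq) g z.toMul,
    ← zpow_add₀ (Nat.cast_ne_zero.2 q.2.ne_zero)]
  congr 1
  linear_combination hzv

theorem galQ_smul_primeAt (q : Nat.Primes) (g n : GQ) :
    galQ V (n : GQ ⧸ V) • primeAt (lvlFld V) q (g * n) = primeAt (lvlFld V) q g := by
  refine HeightOneSpectrum.ext (SetLike.ext fun a => ?_)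
  change galNorm q (g * n) _ < 1 ↔ galNorm q g ((a : lvlFld V) : AlgebraicClosure ℚ) < 1
  rw [show (((((ringOfIntegersAut (galQ V (n : GQ ⧸ V))⁻¹).toRingHom a : 𝓞 (lvlFld V)) : lvlFld V))
      : AlgebraicClosure ℚ) = n⁻¹ ((a : lvlFld V) : AlgebraicClosure ℚ) by
    rw [← map_inv, ← QuotientGroup.mk_inv]; rfl]
  show ‖padicEmbedding (q : ℕ) ((g * n) (n⁻¹ _))‖ < 1 ↔ _
  rw [← AlgEquiv.mul_apply, mul_inv_cancel_right]
  rfl

include hχ in
/-- The classes are natural for right translations. -/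
theorem IsClassOf.translate (d : levelGrp V U)
    {x : H2c (Levels.unr S) (MonoidHom.id GQ) (funRep (muRep p) V)}
    {c : ModP p (SClass (placesOver S (lvlFld V)))} (h : IsClassOf p S x c) :
    IsClassOf p S (pushH2 (rightOp V U d) (rightOp_comm V U d) x)
      (modPRep p (clsOp V S) d.1 c) := by
  obtain ⟨C, μ, β, D, rfl, ⟨hμc, hd, F, hF, hN, hcst, hr⟩, hD, rfl⟩ := h
  obtain ⟨n, hn⟩ := QuotientGroup.mk_surjective d.1
  let cn : GQ →* GQ := MonoidHom.mk' (fun a => n⁻¹ * a * n) fun a b => by group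
  have hcn : IsLevelHom (Levels.unr S) (MonoidHom.id GQ) (Levels.unr S) (MonoidHom.id GQ) cn := by
    intro F₀ hF₀
    obtain ⟨F₁, hF₁, hN₁, hle⟩ := Levels.hasNormal_unr S F₀ hF₀
    exact ⟨F₁, hF₁, fun a ha => IntermediateField.fixingSubgroup_antitone hle
      (conj_mem_level (r := MonoidHom.id GQ) hN₁ ha n)⟩
  let φ : funRep (muRep p) V →ₗ[ZMod p] funRep (muRep p) V :=
    rightOp V U d ∘ₗ (funRep (muRep p) V).ρ n
  let C' : ↥(Z2 (Levels.unr S) (MonoidHom.id GQ) (funRep (muRep p) V)) :=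
    mapZ2 (M := funRep (muRep p) V) (N := funRep (muRep p) V) cn hcn φ (fun a m => by
      show rightOp V U d ((funRep (muRep p) V).ρ n ((funRep (muRep p) V).ρ (n⁻¹ * a * n) m))
        = (funRep (muRep p) V).ρ a (rightOp V U d ((funRep (muRep p) V).ρ n m))
      rw [← Module.End.mul_apply ((funRep (muRep p) V).ρ n), ← map_mul, ← rightOp_comm,
        ← Module.End.mul_apply ((funRep (muRep p) V).ρ a), ← map_mul]
      congr 3
      group) C
  have hC' : ∀ s t : GQ, C'.1 (s, t) ((1 : GQ) : GQ ⧸ V) =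
      (cycloChar p n : ZMod p) * C.1 (n⁻¹ * s * n, n⁻¹ * t * n) ((1 : GQ) : GQ ⧸ V) := fun s t => by
    change rightOp V U d ((funRep (muRep p) V).ρ n (C.1 (n⁻¹ * s * n, n⁻¹ * t * n))) _ = _
    rw [rightOp_apply, ← hn, QuotientGroup.mk_one, one_mul, funRep_ρ_apply, muRep_apply,
      MulAction.Quotient.smul_mk, smul_eq_mul, inv_mul_cancel, QuotientGroup.mk_one]
  have hFn : ∀ s ∈ F.fixingSubgroup, n⁻¹ * s * n ∈ F.fixingSubgroup := fun s hs =>
    conj_mem_level (r := MonoidHom.id GQ) hN hs n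
  have hVn : ∀ s : V, n⁻¹ * (s : GQ) * n ∈ V := fun s =>
    Subgroup.Normal.conj_mem' inferInstance _ s.2 n
  refine ⟨C', fun s => (cycloChar p n : ZMod p) * μ ⟨_, hVn s⟩, galUnits n β, divOp V S d.1 D,
    ?_, ⟨?_, fun s t => ?_, F, hF, hN, fun a a' s s' hs hs' => ?_, fun s hs => ?_⟩,
    fun q hq g v hv => ?_, rfl⟩
  · let hh : GQ → (funRep (muRep p) V) := fun a => C.1 (n, n⁻¹ * a * n) - C.1 (a, n)
    refine (Submodule.Quotient.eq _).2 ?_
    refine ⟨fun a => rightOp V U d (hh a), ⟨F, hF, fun a s hs => ?_⟩, funext fun ⟨a, b⟩ => ?_⟩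
    · have h3 := hcst n (n⁻¹ * a * n) 1 (n⁻¹ * s * n) (one_mem _) (hFn s hs)
      rw [mul_one, show n⁻¹ * a * n * (n⁻¹ * s * n) = n⁻¹ * (a * s) * n by group] at h3
      have h4 := hcst a n s 1 hs (one_mem _)
      rw [mul_one] at h4
      simp only [hh, h3, h4]
    · rw [d₁₂_hom_apply]
      change _ = rightOp V U d ((funRep (muRep p) V).ρ n (C.1 (n⁻¹ * a * n, n⁻¹ * b * n)))
        - rightOp V U d (C.1 (a, b))
      rw [conj_homotopy₂ C.2.1 n a b, ← map_sub, add_sub_cancel_left, ← rightOp_comm, ← map_sub,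
        ← map_add]
  · obtain ⟨Fμ, hFμ, hμ'⟩ := hμc
    obtain ⟨F₂, hF₂, hN₂, hle₂⟩ := Levels.hasNormal_all Fμ hFμ
    refine ⟨F₂, hF₂, fun a s hs => ?_⟩
    have := hμ' ⟨_, hVn a⟩ ⟨_, hVn s⟩ (IntermediateField.fixingSubgroup_antitone hle₂
      (conj_mem_level (r := MonoidHom.id GQ) hN₂ hs n))
    show (cycloChar p n : ZMod p) * μ ⟨_, hVn (a * s)⟩ = (cycloChar p n : ZMod p) * μ ⟨_, hVn a⟩
    rw [← this]
    congr 2
    exact Subtype.ext (by simp; group)
  · have h1 := hd ⟨_, hVn s⟩ ⟨_, hVn t⟩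
    rw [show (⟨_, hVn s⟩ : V) * ⟨_, hVn t⟩ = ⟨_, hVn (s * t)⟩ from
      Subtype.ext (by simp; group)] at h1
    rw [hC', h1]
    ring
  · change rightOp V U d ((funRep (muRep p) V).ρ n (C.1 (n⁻¹ * (a * s) * n, n⁻¹ * (a' * s') * n)))
      = rightOp V U d ((funRep (muRep p) V).ρ n (C.1 (n⁻¹ * a * n, n⁻¹ * a' * n)))
    rw [show n⁻¹ * (a * s) * n = n⁻¹ * a * n * (n⁻¹ * s * n) by group,
      show n⁻¹ * (a' * s') * n = n⁻¹ * a' * n * (n⁻¹ * s' * n) by group,
      hcst _ _ _ _ (hFn s hs) (hFn s' hs')]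
  · obtain ⟨hsn, e⟩ := hr _ (hFn s hs)
    have hsV : s ∈ V := by
      have := Subgroup.Normal.conj_mem (inferInstance : V.Normal) _ hsn n
      rwa [show n * (n⁻¹ * s * n) * n⁻¹ = s by group] at this
    refine ⟨hsV, ?_⟩
    rw [← galUnits_mul, show s * n = n * (n⁻¹ * s * n) by group, galUnits_mul, e, map_mul,
      show galUnits n (muInc p (μ ⟨n⁻¹ * s * n, hsn⟩ - baseVal C.1)) =
          muInc p ((cycloChar p n : ZMod p) * (μ ⟨n⁻¹ * s * n, hsn⟩ - baseVal C.1)) from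
        Units.ext (gal_muInc n _)]
    congr 2
    rw [mul_sub]
    congr 1
    rw [baseVal, baseVal]
    simpa using (hC' 1 1).symm
  · let v' : OffPrimes (placesOver S (lvlFld V)) :=
      ⟨primeAt (lvlFld V) q (g * n), primeAt_not_mem_placesOver hq _⟩
    obtain ⟨k, hk⟩ := hD q hq (g * n) v' rfl
    refine ⟨k, ?_⟩
    have hv' : v = offPerm V S (n : GQ ⧸ V) v' := Subtype.ext (by
      rw [← hv]; exact (galQ_smul_primeAt q g n).symm)
    rw [← hn, hv']
    change galNorm q g (n (β : AlgebraicClosure ℚ)) ^ p =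
      ((q : ℕ) : ℝ) ^ ((p : ℤ) * k - Finsupp.mapDomain (offPerm V S (n : GQ ⧸ V)) D _)
    rw [Finsupp.mapDomain_apply (offPerm_injective V S _)]
    exact hk

variable (hp2 : p ≠ 2)

/-- The class map on `Ш²`. -/
def shaCls (x : Sha.Sha2 S (funRep (muRep p) V)) : ModP p (SClass (placesOver S (lvlFld V))) :=
  (exists_isClassOf hV hχ hp2 x.1 fun q hq =>
    congrFun (LinearMap.mem_ker.1 x.2) ⟨q, hq⟩).choose

theorem shaCls_spec (x : Sha.Sha2 S (funRep (muRep p) V)) :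
    IsClassOf p S x.1 (shaCls hV hχ hp2 x) :=
  (exists_isClassOf hV hχ hp2 x.1 fun q hq =>
    congrFun (LinearMap.mem_ker.1 x.2) ⟨q, hq⟩).choose_spec

include hV hχ in
theorem isClassOf_unique {x : H2c (Levels.unr S) (MonoidHom.id GQ) (funRep (muRep p) V)}
    {c d : ModP p (SClass (placesOver S (lvlFld V)))} (hc : IsClassOf p S x c)
    (hd : IsClassOf p S x d) : c = d :=
  sub_eq_zero.1 (isClassOf_zero hV hχ (sub_self x ▸ hc.sub hd))

theorem shaCls_sub (x y : Sha.Sha2 S (funRep (muRep p) V)) :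
    shaCls hV hχ hp2 (x - y) = shaCls hV hχ hp2 x - shaCls hV hχ hp2 y :=
  isClassOf_unique hV hχ (shaCls_spec hV hχ hp2 (x - y))
    ((shaCls_spec hV hχ hp2 x).sub (shaCls_spec hV hχ hp2 y))

/-- The class map as a homomorphism. -/
def shaClsHom : Sha.Sha2 S (funRep (muRep p) V) →+ ModP p (SClass (placesOver S (lvlFld V))) :=
  AddMonoidHom.mk' (shaCls hV hχ hp2) fun x y => by
    have := shaCls_sub hV hχ hp2 (x + y) y
    rw [add_sub_cancel_right] at this
    rw [this, sub_add_cancel]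

theorem shaClsHom_injective (hpS : pPrime p ∈ S) :
    Function.Injective (shaClsHom (p := p) hV hχ hp2) :=
  (injective_iff_map_eq_zero _).2 fun x hx => Subtype.ext
    (eq_zero_of_isClassOf hV hχ hpS (hx ▸ shaCls_spec hV hχ hp2 x))

variable [Fintype (levelGrp V U)] {A : Type} [AddCommGroup A] [Module (ZMod p) A]
  [FiniteDimensional (ZMod p) A] (ν : Representation (ZMod p) (levelGrp V U) A)

include hp2 hV hχ in
/-- `Ш²` embeds equivariantly into the `S`-class group modulo `p`. -/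
theorem sha2_homCard_le_proof (hpS : pPrime p ∈ S)
    (ω : Representation (ZMod p) (levelGrp V U) (Sha.Sha2 S (funRep (muRep p) V)))
    (hω : ∀ d x, (ω d x).1 = pushH2 (rightOp V U d) (rightOp_comm V U d) x.1) :
    p ^ eDim ν ω ≤ homCard V ν (modPRep p (clsOp V S)) := by
  classical
  set Φ := shaClsHom (p := p) hV hχ hp2
  have hΦi := shaClsHom_injective hV hχ hp2 hpS
  have hΦe : ∀ d x, Φ (ω d x) = modPRep p (clsOp V S) d.1 (Φ x) := fun d x => by
    refine isClassOf_unique hV hχ (shaCls_spec hV hχ hp2 (ω d x)) ?_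
    rw [hω]
    exact (shaCls_spec hV hχ hp2 x).translate hχ d
  haveI : Finite (Sha.Sha2 S (funRep (muRep p) V)) := Finite.of_injective Φ hΦi
  haveI : Finite A := Module.finite_of_finite (ZMod p)
  haveI : FiniteDimensional (ZMod p) (Sha.Sha2 S (funRep (muRep p) V)) := Module.Finite.of_finite
  let Ψ : eqHom ν ω → eHom ν ((modPRep p (clsOp V S)).comp (levelGrp V U).subtype) := fun φ =>
    ⟨Φ.comp φ.1.toAddMonoidHom, fun d a => by
      change Φ (φ.1 (ν d a)) = modPRep p (clsOp V S) d.1 (Φ (φ.1 a))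
      rw [φ.2 d a, hΦe]⟩
  have hΨ : Function.Injective Ψ := fun φ φ' h => Subtype.ext (LinearMap.ext fun a =>
    hΦi (DFunLike.congr_fun (congrArg Subtype.val h) a))
  refine le_trans (le_of_eq ?_) (Nat.card_le_card_of_injective Ψ hΨ)
  rw [Module.natCard_eq_pow_finrank (K := ZMod p) (V := eqHom ν ω), Nat.card_zmod]
  rfl

end Fermat.Agent.CFT.EulerChar
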