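import Fermat.Agent.CFT.EulerChar.GalAction
import Fermat.Agent.CFT.EulerChar.SClassKummer
import Fermat.Agent.CFT.EulerChar.SClassSha
import Fermat.Agent.CFT.Sha.Functorial

/-!
# Equivariant Kummer and `S`-class bounds for `funRep μ_p V`
-/

set_option autoImplicit false

open CategoryTheory groupCohomology ExtCitation Module NumberField IsDedekindDomain

noncomputable section

namespace Fermat.Agent.CFT.EulerChar

open EquivariantCount

variable {p : ℕ} [Fact p.Prime] {V U : Subgroup GQ} [V.Normal] [NumberField (lvlFld V)]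
  [Fintype (levelGrp V U)] {A : Type} [AddCommGroup A] [Module (ZMod p) A]
  [FiniteDimensional (ZMod p) A] (ν : Representation (ZMod p) (levelGrp V U) A)
  (hp2 : p ≠ 2) (S : Finset Nat.Primes) (hpS : pPrime p ∈ S)

/-- The translations on `Ш²`. -/
def sha2Op : Representation (ZMod p) (levelGrp V U) (Sha.Sha2 S (funRep (muRep p) V)) where
  toFun d := Sha.pushSha2 (rightOp V U d) (rightOp_comm V U d)
  map_one' := LinearMap.ext fun x => Subtype.ext (by
    rw [Sha.coe_pushSha2, Sha.pushH2_eq_self_of_forall _ _ fun f => by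
      rw [map_one, Module.End.one_apply]]
    rfl)
  map_mul' d e := LinearMap.ext fun x => Subtype.ext (by
    change pushH2 _ _ _ = pushH2 _ _ (pushH2 _ _ _)
    rw [Sha.pushH2_pushH2]
    congr 2
    exact map_mul _ d e)

variable (hV : IsLevelSubgroup (Levels.unr S) (MonoidHom.id GQ) V)
  (hχ : ∀ g ∈ V, cycloChar p g = 1) (hD : (Fintype.card (levelGrp V U) : ZMod p) ≠ 0)

include hp2 hpS hV hχ hD in
/-- Kummer: `S`-units modulo `p` and the `p`-torsion `S`-classes inject equivariantly into `H¹`. -/
theorem kummer_homCard_le :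
    homCard V ν (modPRep p (sUnitOp V S)) * homCard V ν (clsOp V S) ≤
      p ^ eDim ν (h1Op (Levels.unr S) (MonoidHom.id GQ) (funRep (muRep p) V) (rightOp V U)
        (rightOp_comm V U)) :=
  kummer_homCard_le_proof hpS hV hχ ν hD

include hp2 hpS hV hχ hD in
/-- `Ш²` embeds equivariantly into the `S`-class group modulo `p`. -/
theorem sha2_homCard_le :
    p ^ eDim ν (sha2Op (V := V) (U := U) (p := p) S) ≤
      homCard V ν (modPRep p (clsOp V S)) :=
  sha2_homCard_le_proof hV hχ hp2 ν hpS _ fun _ _ => rfl

end Fermat.Agent.CFT.EulerChar
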