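import Fermat.Agent.CFT.UnitsHerbrand
import Fermat.Agent.CFT.EquivariantCount
import Fermat.Agent.CFT.GlobalPerm.SDivisors
import Fermat.Agent.CFT.PlaceAction

/-!
# The equivariant rank of the `S`-units

For a group `D` of order prime to `p` acting on a number field `L`, the `S`-units of `L` and the
trivial module have, together, the same equivariant count modulo `p` as the permutation modules of
the infinite places and of the places in `S`.
-/

set_option autoImplicit false
set_option linter.style.haveILetI false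

open NumberField IsDedekindDomain Module

noncomputable section

namespace Fermat.Agent.CFT.EulerChar

open EquivariantCount

variable {D : Type*} [Group D]

/-- Functions on a `D`-set. -/
def permFun (R : Type*) [CommRing R] {X : Type*} (σ : D →* Equiv.Perm X) :
    Representation ℤ D (X → R) where
  toFun d := LinearMap.funLeft ℤ R ⇑(σ d⁻¹)
  map_one' := LinearMap.ext fun f => funext fun x => by
    show f (σ (1 : D)⁻¹ x) = f x
    rw [inv_one, map_one]
    rfl
  map_mul' d e := LinearMap.ext fun f => funext fun x => by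
    show f (σ (d * e)⁻¹ x) = f (σ e⁻¹ (σ d⁻¹ x))
    rw [mul_inv_rev, map_mul]
    rfl

lemma permFun_apply {R : Type*} [CommRing R] {X : Type*} (σ : D →* Equiv.Perm X) (d : D)
    (f : X → R) (x : X) : permFun R σ d f x = f (σ d⁻¹ x) := rfl

variable {p : ℕ} [Fact p.Prime] {N : Type*} [AddCommGroup N] [Module (ZMod p) N]
  (ν : Representation (ZMod p) D N)

section phi

variable [Fintype D] [Finite N]

/-- `phi` of a torsion-free module is the count on its reduction modulo `p`. -/
theorem phiIs_of_red (hD : ¬ p ∣ Fintype.card D) {A B : Type*} [AddCommGroup A] [AddCommGroup B]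
    [Finite B] (ρA : Representation ℤ D A) (ρB : Representation ℤ D B) (π : A →+ B)
    (hπ : ∀ d a, π (ρA d a) = ρB d (π a)) (hs : Function.Surjective π)
    (hk : ∀ a, π a = 0 ↔ ∃ b, p • b = a) (htf : ∀ a : A, p • a = 0 → a = 0) :
    PhiIs ν ρA (Nat.card (eHom ν ρB)) := by
  have h0 : Subsingleton (eHom ν ρA) := ⟨fun f g => Subtype.ext (AddMonoidHom.ext fun n => by
    rw [htf _ (nsmul_apply_eq_zero f.1 n), htf _ (nsmul_apply_eq_zero g.1 n)])⟩
  let e : ModP p A →+ B := QuotientAddGroup.lift _ π fun a ha => (hk a).2 (mem_pMul.1 ha)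
  have hei : Function.Injective e := by
    refine (injective_iff_map_eq_zero e).2 fun x hx => ?_
    induction x using QuotientAddGroup.induction_on with
    | _ a => exact (QuotientAddGroup.eq_zero_iff a).2 (mem_pMul.2 ((hk a).1 hx))
  have hes : Function.Surjective e := fun b => by
    obtain ⟨a, rfl⟩ := hs b
    exact ⟨(a : ModP p A), rfl⟩
  have hee : ∀ d x, e (modPRep p ρA d x) = ρB d (e x) := fun d x => by
    induction x using QuotientAddGroup.induction_on with
    | _ a => exact hπ d a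
  have hbij : Function.Bijective (eHomMap ν (modPRep p ρA) ρB e hee) := by
    refine ⟨fun f g h => Subtype.ext (AddMonoidHom.ext fun n =>
      hei (DFunLike.congr_fun (congrArg Subtype.val h) n)), fun f => ?_⟩
    obtain ⟨g, hg, hg'⟩ := exists_lift ν hD (modPRep p ρA) ρB e hee modP_nsmul_eq_zero f.1 f.2
      fun n => hes _
    exact ⟨⟨g, hg⟩, Subtype.ext (AddMonoidHom.ext hg')⟩
  refine ⟨inferInstance, Finite.of_injective _ hbij.1, ?_⟩
  rw [Nat.card_unique (α := eHom ν ρA), one_mul, Nat.card_eq_of_bijective _ hbij]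

theorem phiIs_perm (hD : ¬ p ∣ Fintype.card D) {X : Type*} [Finite X] (σ : D →* Equiv.Perm X) :
    PhiIs ν (permFun ℤ σ) (Nat.card (eHom ν (permFun (ZMod p) σ))) := by
  refine phiIs_of_red ν hD _ _ (AddMonoidHom.mk' (fun f x => ((f x : ℤ) : ZMod p)) fun f g =>
    funext fun x => Int.cast_add _ _) (fun d f => rfl)
    (fun f => ⟨fun x => ((f x).val : ℤ), funext fun x => by simp⟩) (fun f => ?_) fun f hf => ?_
  · constructor
    · intro h
      choose g hg using fun x => (ZMod.intCast_zmod_eq_zero_iff_dvd (f x) p).1 (congrFun h x)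
      exact ⟨g, funext fun x => by simp [hg x]⟩
    · rintro ⟨g, rfl⟩
      exact funext fun x => by simp
  · exact funext fun x => by
      have := congrFun hf x
      simpa [(Fact.out : p.Prime).ne_zero] using this

/-- `|Hom_D(N, A/p)| * b = |Hom_D(N, A)| * a`. -/
def PhiFrac {A : Type*} [AddCommGroup A] (ρ : Representation ℤ D A) (a b : ℕ) : Prop :=
  Finite (eHom ν ρ) ∧ Finite (eHom ν (modPRep p ρ)) ∧
    Nat.card (eHom ν (modPRep p ρ)) * b = Nat.card (eHom ν ρ) * a

omit [Fintype D] [Finite N] in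
lemma phiFrac_of_phiIs {A : Type*} [AddCommGroup A] {ρ : Representation ℤ D A} {c : ℕ}
    (h : PhiIs ν ρ c) : PhiFrac ν ρ c 1 :=
  ⟨h.1, h.2.1, by rw [mul_one, h.2.2]⟩

section seq

variable {A B C : Type*} [AddCommGroup A] [AddCommGroup B] [AddCommGroup C]
  (ρA : Representation ℤ D A) (ρB : Representation ℤ D B) (ρC : Representation ℤ D C)
  (i : A →+ B) (π : B →+ C) (hD : ¬ p ∣ Fintype.card D)
  (hi : ∀ g a, i (ρA g a) = ρB g (i a)) (hπ : ∀ g b, π (ρB g b) = ρC g (π b))
  (hinj : Function.Injective i) (hsurj : Function.Surjective π)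
  (hex : ∀ b, π b = 0 ↔ ∃ a, i a = b)

include hD hi hπ hinj hsurj hex in
omit [Finite N] in
lemma phiFrac_middle {a b a' b' : ℕ} (hA : PhiFrac ν ρA a b) (hC : PhiFrac ν ρC a' b') :
    PhiFrac ν ρB (a * a') (b * b') := by
  obtain ⟨hcard, f1, f2, -, -⟩ := sixTerm_card ν ρA ρB ρC i π hD hi hπ hinj hsurj hex
  obtain ⟨a1, a2, hA⟩ := hA
  obtain ⟨c1, c2, hC⟩ := hC
  refine ⟨f1 a1 c1, f2 a2 c2, ?_⟩
  apply Nat.eq_of_mul_eq_mul_left
    (Nat.mul_pos (Nat.card_pos (α := eHom ν ρA)) (Nat.card_pos (α := eHom ν ρC)))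
  rw [← mul_assoc, hcard]
  calc _ = Nat.card (eHom ν ρB) * (Nat.card (eHom ν (modPRep p ρA)) * b) *
        (Nat.card (eHom ν (modPRep p ρC)) * b') := by ring
    _ = _ := by rw [hA, hC]; ring

include hD hi hπ hinj hsurj hex in
omit [Finite N] in
lemma phiFrac_right {a b a' b' : ℕ} (hA : PhiFrac ν ρA a b) (hB : PhiFrac ν ρB a' b')
    (f1 : Finite (eHom ν ρC)) (f2 : Finite (eHom ν (modPRep p ρC))) :
    PhiFrac ν ρC (a' * b) (a * b') := by
  obtain ⟨hcard, -, -, -, -⟩ := sixTerm_card ν ρA ρB ρC i π hD hi hπ hinj hsurj hex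
  obtain ⟨a1, a2, hA⟩ := hA
  obtain ⟨c1, c2, hB⟩ := hB
  refine ⟨f1, f2, ?_⟩
  apply Nat.eq_of_mul_eq_mul_left
    (Nat.mul_pos (Nat.card_pos (α := eHom ν ρA)) (Nat.card_pos (α := eHom ν ρB)))
  calc _ = (Nat.card (eHom ν ρA) * a) * Nat.card (eHom ν ρB) *
        Nat.card (eHom ν (modPRep p ρC)) * b' := by ring
    _ = (Nat.card (eHom ν (modPRep p ρA)) * b) * Nat.card (eHom ν ρB) *
        Nat.card (eHom ν (modPRep p ρC)) * b' := by rw [hA]
    _ = (Nat.card (eHom ν ρB) * Nat.card (eHom ν (modPRep p ρA)) *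
        Nat.card (eHom ν (modPRep p ρC))) * b * b' := by ring
    _ = Nat.card (eHom ν ρA) * Nat.card (eHom ν ρC) *
        (Nat.card (eHom ν (modPRep p ρB)) * b') * b := by rw [← hcard]; ring
    _ = _ := by rw [hB]; ring

include hD hi hπ hinj hsurj hex in
lemma phiFrac_finite_quot [Finite C] {a b : ℕ} (hA : PhiFrac ν ρA a b) : PhiFrac ν ρB a b := by
  have h := phiFrac_middle ν ρA ρB ρC i π hD hi hπ hinj hsurj hex hA
    (phiFrac_of_phiIs ν (PhiIs.of_finite ν hD ρC))
  rwa [mul_one, mul_one] at h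

end seq

omit [Fintype D] in
lemma finite_eHom_fg {A : Type*} [AddCommGroup A] [Module.Finite ℤ A]
    (ρ : Representation ℤ D A) : Finite (eHom ν ρ) ∧ Finite (eHom ν (modPRep p ρ)) := by
  have hp0 : (p : ℤ) ≠ 0 := Nat.cast_ne_zero.2 (Fact.out : p.Prime).ne_zero
  let T : Submodule ℤ A := LinearMap.ker ((p : ℤ) • LinearMap.id)
  haveI : Finite T := Module.finite_of_fg_torsion T fun x =>
    ⟨⟨(p : ℤ), mem_nonZeroDivisors_of_ne_zero hp0⟩, Subtype.ext x.2⟩
  haveI : Module.Finite ℤ (ModP p A) :=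
    Module.Finite.of_surjective (QuotientAddGroup.mk' (pMul p A)).toIntLinearMap
      QuotientAddGroup.mk_surjective
  haveI : Finite (ModP p A) := Module.finite_of_fg_torsion _ fun x =>
    ⟨⟨(p : ℤ), mem_nonZeroDivisors_of_ne_zero hp0⟩, (natCast_zsmul x p).trans (modP_nsmul_eq_zero x)⟩
  refine ⟨Finite.of_injective (fun f : eHom ν ρ => fun n => (⟨f.1 n, ?_⟩ : T)) ?_, inferInstance⟩
  · show (p : ℤ) • f.1 n = 0
    rw [natCast_zsmul, nsmul_apply_eq_zero]
  · exact fun f g h => Subtype.ext (AddMonoidHom.ext fun n => congrArg Subtype.val (congrFun h n))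

/-- The trivial action on an abelian group. -/
abbrev trivOn (A : Type*) [AddCommGroup A] : Representation ℤ D A := Representation.trivial ℤ D A

theorem phiIs_int (hD : ¬ p ∣ Fintype.card D) :
    PhiIs ν (trivOn ℤ) (Nat.card (eHom ν (trivOn (ZMod p)))) := by
  refine phiIs_of_red ν hD _ _ (Int.castAddHom (ZMod p)) (fun d a => rfl) ZMod.intCast_surjective
    (fun a => ⟨fun h => ?_, ?_⟩) fun a ha => ?_
  · obtain ⟨b, hb⟩ := (ZMod.intCast_zmod_eq_zero_iff_dvd a p).1 h
    exact ⟨b, by simp [hb]⟩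
  · rintro ⟨b, rfl⟩
    simp
  · simpa [(Fact.out : p.Prime).ne_zero] using ha

end phi

variable {L : Type*} [Field L] [NumberField L] (ψ : D →* Gal(L/ℚ))

/-- The action on the infinite places. -/
def infPerm : D →* Equiv.Perm (InfinitePlace L) :=
  (MulAction.toPermHom Gal(L/ℚ) (InfinitePlace L)).comp ψ

/-- The action on a stable finite set of finite places. -/
def finPerm (T : Finset (HeightOneSpectrum (𝓞 L)))
    (hT : ∀ (g : Gal(L/ℚ)) v, g • v ∈ T ↔ v ∈ T) : D →* Equiv.Perm T :=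
  MonoidHom.mk'
    (fun d => ((MulAction.toPermHom Gal(L/ℚ) (HeightOneSpectrum (𝓞 L))) (ψ d)).subtypePerm
      fun v => hT (ψ d) v)
    fun d e => Equiv.ext fun v => Subtype.ext (by
      show ψ (d * e) • v.1 = ψ d • ψ e • v.1
      rw [map_mul, mul_smul])

/-- The action on the units of `𝓞 L`. -/
def unitsRep : Representation ℤ D (Additive (𝓞 L)ˣ) where
  toFun d := (DistribMulAction.toAddMonoidHom (Additive (𝓞 L)ˣ) (ψ d)).toIntLinearMap
  map_one' := LinearMap.ext fun u => by
    show ψ 1 • u = u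
    rw [map_one, one_smul]
  map_mul' d e := LinearMap.ext fun u => by
    show ψ (d * e) • u = ψ d • ψ e • u
    rw [map_mul, mul_smul]

variable [Fintype D] [Finite N]

/-- The units and the trivial module against the infinite places. -/
theorem phiIs_units (hD : ¬ p ∣ Fintype.card D) :
    PhiFrac ν (unitsRep ψ) (Nat.card (eHom ν (permFun (ZMod p) (infPerm ψ))))
      (Nat.card (eHom ν (trivOn (ZMod p)))) := by
  classical
  let r : MulAction.orbitRel.Quotient Gal(L/ℚ) (InfinitePlace L) → InfinitePlace L := Quotient.out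
  have hr : ∀ o, Quotient.mk'' (r o) = o := Quotient.out_eq
  choose γ hγ using fun w : InfinitePlace L =>
    (show ∃ g : Gal(L/ℚ), g • r (Quotient.mk'' w) = w by
      obtain ⟨g, hg⟩ := Quotient.eq''.1 (hr (Quotient.mk'' w))
      exact ⟨g⁻¹, by rw [← hg, inv_smul_smul]⟩)
  set ε : InfinitePlace L → Additive (𝓞 L)ˣ :=
    fun w => γ w • stabUnit ℚ (r (Quotient.mk'' w)) with hε
  have hεsmul : ∀ (g : Gal(L/ℚ)) w, g • ε w = ε (g • w) := by
    intro g w
    have hq : (Quotient.mk'' (g • w) : MulAction.orbitRel.Quotient Gal(L/ℚ) (InfinitePlace L))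
        = Quotient.mk'' w := Quotient.sound' ⟨g, rfl⟩
    have hγ' := hγ (g • w)
    rw [hq] at hγ'
    simp only [hε, hq, smul_smul]
    rw [show g * γ w = γ (g • w) * ((γ (g • w))⁻¹ * (g * γ w)) by group, mul_smul,
      smul_stabUnit]
    rw [mul_smul, mul_smul, hγ, inv_smul_eq_iff, hγ']
  let Φ : (InfinitePlace L → ℤ) →+ Additive (𝓞 L)ˣ :=
    AddMonoidHom.mk' (fun c => ∑ w, c w • ε w) fun c d => by
      simp only [Pi.add_apply, add_zsmul, Finset.sum_add_distrib]
  have hΦ : ∀ d c, Φ (permFun ℤ (infPerm ψ) d c) = unitsRep ψ d (Φ c) := by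
    intro d c
    show ∑ w, c (ψ d⁻¹ • w) • ε w = ψ d • ∑ w, c w • ε w
    rw [Finset.smul_sum, ← Equiv.sum_comp (MulAction.toPerm (ψ d))]
    refine Finset.sum_congr rfl fun w _ => ?_
    rw [MulAction.toPerm_apply, map_inv, inv_smul_smul, smul_zsmul_eq, hεsmul]
  set M : InfinitePlace L → InfinitePlace L → ℝ := fun w' w => logPlace w' (ε w)
  have hneg : ∀ w' w, w' ≠ w → M w' w < 0 := fun w' w h =>
    logPlace_stabUnit_neg (by rwa [hγ])
  have hsum : ∀ w, ∑ w', M w' w = 0 := fun w => sum_logPlace _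
  have hker : ∀ c, Φ c = 0 → ∀ w', ∑ w, (c w : ℝ) * M w' w = 0 := by
    intro c hc w'
    have := congrArg (logPlace w') hc
    simpa [Φ, M, map_sum, map_zsmul] using this
  have hpos : ∀ c, Φ c = 0 → ∀ x, 0 < c x → ∀ y, 0 < c y := fun c hc x hx y =>
    forall_pos_of_ker M hneg hsum c (hker c hc) hx y
  have hz : ∀ c, Φ c = 0 → ∀ x, c x = 0 → c = 0 := by
    intro c hc x hx
    funext y
    rcases lt_trichotomy (c y) 0 with h | h | h
    · have := hpos (-c) (by rw [map_neg, hc, neg_zero]) y (by simpa using h) x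
      simp only [Pi.neg_apply] at this
      omega
    · exact h
    · have := hpos c hc y h x
      omega
  have hfr : Module.finrank ℤ (InfinitePlace L → ℤ) = Fintype.card (InfinitePlace L) :=
    Module.finrank_fintype_fun_eq_card ℤ
  have hcard : 0 < Fintype.card (InfinitePlace L) := Fintype.card_pos
  let w₀ : InfinitePlace L := Classical.arbitrary _
  obtain ⟨c₀, hc₀, hc₀ne⟩ : ∃ c, Φ c = 0 ∧ c ≠ 0 := by
    by_contra h
    push Not at h
    have hinj : Function.Injective Φ.toIntLinearMap := (injective_iff_map_eq_zero _).2 h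
    have := LinearMap.finrank_le_finrank_of_injective hinj
    rw [hfr, Units.finrank_eq, Units.rank] at this
    omega
  let ev : Φ.ker →+ ℤ := (Pi.evalAddMonoidHom (fun _ => ℤ) w₀).comp Φ.ker.subtype
  have hev : Function.Injective ev := (injective_iff_map_eq_zero _).2 fun c hc =>
    Subtype.ext (hz c.1 c.2 w₀ hc)
  obtain ⟨a, ha⟩ := Int.subgroup_cyclic ev.range
  obtain ⟨c₁, hc₁⟩ : a ∈ ev.range := by rw [ha]; exact AddSubgroup.subset_closure rfl
  have hexact : ∀ c, Φ c = 0 ↔ ∃ m : ℤ, m • c₁.1 = c := by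
    refine fun c => ⟨fun hc => ?_, ?_⟩
    · have : ev ⟨c, hc⟩ ∈ AddSubgroup.closure {a} := ha ▸ ⟨_, rfl⟩
      obtain ⟨m, hm⟩ := AddSubgroup.mem_closure_singleton.1 this
      exact ⟨m, congrArg Subtype.val (hev (a₁ := m • c₁) (a₂ := ⟨c, hc⟩)
        (by rw [map_zsmul, hc₁, hm]))⟩
    · rintro ⟨m, rfl⟩
      rw [map_zsmul, show Φ c₁.1 = 0 from c₁.2, smul_zero]
  have hc1ne : c₁.1 ≠ 0 := fun h => by
    obtain ⟨m, hm⟩ := (hexact c₀).1 hc₀
    exact hc₀ne (by rw [← hm, h, smul_zero])
  let ι : ℤ →+ (InfinitePlace L → ℤ) := zmultiplesHom _ c₁.1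
  have hι : Function.Injective ι := by
    refine (injective_iff_map_eq_zero _).2 fun m hm => ?_
    have h : m * c₁.1 w₀ = 0 := congrFun hm w₀
    exact (mul_eq_zero.1 h).resolve_right fun h0 => hc1ne (hz _ c₁.2 w₀ h0)
  -- kernel vectors are invariant
  have hfix : ∀ d, permFun ℤ (infPerm ψ) d c₁.1 = c₁.1 := by
    intro d
    obtain ⟨m, hm⟩ := (hexact (permFun ℤ (infPerm ψ) d c₁.1)).1
      (by rw [hΦ, show Φ c₁.1 = 0 from c₁.2, map_zero])
    have h1 : ∑ w, permFun ℤ (infPerm ψ) d c₁.1 w = ∑ w, c₁.1 w :=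
      Equiv.sum_comp (infPerm ψ d⁻¹) c₁.1
    rw [← hm] at h1 ⊢
    simp only [Pi.smul_apply, smul_eq_mul, ← Finset.mul_sum] at h1
    have hne : ∑ w, c₁.1 w ≠ 0 := by
      rcases lt_trichotomy (c₁.1 w₀) 0 with h | h | h
      · refine (Finset.sum_neg (fun y _ => ?_) Finset.univ_nonempty).ne
        have := hpos (-c₁.1) (by rw [map_neg, show Φ c₁.1 = 0 from c₁.2, neg_zero]) w₀
          (by simpa using h) y
        simpa using this
      · exact absurd (hz _ c₁.2 w₀ h) hc1ne
      · exact (Finset.sum_pos (fun y _ => hpos _ c₁.2 w₀ h y) Finset.univ_nonempty).ne'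
    rw [mul_left_eq_self₀.1 h1 |>.resolve_right hne, one_smul]
  -- finite cokernel
  haveI hfin : Finite (Additive (𝓞 L)ˣ ⧸ Φ.range) := by
    have hkr : Module.finrank ℤ (LinearMap.ker Φ.toIntLinearMap) = 1 := by
      have e : ℤ ≃ₗ[ℤ] LinearMap.ker Φ.toIntLinearMap :=
        LinearEquiv.ofBijective (ι.toIntLinearMap.codRestrict _ fun m => (hexact _).2 ⟨m, rfl⟩)
          ⟨fun x y h => hι (congrArg Subtype.val h), fun c => by
            obtain ⟨m, hm⟩ := (hexact c.1).1 c.2
            exact ⟨m, Subtype.ext hm⟩⟩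
      rw [← e.finrank_eq, Module.finrank_self]
    have h1 := Submodule.finrank_quotient_add_finrank (LinearMap.ker Φ.toIntLinearMap)
    rw [hkr, Φ.toIntLinearMap.quotKerEquivRange.finrank_eq, hfr] at h1
    have h2 := Submodule.finrank_quotient_add_finrank Φ.toIntLinearMap.range
    rw [Units.finrank_eq, Units.rank] at h2
    have h0 : Module.finrank ℤ (Additive (𝓞 L)ˣ ⧸ Φ.toIntLinearMap.range) = 0 := by omega
    exact Module.finite_of_fg_torsion (Additive (𝓞 L)ˣ ⧸ Φ.toIntLinearMap.range)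
      (Module.finrank_eq_zero_iff_isTorsion.1 h0)
  have hstab : ∀ d u, u ∈ Φ.range → unitsRep ψ d u ∈ Φ.range := by
    rintro d _ ⟨c, rfl⟩
    exact ⟨_, hΦ d c⟩
  -- assemble
  have hA := phiFrac_of_phiIs ν (phiIs_int ν hD)
  have hB := phiFrac_of_phiIs ν (phiIs_perm ν hD (infPerm ψ))
  obtain ⟨f1, f2⟩ := finite_eHom_fg ν (subRep (unitsRep ψ) Φ.range hstab)
  have hC := phiFrac_right ν (trivOn ℤ) (permFun ℤ (infPerm ψ))
    (subRep (unitsRep ψ) Φ.range hstab) ι Φ.rangeRestrict hD
    (fun d m => by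
      show m • c₁.1 = permFun ℤ (infPerm ψ) d (m • c₁.1)
      rw [map_zsmul, hfix])
    (fun d c => Subtype.ext (hΦ d c)) hι Φ.rangeRestrict_surjective
    (fun c => by
      rw [Subtype.ext_iff]
      exact hexact c)
    hA hB f1 f2
  rw [mul_one, mul_one] at hC
  exact phiFrac_finite_quot ν (subRep (unitsRep ψ) Φ.range hstab) (unitsRep ψ)
    (quotRep (unitsRep ψ) Φ.range hstab) Φ.range.subtype (QuotientAddGroup.mk' Φ.range) hD
    (fun d a => rfl) (fun d b => rfl) Subtype.val_injective QuotientAddGroup.mk_surjective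
    (fun b => ⟨fun h => ⟨⟨b, (QuotientAddGroup.eq_zero_iff b).1 h⟩, rfl⟩,
      fun ⟨a, h⟩ => h ▸ (QuotientAddGroup.eq_zero_iff _).2 a.2⟩) hC

/-- The `S`-units and the trivial module against the infinite places and the places in `T`. -/
theorem phiIs_sUnits (hD : ¬ p ∣ Fintype.card D) (T : Finset (HeightOneSpectrum (𝓞 L)))
    (hT : ∀ (g : Gal(L/ℚ)) v, g • v ∈ T ↔ v ∈ T) (ρF : Representation ℤ D (Additive Lˣ))
    (hρF : ∀ d a, ((ρF d a).toMul : L) = ψ d (a.toMul : L))
    (hE : ∀ d a, a ∈ (divOff T).ker → ρF d a ∈ (divOff T).ker) :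
    PhiFrac ν (subRep ρF (divOff T).ker hE)
      (Nat.card (eHom ν (permFun (ZMod p) (infPerm ψ))) *
        Nat.card (eHom ν (permFun (ZMod p) (finPerm ψ T hT))))
      (Nat.card (eHom ν (trivOn (ZMod p)))) := by
  classical
  -- valuations at the places in `T`
  let sv : (divOff T).ker →+ (T → ℤ) := AddMonoidHom.mk' (fun a v => ordP v.1 a.1.toMul)
    fun a b => funext fun v => ordP_mul v.1 _ _
  have hsv : ∀ d a, sv (subRep ρF (divOff T).ker hE d a) =
      permFun ℤ (finPerm ψ T hT) d (sv a) := fun d a => funext fun v => by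
    show ordP v.1 (ρF d a.1).toMul = ordP (ψ d⁻¹ • v.1) a.1.toMul
    have h := valuation_apply_eq (ψ d) v.1 ((a.1.toMul : Lˣ) : L)
    rw [← hρF, valuation_eq_exp_ordP, valuation_eq_exp_ordP] at h
    have := WithZero.exp_injective h
    rw [map_inv]
    omega
  let emb : Additive (𝓞 L)ˣ →+ (divOff T).ker :=
    (MonoidHom.toAdditive (Units.map (algebraMap (𝓞 L) L : 𝓞 L →* L))).codRestrict _ fun u =>
      Finsupp.ext fun v => by
        rw [divOff_apply]
        refine (ordP_eq_zero_iff _ _).2 ?_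
        rw [← HeightOneSpectrum.valuationOfNeZero_eq]
        exact congrArg _ (v.1.valuation_of_unit_eq (K := L) u.toMul)
  have hemb : Function.Injective emb := fun u u' h => Additive.toMul.injective
    (Units.ext (FaithfulSMul.algebraMap_injective (𝓞 L) L
      (congrArg (fun x : (divOff T).ker => ((x.1.toMul : Lˣ) : L)) h)))
  have hemb' : ∀ d u, emb (unitsRep ψ d u) = subRep ρF (divOff T).ker hE d (emb u) := fun d u =>
    Subtype.ext (Additive.toMul.injective (Units.ext (hρF d (emb u).1).symm))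
  have hstab : ∀ d c, c ∈ sv.range → permFun ℤ (finPerm ψ T hT) d c ∈ sv.range := by
    rintro d _ ⟨a, rfl⟩
    exact ⟨_, hsv d a⟩
  -- the range has finite index
  haveI hfin : Finite ((T → ℤ) ⧸ sv.range) := by
    choose x k hk hx hxv using supm_exists_supported (K := L)
    have hmem : ∀ v : T, (Pi.single v (k v.1 : ℤ) : T → ℤ) ∈ sv.range := fun v => by
      refine ⟨⟨Additive.ofMul (x v.1), Finsupp.ext fun w => ?_⟩, funext fun w => ?_⟩
      · rw [divOff_apply]
        exact (ordP_eq_zero_iff _ _).2 (hx v.1 w.1 fun h => w.2 (h ▸ v.2))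
      · show ordP w.1 (x v.1) = _
        by_cases h : w = v
        · subst h
          rw [Pi.single_eq_same]
          have e := valuation_eq_exp_ordP w.1 (x w.1)
          rw [← HeightOneSpectrum.valuationOfNeZero_eq] at e
          have e2 : Multiplicative.toAdd (w.1.valuationOfNeZero (x w.1)) = -ordP w.1 (x w.1) :=
            congrArg Multiplicative.toAdd (WithZero.coe_injective e)
          rw [hxv] at e2
          omega
        · rw [Pi.single_eq_of_ne h]
          exact (ordP_eq_zero_iff _ _).2 (hx v.1 w.1 fun e => h (Subtype.ext e))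
    refine @Module.finite_of_fg_torsion _ _ _ (inferInstanceAs
      (Module.Finite ℤ (_ ⧸ sv.toIntLinearMap.range))) ?_
    intro c
    refine ⟨⟨(∏ v : T, (k v.1 : ℤ)), mem_nonZeroDivisors_of_ne_zero
      (Finset.prod_ne_zero_iff.2 fun v _ => by have := hk v.1; omega)⟩, ?_⟩
    obtain ⟨c, rfl⟩ := QuotientAddGroup.mk_surjective c
    refine (QuotientAddGroup.eq_zero_iff ((∏ v : T, (k v.1 : ℤ)) • c)).2 ?_
    rw [show (∏ v : T, (k v.1 : ℤ)) • c =
        ∑ v : T, ((∏ w ∈ Finset.univ.erase v, (k w.1 : ℤ)) * c v) •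
          (Pi.single v (k v.1 : ℤ) : T → ℤ) from funext fun w => by
      rw [Finset.sum_apply, Finset.sum_eq_single w (fun v _ hv => by simp [Ne.symm hv])
        (fun h => absurd (Finset.mem_univ w) h)]
      simp only [Pi.smul_apply, smul_eq_mul, Pi.single_eq_same]
      rw [← Finset.prod_erase_mul _ _ (Finset.mem_univ w)]
      ring]
    exact AddSubgroup.sum_mem _ fun v _ => AddSubgroup.zsmul_mem _ (hmem v) _
  have hR : PhiFrac ν (subRep (permFun ℤ (finPerm ψ T hT)) sv.range hstab)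
      (Nat.card (eHom ν (permFun (ZMod p) (finPerm ψ T hT)))) 1 :=
    phiFrac_of_phiIs ν ((PhiIs.sub_iff ν _ hD sv.range hstab _).2
      (phiIs_perm ν hD (finPerm ψ T hT)))
  have h := phiFrac_middle ν (unitsRep ψ) (subRep ρF (divOff T).ker hE)
    (subRep (permFun ℤ (finPerm ψ T hT)) sv.range hstab) emb sv.rangeRestrict hD hemb'
    (fun d a => Subtype.ext (hsv d a)) hemb sv.rangeRestrict_surjective
    (fun a => by
      rw [Subtype.ext_iff]
      constructor
      · intro ha
        obtain ⟨u, hu⟩ := supm_exists_unit (x := a.1.toMul) fun v => (ordP_eq_zero_iff v _).1 (by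
          by_cases hv : v ∈ T
          · exact congrFun ha ⟨v, hv⟩
          · exact DFunLike.congr_fun a.2 ⟨v, hv⟩)
        exact ⟨Additive.ofMul u, Subtype.ext (Additive.toMul.injective hu)⟩
      · rintro ⟨u, rfl⟩
        refine funext fun v => (ordP_eq_zero_iff _ _).2 ?_
        rw [← HeightOneSpectrum.valuationOfNeZero_eq]
        exact congrArg _ (v.1.valuation_of_unit_eq (K := L) u.toMul))
    (phiIs_units ν ψ hD) hR
  rwa [mul_one] at h

end Fermat.Agent.CFT.EulerChar
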