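import Fermat.Agent.CFT.EulerChar.Bridge
import Fermat.Agent.CFT.EulerChar.GalAction
import Fermat.Agent.CFT.EulerChar.Units
import Fermat.Agent.CFT.EulerChar.Arch
import Fermat.Agent.CFT.EulerChar.SClassBounds
import Fermat.Agent.CFT.Sha.Counting
import Fermat.Agent.CFT.Sha.Pairs

/-!
# Infinite places, places in `S` and roots of unity for `funRep μ_p V`
-/

set_option autoImplicit false
set_option linter.style.haveILetI false

open CategoryTheory groupCohomology ExtCitation Module NumberField IsDedekindDomain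

noncomputable section

namespace Fermat.Agent.CFT.EulerChar

open EquivariantCount

variable {p : ℕ} [Fact p.Prime] {V U : Subgroup GQ} [V.Normal]

/-- `U/V` acting on the fixed field of `V`. -/
abbrev levelGal (V U : Subgroup GQ) [V.Normal] : levelGrp V U →* Gal(lvlFld V/ℚ) :=
  (galQ V).comp (levelGrp V U).subtype

lemma map_eq_of_level (hV : IsLevelSubgroup Levels.all (MonoidHom.id GQ) V) {g h : GQ}
    (e : ∀ a : lvlFld V, g a = h a) : (g : GQ ⧸ V) = h := by
  rw [QuotientGroup.eq, ← fixingSubgroup_fixedField_of_level hV,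
    IntermediateField.mem_fixingSubgroup_iff]
  intro a ha
  rw [AlgEquiv.mul_apply, ← e ⟨a, ha⟩, ← AlgEquiv.mul_apply, inv_mul_cancel, AlgEquiv.one_apply]

section infinite

variable [NumberField (lvlFld V)]

/-- The complex embedding of `x ∈ Γ/V`. -/
def levelEmb (x : GQ ⧸ V) : lvlFld V →+* ℂ :=
  (complexEmbedding.toRingHom.comp (lvlFld V).val.toRingHom).comp
    (galQ V x).toAlgHom.toRingHom

omit [NumberField (lvlFld V)] in
lemma levelEmb_mk (g : GQ) (a : lvlFld V) :
    levelEmb (g : GQ ⧸ V) a = complexEmbedding (g a) := rfl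

lemma levelEmb_bijective (hV : IsLevelSubgroup Levels.all (MonoidHom.id GQ) V) :
    Function.Bijective (levelEmb (V := V)) := by
  haveI : Finite (GQ ⧸ V) := hV.finite_quotient
  haveI : Fintype (GQ ⧸ V) := Fintype.ofFinite _
  refine (Fintype.bijective_iff_injective_and_card _).2 ⟨fun x y h => ?_, ?_⟩
  · induction x using QuotientGroup.induction_on with
    | _ g =>
      induction y using QuotientGroup.induction_on with
      | _ g' =>
        exact map_eq_of_level hV fun a => complexEmbedding.injective (RingHom.congr_fun h a)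
  · rw [NumberField.Embeddings.card, finrank_fixedField hV, ← Nat.card_eq_fintype_card]
    rfl

omit [NumberField (lvlFld V)] in
lemma levelEmb_conj (x : GQ ⧸ V) :
    levelEmb ((complexConjugation : GQ ⧸ V) * x) =
      ComplexEmbedding.conjugate (levelEmb x) := by
  induction x using QuotientGroup.induction_on with
  | _ g =>
    refine RingHom.ext fun a => ?_
    rw [ComplexEmbedding.conjugate_coe_eq, ← QuotientGroup.mk_mul, levelEmb_mk, levelEmb_mk,
      AlgEquiv.mul_apply, complexEmbedding_complexConjugation]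

/-- The infinite place of `x ∈ Γ/V`. -/
def levelPlace (x : GQ ⧸ V) : InfinitePlace (lvlFld V) := InfinitePlace.mk (levelEmb x)

omit [NumberField (lvlFld V)] in
lemma levelPlace_mul (x y : GQ ⧸ V) :
    levelPlace (x * y) = (galQ V y)⁻¹ • levelPlace x := by
  rw [levelPlace, levelPlace, InfinitePlace.smul_mk]
  congr 1
  refine RingHom.ext fun a => ?_
  show complexEmbedding (galQ V (x * y) a : AlgebraicClosure ℚ) = _
  rw [map_mul]
  rfl

variable (U)

/-- The invariants at infinity and the infinite places make up `funRep μ_p V`. -/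
theorem eDim_rightOp (hV : IsLevelSubgroup Levels.all (MonoidHom.id GQ) V) (hp2 : p ≠ 2)
    [Fintype (levelGrp V U)] {A : Type} [AddCommGroup A] [Module (ZMod p) A]
    [FiniteDimensional (ZMod p) A] (ν : Representation (ZMod p) (levelGrp V U) A)
    (hD : (Fintype.card (levelGrp V U) : ZMod p) ≠ 0) :
    p ^ eDim ν (rightOp (p := p) V U) =
      p ^ eDim ν (invOp (Rep.res archimedeanLoc (funRep (muRep p) V)) (rightOp V U)
          (fun d g f => rightOp_comm V U d (archimedeanLoc g) f)) *
        Nat.card (eHom ν (permFun (ZMod p) (infPerm (levelGal V U)))) := by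
  haveI : Finite (GQ ⧸ V) := hV.finite_quotient
  haveI := finiteDimensional_funRep (p := p) hV
  set c : GQ ⧸ V := (complexConjugation : GQ ⧸ V) with hc
  have hcc : ∀ x, c * (c * x) = x := fun x => by
    rw [← mul_assoc, hc, ← QuotientGroup.mk_mul, complexConjugation_mul_self, QuotientGroup.mk_one,
      one_mul]
  have h2 : (2 : ZMod p) ≠ 0 := fun h => hp2 ((Nat.prime_dvd_prime_iff_eq (Fact.out : p.Prime)
    Nat.prime_two).1 ((CharP.cast_eq_zero_iff (ZMod p) p 2).1 (by exact_mod_cast h)))
  have hfib : ∀ x y, levelPlace (V := V) x = levelPlace y → y = x ∨ y = c * x := fun x y h => by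
    rcases InfinitePlace.mk_eq_iff.1 h with h | h
    · exact Or.inl ((levelEmb_bijective hV).1 h).symm
    · rw [← levelEmb_conj] at h
      exact Or.inr ((levelEmb_bijective hV).1 h).symm
  have hsurj : Function.Surjective (levelPlace (V := V)) := fun w => by
    obtain ⟨x, hx⟩ := (levelEmb_bijective hV).2 w.embedding
    exact ⟨x, by rw [levelPlace, hx, InfinitePlace.mk_embedding]⟩
  choose sec hsec using hsurj
  let Φ : funRep (muRep p) V →ₗ[ZMod p] (InfinitePlace (lvlFld V) → ZMod p) :=
    { toFun := fun f w => (f (sec w) : ZMod p) + f (c * sec w)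
      map_add' := fun f g => funext fun w => by
        exact add_add_add_comm _ _ _ _
      map_smul' := fun t f => funext fun w => by
        show t * (f (sec w) : ZMod p) + t * f (c * sec w) = t * _
        ring }
  have hΦ : ∀ f x, Φ f (levelPlace x) = (f x : ZMod p) + f (c * x) := fun f x => by
    show (f (sec _) : ZMod p) + f (c * sec _) = _
    obtain ⟨y, hy⟩ : ∃ y, y = sec (levelPlace (V := V) x) := ⟨_, rfl⟩
    rw [← hy]
    rcases hfib y x (hy ▸ hsec (levelPlace x)) with h | h
    · rw [h]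
    · rw [h, hcc, add_comm]
  let ω : Representation (ZMod p) (levelGrp V U) (InfinitePlace (lvlFld V) → ZMod p) :=
    { toFun := fun d => LinearMap.funLeft (ZMod p) (ZMod p) ⇑(infPerm (levelGal V U) d⁻¹)
      map_one' := LinearMap.ext fun f => congrFun
        (congrArg DFunLike.coe ((permFun (ZMod p) (infPerm (levelGal V U))).map_one)) f
      map_mul' := fun d e => LinearMap.ext fun f => congrFun
        (congrArg DFunLike.coe ((permFun (ZMod p) (infPerm (levelGal V U))).map_mul d e)) f }
  have hω : intRep ω = permFun (ZMod p) (infPerm (levelGal V U)) := rfl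
  have hΦe : ∀ d f, Φ (rightOp V U d f) = ω d (Φ f) := fun d f => funext fun w => by
    obtain ⟨x, rfl⟩ : ∃ x, levelPlace x = w := ⟨_, hsec w⟩
    show _ = Φ f (infPerm (levelGal V U) d⁻¹ (levelPlace x))
    rw [hΦ, rightOp_apply, rightOp_apply, mul_assoc]
    have e : infPerm (levelGal V U) d⁻¹ (levelPlace x) = levelPlace (x * d.1) := by
      rw [levelPlace_mul, ← map_inv]
      rfl
    rw [e, hΦ]
  have hΦs : Function.Surjective Φ := fun F => ⟨fun x => (2 : ZMod p)⁻¹ * F (levelPlace x),
    funext fun w => by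
      show (2 : ZMod p)⁻¹ * F (levelPlace (sec w)) + (2 : ZMod p)⁻¹ * F (levelPlace (c * sec w)) = _
      have e : levelPlace (c * sec w) = levelPlace (sec w) := by
        rw [levelPlace, levelPlace, hc, levelEmb_conj, InfinitePlace.mk_conjugate_eq]
      rw [e, hsec, ← two_mul, ← mul_assoc, mul_inv_cancel₀ h2, one_mul]⟩
  have hker : Function.Exact
      (Rep.res archimedeanLoc (funRep (muRep p) V)).ρ.invariants.subtype Φ := fun f => by
    constructor
    · intro hf
      refine ⟨⟨f, fun γ => ?_⟩, rfl⟩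
      have hsum : ∀ x, (f x : ZMod p) + f (c * x) = 0 := fun x => by
        rw [← hΦ]
        exact congrFun hf _
      obtain ⟨n, hn⟩ := γ.2
      have h1 : (funRep (muRep p) V).ρ complexConjugation f = f := funext fun x => by
        rw [funRep_ρ_apply, muRep_apply, Euler.cycloChar_complexConjugation,
          complexConjugation_inv, smul_eq_mk_mul, neg_one_mul]
        exact neg_eq_of_add_eq_zero_left (hsum x)
      show (funRep (muRep p) V).ρ γ.1 f = f
      rw [← hn]
      have hstab : ∀ (m : ℤ), (funRep (muRep p) V).ρ (complexConjugation ^ m) f = f := fun m => by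
        rcases Int.even_or_odd m with ⟨j, rfl⟩ | ⟨j, rfl⟩
        · rw [← two_mul, zpow_mul, zpow_two, complexConjugation_mul_self, one_zpow, map_one]
          rfl
        · rw [zpow_add, zpow_one, zpow_mul, zpow_two, complexConjugation_mul_self, one_zpow,
            one_mul, h1]
      exact hstab n
    · rintro ⟨f, rfl⟩
      funext w
      show (f.1 (sec w) : ZMod p) + f.1 (c * sec w) = 0
      have h := congrFun (f.2 archimedeanGen) (sec w)
      change (funRep (muRep p) V).ρ complexConjugation f.1 (sec w) = _ at h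
      rw [funRep_ρ_apply, muRep_apply, Euler.cycloChar_complexConjugation,
        complexConjugation_inv, smul_eq_mk_mul, neg_one_mul] at h
      rw [← h, hc]
      exact neg_add_cancel _
  rw [← hω, card_eHom_intRep, ← pow_add]
  congr 1
  exact eDim_add ν (rightOp V U) ω hD (invOp (Rep.res archimedeanLoc (funRep (muRep p) V))
      (rightOp V U) (fun d g f => rightOp_comm V U d (archimedeanLoc g) f))
    (Rep.res archimedeanLoc (funRep (muRep p) V)).ρ.invariants.subtype (fun d f => rfl) Φ hΦe
    Subtype.val_injective hΦs hker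

end infinite

section finite

variable [NumberField (lvlFld V)]

/-- Translation is adjoint to the inverse translation. -/
lemma funPair_rightOp [Fintype (GQ ⧸ V)] {A₀ : Rep.{0} (ZMod p) GQ}
    (P : DualPair p (cycloChar p) A₀ (muRep p)) (d : levelGrp V U) (h : funRep A₀ V)
    (f : funRep (muRep p) V) :
    (Sha.funPair P V).β h (rightOp V U d f) =
      (Sha.funPair P V).β (fun x => h (x * d.1⁻¹)) f := by
  rw [Sha.funPair_apply, Sha.funPair_apply]
  refine Fintype.sum_equiv (Equiv.mulRight d.1) _ _ fun x => ?_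
  rw [Equiv.coe_mulRight, rightOp_apply, mul_inv_cancel_right]

variable (S : Finset Nat.Primes)

variable (U) in
set_option maxHeartbeats 800000 in
/-- `H²` is bounded by `Ш²` and the places over `S`, less the trivial module. -/
theorem eDim_h2Op_le (hV : IsLevelSubgroup (Levels.unr S) (MonoidHom.id GQ) V) (hp2 : p ≠ 2)
    (hpS : pPrime p ∈ S)
    [Fintype (levelGrp V U)] {A : Type} [AddCommGroup A] [Module (ZMod p) A]
    [FiniteDimensional (ZMod p) A] (ν : Representation (ZMod p) (levelGrp V U) A)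
    (hD : (Fintype.card (levelGrp V U) : ZMod p) ≠ 0) :
    p ^ eDim ν (h2Op (Levels.unr S) (MonoidHom.id GQ) (funRep (muRep p) V) (rightOp V U)
        (rightOp_comm V U)) * Nat.card (eHom ν (trivOn (ZMod p))) ≤
      p ^ eDim ν (sha2Op (V := V) (U := U) (p := p) S) *
        Nat.card (eHom ν (permFun (ZMod p) (finPerm (levelGal V U) (placesOver S (lvlFld V))
          (fun g _ => smul_mem_placesOver V S g)))) := by
  classical
  haveI : Finite (GQ ⧸ V) := hV.finite_quotient
  haveI : Fintype (GQ ⧸ V) := Fintype.ofFinite _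
  have hfix := fixingSubgroup_fixedField_of_level hV.to_all
  have hL := Levels.hasNormal_unr S
  have hμ := isSmoothRep_muRep_of_unr (p := p) hpS
  let A₀ : Rep.{0} (ZMod p) GQ := ofChar (k := ZMod p) 1
  let P₀ : DualPair p (cycloChar p) A₀ (muRep p) :=
    { β := (LinearMap.mul (ZMod p) (ZMod p) : ZMod p →ₗ[ZMod p] ZMod p →ₗ[ZMod p] ZMod p)
      equivariant := fun g a m => by
        show ((1 : ZMod p) * a) * ((cycloChar p g : ZMod p) * m) = _ * (a * m)
        ring
      left := fun a h => by simpa using h 1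
      right := fun m h => by simpa using h 1 }
  have hA₀ : IsSmoothRep (Levels.unr S) (MonoidHom.id GQ) A₀ := fun a =>
    ⟨⊥, (Levels.unr S).bot, fun _ _ => by show (1 : ZMod p) * a = a; rw [one_mul]⟩
  have hsX := isSmoothRep_funRep hL hV hμ
  have hsA := isSmoothRep_funRep hL hV hA₀
  haveI := Sha.finiteDimensional_funRep (muRep p) V
  haveI := Sha.finiteDimensional_funRep A₀ V
  haveI := finite_H2c_unr hp2 S hpS _ hsX
  set T := placesOver S (lvlFld V) with hTdef
  let prime : ∀ (q : ↥S), GQ ⧸ V → ↥T := fun q x =>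
    ⟨primeAt (lvlFld V) q.1 (Quotient.out x), mem_placesOver.2
      ⟨q.1, q.2, natCast_mem_primeUnder _ _ _⟩⟩
  have hprime : ∀ (q : ↥S) (g : GQ), (prime q (g : GQ ⧸ V) : HeightOneSpectrum _) =
      primeAt (lvlFld V) q.1 g := fun q g => by
    obtain ⟨u, hu⟩ := QuotientGroup.mk_out_eq_mul V g
    exact ((primeAt_eq_iff hfix).2 ⟨rfl, 1, u, u.2, by rw [map_one, one_mul]; exact hu⟩).symm
  have hprime_smul : ∀ (q : ↥S) (τ : primeLocalGaloisGroup q.1) (x : GQ ⧸ V),
      prime q (primeLocalToGlobal q.1 τ • x) = prime q x := fun q τ x => by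
    induction x using QuotientGroup.induction_on with
    | _ g =>
      refine Subtype.ext ?_
      rw [MulAction.Quotient.smul_mk, hprime, hprime]
      exact ((primeAt_eq_iff hfix).2 ⟨rfl, τ, 1, one_mem _, by rw [mul_one]; rfl⟩).symm
  have hprime_mul : ∀ (q : ↥S) (x y : GQ ⧸ V),
      (prime q (x * y) : HeightOneSpectrum _) = (galQ V y)⁻¹ • (prime q x).1 := fun q x y => by
    induction x using QuotientGroup.induction_on with
    | _ g =>
      induction y using QuotientGroup.induction_on with
      | _ h =>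
        rw [← QuotientGroup.mk_mul, hprime, hprime]
        refine HeightOneSpectrum.ext (SetLike.ext fun a => ?_)
        rw [mem_placeAct_iff, inv_inv]
        show galNorm q.1 (g * h) _ < 1 ↔ galNorm q.1 g _ < 1
        rfl
  let J : (↥T → ZMod p) →ₗ[ZMod p] Sha.Inv0 S (funRep A₀ V) :=
    { toFun := fun F q => ⟨fun x => F (prime q x), fun τ => funext fun x => by
        show (1 : ZMod p) * F (prime q ((primeLocalToGlobal q.1 τ)⁻¹ • x)) = F (prime q x)
        rw [one_mul, ← map_inv, hprime_smul]⟩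
      map_add' := fun F G => funext fun q => Subtype.ext rfl
      map_smul' := fun t F => funext fun q => Subtype.ext rfl }
  have hJ : Function.Surjective J := fun a => by
    choose qv gv hgv using fun v : ↥T => exists_primeAt_eq (lvlFld V) v.1
    have hqv : ∀ v, qv v ∈ S := fun v => by
      obtain ⟨q, hq, hqv⟩ := mem_placesOver.1 v.2
      rw [← hgv v] at hqv
      rwa [natPrimes_eq_of_mem (primeUnder_isPrime _ _ (gv v)).ne_top
        (natCast_mem_primeUnder _ (qv v) (gv v)) hqv]
    refine ⟨fun v => ((a ⟨qv v, hqv v⟩).1 (gv v : GQ ⧸ V) : ZMod p), funext fun q =>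
      Subtype.ext (funext fun x => ?_)⟩
    induction x using QuotientGroup.induction_on with
    | _ g =>
      show ((a ⟨qv (prime q g), hqv _⟩).1 (gv (prime q g) : GQ ⧸ V) : ZMod p) = (a q).1 g
      obtain ⟨hq, τ, u, hu, hg⟩ := (primeAt_eq_iff hfix).1
        ((hgv (prime q g)).trans (hprime q g))
      have key : ∀ (q₀ : Nat.Primes) (h₀ : q₀ ∈ S) (g₀ : GQ) (τ : primeLocalGaloisGroup q₀),
          q₀ = q.1 → g = primeLocalToGlobal q₀ τ * g₀ * u →
            ((a ⟨q₀, h₀⟩).1 (g₀ : GQ ⧸ V) : ZMod p) = (a q).1 (g : GQ ⧸ V) := by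
        rintro q₀ h₀ g₀ τ rfl hτ
        have h := congrFun ((a q).2 τ) (g : GQ ⧸ V)
        change (1 : ZMod p) *
          ((a q).1 ((primeLocalToGlobal q.1 τ)⁻¹ • (g : GQ ⧸ V)) : ZMod p) = _ at h
        rw [one_mul] at h
        refine Eq.trans ?_ h
        rw [MulAction.Quotient.smul_mk, smul_eq_mul, hτ]
        refine congrArg (a q).1 (QuotientGroup.eq.2 ?_)
        simpa [mul_assoc] using hu
      exact key _ _ _ τ hq hg
  let Ψ : Sha.G2 S (funRep (muRep p) V) →ₗ[ZMod p] (↥T → ZMod p) :=
    LinearMap.pi fun v => (Dual.eval (ZMod p) _ (J (Pi.single v 1))).comp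
      (Sha.thetaTot (Sha.funPair P₀ V))
  have hΨ : ∀ x v, Ψ x v = Sha.thetaTot (Sha.funPair P₀ V) x (J (Pi.single v 1)) := fun _ _ => rfl
  have hsum : ∀ x, ∑ v, Ψ x v = 0 := fun x => by
    simp only [hΨ]
    rw [← map_sum, ← map_sum, Finset.univ_sum_single]
    have h : J (fun _ => (1 : ZMod p)) = Sha.diag0 S (funRep A₀ V)
        ⟨fun _ => (1 : ZMod p), fun g => funext fun x => by
          show (1 : ZMod p) * 1 = 1
          rw [one_mul]⟩ := funext fun q => Subtype.ext rfl
    rw [h]
    exact Sha.thetaTot_diag0 hp2 hpS _ x _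
  have hker : LinearMap.ker Ψ ≤ LinearMap.range (Sha.Sha2 S (funRep (muRep p) V)).subtype := by
    intro x hx
    refine ⟨⟨x, ?_⟩, rfl⟩
    rw [← Sha.ker_thetaTot hp2 hsA hsX (Sha.funPair P₀ V), LinearMap.mem_ker]
    refine LinearMap.ext fun a => ?_
    obtain ⟨F, rfl⟩ := hJ a
    rw [show F = ∑ v, F v • Pi.single v (1 : ZMod p) from (pi_eq_sum_univ' F), map_sum, map_sum,
      LinearMap.zero_apply]
    refine Finset.sum_eq_zero fun v _ => ?_
    rw [map_smul, map_smul, ← hΨ, show Ψ x = 0 from hx, Pi.zero_apply, smul_zero]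
  let σ := finPerm (levelGal V U) T (fun g _ => smul_mem_placesOver V S g)
  let ω : Representation (ZMod p) (levelGrp V U) (↥T → ZMod p) :=
    { toFun := fun d => LinearMap.funLeft (ZMod p) (ZMod p) ⇑(σ d⁻¹)
      map_one' := LinearMap.ext fun f => congrFun
        (congrArg DFunLike.coe ((permFun (ZMod p) σ).map_one)) f
      map_mul' := fun d e => LinearMap.ext fun f => congrFun
        (congrArg DFunLike.coe ((permFun (ZMod p) σ).map_mul d e)) f }
  have hω : intRep ω = permFun (ZMod p) σ := rfl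
  have hΨe : ∀ d x, Ψ (h2Op (Levels.unr S) (MonoidHom.id GQ) (funRep (muRep p) V) (rightOp V U)
      (rightOp_comm V U) d x) = ω d (Ψ x) := fun d x => funext fun v => by
    show Ψ _ v = Ψ x (σ d⁻¹ v)
    rw [hΨ, hΨ, Sha.thetaTot_apply, Sha.thetaTot_apply]
    refine Finset.sum_congr rfl fun q _ => ?_
    obtain ⟨C, rfl⟩ := Submodule.mkQ_surjective _ x
    refine congrArg (invLoc p q.1) (congrArg (H2cπ _ _ _) (Subtype.ext (funext fun g => ?_)))
    show (Sha.funPair P₀ V).β (fun y => (Pi.single v (1 : ZMod p) : ↥T → ZMod p) (prime q y))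
        (rightOp V U d (C.1 _)) =
      (Sha.funPair P₀ V).β (fun y => (Pi.single (σ d⁻¹ v) (1 : ZMod p) : ↥T → ZMod p) (prime q y))
        (C.1 _)
    rw [funPair_rightOp]
    congr 2
    funext y
    have e : prime q (y * d.1⁻¹) = σ d (prime q y) := Subtype.ext (by
      rw [hprime_mul, map_inv, inv_inv]
      rfl)
    rw [e, map_inv, Pi.single_apply, Pi.single_apply]
    refine if_congr ?_ rfl rfl
    rw [Equiv.Perm.eq_inv_iff_eq]
  -- the vectors of sum zero
  let sumT : (↥T → ZMod p) →ₗ[ZMod p] ZMod p := ∑ v, LinearMap.proj v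
  have hsumT : ∀ F, sumT F = ∑ v, F v := fun F => by simp [sumT, LinearMap.sum_apply]
  let K₀ := LinearMap.ker sumT
  have hK₀ : ∀ d, ∀ F ∈ K₀, ω d F ∈ K₀ := fun d F hF => by
    rw [LinearMap.mem_ker, hsumT] at hF ⊢
    exact (Equiv.sum_comp (σ d⁻¹) F).trans hF
  let ω₀ : Representation (ZMod p) (levelGrp V U) K₀ :=
    Subrepresentation.toRepresentation (ρ := ω) ⟨K₀, fun d F hF => hK₀ d F hF⟩
  have hT0 : ∃ v : ↥T, True := ⟨prime ⟨pPrime p, hpS⟩ 1, trivial⟩
  obtain ⟨v₀, -⟩ := hT0
  have hsplit : eDim ν ω = eDim ν ω₀ + eDim ν (Representation.trivial (ZMod p) (levelGrp V U) (ZMod p)) :=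
    eDim_add ν ω _ hD ω₀ K₀.subtype (fun d F => rfl) sumT
      (fun d F => by
        rw [hsumT, hsumT]
        exact Equiv.sum_comp (σ d⁻¹) F)
      Subtype.val_injective
      (fun t => ⟨Pi.single v₀ t, by rw [hsumT, Fintype.sum_pi_single']⟩)
      (fun F => ⟨fun h => ⟨⟨F, h⟩, rfl⟩, fun ⟨F', h⟩ => h ▸ F'.2⟩)
  let Ψ₀ : Sha.G2 S (funRep (muRep p) V) →ₗ[ZMod p] K₀ :=
    Ψ.codRestrict K₀ fun x => LinearMap.mem_ker.2 ((hsumT _).trans (hsum x))
  have h2 := eDim_le_add ν (h2Op (Levels.unr S) (MonoidHom.id GQ) (funRep (muRep p) V)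
      (rightOp V U) (rightOp_comm V U)) ω₀ (sha2Op (V := V) (U := U) (p := p) S)
    (Sha.Sha2 S (funRep (muRep p) V)).subtype (fun d x => rfl) Ψ₀
    (fun d x => Subtype.ext (hΨe d x)) Subtype.val_injective
    (fun x hx => hker (LinearMap.mem_ker.2 (congrArg Subtype.val (LinearMap.mem_ker.1 hx))))
  have hte : intRep (Representation.trivial (ZMod p) (levelGrp V U) (ZMod p)) =
      (trivOn (ZMod p) : Representation ℤ (levelGrp V U) (ZMod p)) := rfl
  have ht := card_eHom_intRep ν (Representation.trivial (ZMod p) (levelGrp V U) (ZMod p))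
  rw [hte] at ht
  have hT := card_eHom_intRep ν ω
  rw [hω] at hT
  show _ * _ ≤ _ * Nat.card (eHom ν (permFun (ZMod p) σ))
  rw [hT, ht, ← pow_add, ← pow_add]
  exact Nat.pow_le_pow_right (Fact.out : p.Prime).pos (by omega)

variable (U) in
/-- The global invariants are the roots of unity among the `S`-units. -/
theorem card_eHom_sUnit (hV : IsLevelSubgroup (Levels.unr S) (MonoidHom.id GQ) V)
    (hχ : ∀ g ∈ V, cycloChar p g = 1)
    [Fintype (levelGrp V U)] {A : Type} [AddCommGroup A] [Module (ZMod p) A]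
    [FiniteDimensional (ZMod p) A] (ν : Representation (ZMod p) (levelGrp V U) A) :
    homCard V ν (sUnitOp V S) =
      p ^ eDim ν (invOp (funRep (muRep p) V) (rightOp V U) (rightOp_comm V U)) := by
  classical
  haveI : Finite (GQ ⧸ V) := hV.finite_quotient
  haveI := finiteDimensional_funRep (p := p) hV.to_all
  have hinv : ∀ f : (funRep (muRep p) V).ρ.invariants, ∀ g : GQ,
      (f.1 (g : GQ ⧸ V) : ZMod p) = (cycloChar p g : ZMod p) * f.1 (1 : GQ ⧸ V) := fun f g => by
    have h := congrFun (f.2 g) (g : GQ ⧸ V)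
    rw [funRep_ρ_apply, muRep_apply, MulAction.Quotient.smul_mk, smul_eq_mul, inv_mul_cancel,
      QuotientGroup.mk_one] at h
    exact h.symm
  have hmem : ∀ i : ZMod p, (muInc p i : AlgebraicClosure ℚ) ∈ lvlFld V := fun i u =>
    gal_muInc_of_eq_one (hχ u u.2) i
  let mu : ZMod p → (lvlFld V)ˣ := fun i =>
    Units.mk0 ⟨_, hmem i⟩ fun h => (muInc p i).ne_zero (congrArg Subtype.val h)
  have hmu : ∀ i, (((mu i : lvlFld V)) : AlgebraicClosure ℚ) = muInc p i := fun _ => rfl
  have hext : ∀ a b : (lvlFld V)ˣ,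
      (((a : lvlFld V)) : AlgebraicClosure ℚ) = ((b : lvlFld V) : AlgebraicClosure ℚ) → a = b :=
    fun a b h => Units.ext (Subtype.ext h)
  have hmu_pow : ∀ i, mu i ^ p = 1 := fun i => hext _ _ (by
    rw [Units.val_pow_eq_pow_val, SubmonoidClass.coe_pow, hmu, ← Units.val_pow_eq_pow_val,
      muInc_pow_eq_one]
    rfl)
  have hpow : ∀ (v : HeightOneSpectrum (𝓞 (lvlFld V))) (a : (lvlFld V)ˣ),
      a ^ p = 1 → ordP v a = 0 := fun v a ha => by
    refine (ordP_eq_zero_iff v a).2 ?_
    have h : v.valuation (lvlFld V) (a : lvlFld V) ^ p = 1 := by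
      rw [← map_pow, ← Units.val_pow_eq_pow_val, ha, Units.val_one, map_one]
    exact (pow_eq_one_iff_of_nonneg zero_le (Fact.out : p.Prime).ne_zero).1 h
  let ι : (funRep (muRep p) V).ρ.invariants →+ sUnitGrp V S :=
    AddMonoidHom.mk' (fun f => ⟨Additive.ofMul (mu (f.1 (1 : GQ ⧸ V))), Finsupp.ext fun v => by
        rw [divOff_apply]
        exact hpow _ _ (hmu_pow _)⟩)
      fun f g => Subtype.ext (Additive.toMul.injective (hext _ _ (by
        show (muInc p ((f.1 (1 : GQ ⧸ V) : ZMod p) + g.1 (1 : GQ ⧸ V)) : AlgebraicClosure ℚ) =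
          (((mu (f.1 (1 : GQ ⧸ V)) * mu (g.1 (1 : GQ ⧸ V)) : (lvlFld V)ˣ) : lvlFld V) :
            AlgebraicClosure ℚ)
        rw [muInc_add, Units.val_mul, Units.val_mul, MulMemClass.coe_mul, hmu, hmu])))
  have hιi : Function.Injective ι := fun f g h => by
    have h' : (muInc p (f.1 (1 : GQ ⧸ V) : ZMod p)) = muInc p (g.1 (1 : GQ ⧸ V)) :=
      Units.ext (congrArg (fun a : sUnitGrp V S => (((a.1.toMul : (lvlFld V)ˣ) : lvlFld V) :
        AlgebraicClosure ℚ)) h)
    refine Subtype.ext (funext fun x => ?_)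
    induction x using QuotientGroup.induction_on with
    | _ t => rw [hinv f t, hinv g t, muInc_injective h']
  have hιe : ∀ (d : levelGrp V U) f, ι (intRep (invOp (funRep (muRep p) V) (rightOp V U)
      (rightOp_comm V U)) d f) = (sUnitOp V S).comp (levelGrp V U).subtype d (ι f) := by
    rintro ⟨d, hd⟩ f
    induction d using QuotientGroup.induction_on with
    | _ t =>
      refine Subtype.ext (Additive.toMul.injective (hext _ _ ?_))
      show (muInc p (f.1 ((1 : GQ ⧸ V) * (t : GQ ⧸ V))) : AlgebraicClosure ℚ) =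
        t (muInc p (f.1 (1 : GQ ⧸ V)) : AlgebraicClosure ℚ)
      rw [one_mul, gal_muInc, hinv f t]
  rw [← card_eHom_intRep, homCard]
  refine (Nat.card_eq_of_bijective (eHomMap ν _ _ ι hιe) ⟨fun f g h =>
    Subtype.ext (AddMonoidHom.ext fun n => hιi (DFunLike.congr_fun (congrArg Subtype.val h) n)),
    fun f => ?_⟩).symm
  have hsurj : ∀ n, ∃ x, ι x = f.1 n := fun n => by
    have hp0 := nsmul_apply_eq_zero (p := p) f.1 n
    have h1 : ((f.1 n).1.toMul) ^ p = 1 := by
      rw [← toMul_nsmul, ← AddSubgroup.coe_nsmul, hp0]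
      rfl
    obtain ⟨i, hi⟩ := exists_muInc_eq (w := unitsIncl (lvlFld V) (f.1 n).1.toMul)
      (by rw [← map_pow, h1, map_one])
    let x : (funRep (muRep p) V).ρ.invariants :=
      ⟨fun y => Quotient.liftOn' y (fun g => ((cycloChar p g : ZMod p) * i : ZMod p))
        (fun g g' h => by
          have e := hχ _ (QuotientGroup.leftRel_apply.1 h)
          rw [map_mul, map_inv, inv_mul_eq_one] at e
          simp only [e]),
        fun g => funext fun y => by
          induction y using QuotientGroup.induction_on with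
          | _ t =>
            show (cycloChar p g : ZMod p) * ((cycloChar p (g⁻¹ * t) : ZMod p) * i) =
              (cycloChar p t : ZMod p) * i
            rw [← mul_assoc, ← Units.val_mul, ← map_mul, mul_inv_cancel_left]⟩
    refine ⟨x, Subtype.ext (Additive.toMul.injective (hext _ _ ?_))⟩
    show (muInc p ((cycloChar p (1 : GQ) : ZMod p) * i) : AlgebraicClosure ℚ) = _
    rw [map_one, Units.val_one, one_mul, hi]
    rfl
  choose g hg using hsurj
  refine ⟨⟨AddMonoidHom.mk' g fun a b => hιi (by rw [map_add, hg, hg, hg, map_add]),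
    fun d n => hιi ?_⟩, Subtype.ext (AddMonoidHom.ext hg)⟩
  show ι (g (ν d n)) = ι (intRep _ d (g n))
  rw [hιe, hg, hg]
  exact (mem_eHom ν).1 f.2 d n

end finite

end Fermat.Agent.CFT.EulerChar
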